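import Fermat.Agent.CFT.Global.Defs

/-!
# Weak approximation and local `p`-th powers inside `Kˣ`
-/

set_option autoImplicit false

namespace Fermat.Agent.CFT.Global

open IsDedekindDomain NumberField WithZero Fermat.Agent.CFT.SUnits

section Indep

variable {ι G : Type*} [CommGroup G]

/-- A finite family of subgroups is independent if `G → ∏ G / H i` is surjective. -/
def Indep (S : Finset ι) (H : ι → Subgroup G) : Prop :=
  ∀ f : ι → G, ∃ x : G, ∀ i ∈ S, x / f i ∈ H i

lemma Indep.mono {S : Finset ι} {H K : ι → Subgroup G} (h : Indep S H)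
    (hle : ∀ i ∈ S, H i ≤ K i) : Indep S K := by
  intro f
  obtain ⟨x, hx⟩ := h f
  exact ⟨x, fun i hi => hle i hi (hx i hi)⟩

/-- the product of the quotient maps -/
def quotPi (S : Finset ι) (H : ι → Subgroup G) : G →* ((i : S) → G ⧸ H i) :=
  MonoidHom.pi fun i => QuotientGroup.mk' (H i)

lemma ker_quotPi (S : Finset ι) (H : ι → Subgroup G) : (quotPi S H).ker = ⨅ i ∈ S, H i := by
  ext x
  rw [MonoidHom.mem_ker, Subgroup.mem_iInf]
  simp only [Subgroup.mem_iInf]
  rw [funext_iff]
  simp only [Pi.one_apply, Subtype.forall]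
  refine forall_congr' fun i => forall_congr' fun hi => ?_
  change ((x : G) : G ⧸ H i) = 1 ↔ _
  rw [QuotientGroup.eq_one_iff]

lemma indep_iff (S : Finset ι) (H : ι → Subgroup G) :
    Indep S H ↔ Function.Surjective (quotPi S H) := by
  classical
  constructor
  · intro h y
    choose g hg using fun i : S => QuotientGroup.mk'_surjective (H i) (y i)
    obtain ⟨x, hx⟩ := h (fun i => if hi : i ∈ S then g ⟨i, hi⟩ else 1)
    refine ⟨x, ?_⟩
    ext i
    have h1 := hx i i.2
    rw [dif_pos i.2] at h1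
    rw [← hg i]
    change ((x : G) : G ⧸ H i) = _
    rw [QuotientGroup.mk'_apply, QuotientGroup.eq]
    rw [← inv_mem_iff]
    simpa [div_eq_mul_inv, mul_comm] using h1
  · intro h f
    obtain ⟨x, hx⟩ := h (fun i => QuotientGroup.mk' (H i) (f i))
    refine ⟨x, fun i hi => ?_⟩
    have := congrFun hx ⟨i, hi⟩
    change ((x : G) : G ⧸ H i) = ((f i : G) : G ⧸ H i) at this
    rw [QuotientGroup.eq] at this
    rw [← inv_mem_iff]
    simpa [div_eq_mul_inv, mul_comm] using this

lemma Indep.index_eq {S : Finset ι} {H : ι → Subgroup G} (h : Indep S H) :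
    (⨅ i ∈ S, H i).index = ∏ i ∈ S, (H i).index := by
  rw [← ker_quotPi, Subgroup.index_ker, MonoidHom.range_eq_top.mpr ((indep_iff S H).mp h),
    Subgroup.card_top, Nat.card_pi, ← Finset.prod_coe_sort S]
  rfl

lemma indep_of_index_eq {S : Finset ι} {H : ι → Subgroup G}
    (h : (⨅ i ∈ S, H i).index = ∏ i ∈ S, (H i).index) (h0 : ∀ i ∈ S, (H i).index ≠ 0) :
    Indep S H := by
  rw [indep_iff, ← MonoidHom.range_eq_top]
  have hfin : ∀ i : S, Finite (G ⧸ H i) := fun i => Nat.finite_of_card_ne_zero (h0 i i.2)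
  have : Finite ((i : S) → G ⧸ H i) := inferInstance
  apply Subgroup.eq_top_of_card_eq
  rw [← Subgroup.index_ker, ker_quotPi, h, Nat.card_pi, ← Finset.prod_coe_sort S]
  rfl

end Indep

section Approx

variable {K : Type*} [Field K] [NumberField K]

lemma valuation_ne_zero (v : HeightOneSpectrum (𝓞 K)) (x : Kˣ) : v.valuation K (x : K) ≠ 0 := by
  rw [valuation_eq_exp_neg_ord]
  exact exp_ne_zero

/-- Weak approximation in multiplicative form. -/
theorem indep_cong (S : Finset (HeightOneSpectrum (𝓞 K))) (n : ℕ) :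
    Indep S (fun v => cong v n) := by
  classical
  intro f
  rcases S.eq_empty_or_nonempty with rfl | hne
  · exact ⟨1, fun i hi => absurd hi (Finset.notMem_empty i)⟩
  -- common denominator
  obtain ⟨d, hd⟩ := IsLocalization.exist_integer_multiples_of_finset (nonZeroDivisors (𝓞 K))
    (S.image fun v => (f v : K))
  have hd0 : (d : 𝓞 K) ≠ 0 := nonZeroDivisors.coe_ne_zero d
  have hdK : algebraMap (𝓞 K) K d ≠ 0 := IsLocalization.to_map_ne_zero_of_mem_nonZeroDivisors K
    le_rfl d.2
  choose g hg using fun v : S => hd (f v) (Finset.mem_image_of_mem _ v.2)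
  have hg' : ∀ v : S, algebraMap (𝓞 K) K (g v) = algebraMap (𝓞 K) K d * f v := by
    intro v
    rw [hg v, Algebra.smul_def]
  -- exponents
  let dU : Kˣ := Units.mk0 _ hdK
  let e : HeightOneSpectrum (𝓞 K) → ℕ := fun v => n + 2 + (ord v dU + ord v (f v)).toNat
  obtain ⟨y, hy⟩ := IsDedekindDomain.exists_forall_sub_mem_ideal (s := S)
    (fun v : HeightOneSpectrum (𝓞 K) => v.asIdeal) e (fun v _ => v.prime)
    (fun v _ w _ hvw h => hvw (HeightOneSpectrum.ext h)) g
  have key : ∀ v ∈ S, v.valuation K (algebraMap (𝓞 K) K y - dU * f v) <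
      exp (-((n : ℤ) + 1)) * v.valuation K ((dU * f v : Kˣ) : K) := by
    intro v hv
    have h1 := hy v hv
    rw [← HeightOneSpectrum.intValuation_le_pow_iff_mem,
      ← HeightOneSpectrum.valuation_of_algebraMap (K := K)] at h1
    change v.valuation K (algebraMap (𝓞 K) K (y - g ⟨v, hv⟩)) ≤ _ at h1
    rw [map_sub, hg' ⟨v, hv⟩] at h1
    refine lt_of_le_of_lt h1 ?_
    rw [valuation_eq_exp_neg_ord, ← exp_add, exp_lt_exp, ord_mul]
    simp only [e]
    have := Int.self_le_toNat (ord v dU + ord v (f v))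
    push_cast
    omega
  have hy0 : algebraMap (𝓞 K) K y ≠ 0 := by
    obtain ⟨v, hv⟩ := hne
    intro h0
    have h1 := key v hv
    rw [h0, zero_sub, Valuation.map_neg, ← Units.val_mul] at h1
    have h2 : exp (-((n : ℤ) + 1)) * v.valuation K ((dU * f v : Kˣ) : K) ≤
        v.valuation K ((dU * f v : Kˣ) : K) := by
      apply mul_le_of_le_one_left'
      rw [← exp_zero, exp_le_exp]
      omega
    exact absurd (lt_of_lt_of_le h1 h2) (lt_irrefl _)
  refine ⟨Units.mk0 _ hy0 / dU, fun v hv => ?_⟩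
  rw [mem_cong]
  have h1 := key v hv
  have e1 : ((Units.mk0 _ hy0 / dU / f v : Kˣ) : K) - 1 =
      (algebraMap (𝓞 K) K y - dU * f v) * (((dU * f v : Kˣ) : K))⁻¹ := by
    push_cast
    have := (f v).ne_zero
    have := dU.ne_zero
    field_simp
    rfl
  rw [e1, map_mul, map_inv₀]
  have hpos : v.valuation K ((dU * f v : Kˣ) : K) ≠ 0 := valuation_ne_zero v _
  calc v.valuation K (algebraMap (𝓞 K) K y - dU * f v) * (v.valuation K ((dU * f v : Kˣ) : K))⁻¹
      ≤ exp (-((n : ℤ) + 1)) * v.valuation K ((dU * f v : Kˣ) : K) *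
        (v.valuation K ((dU * f v : Kˣ) : K))⁻¹ := by
        exact mul_le_mul_left h1.le _
    _ = exp (-((n : ℤ) + 1)) := by
        rw [mul_assoc, mul_inv_cancel₀ hpos, mul_one]

lemma cong_anti (v : HeightOneSpectrum (𝓞 K)) {m n : ℕ} (h : m ≤ n) : cong v n ≤ cong v m := by
  intro u hu
  rw [mem_cong] at hu ⊢
  refine hu.trans ?_
  rw [exp_le_exp]
  omega

lemma ord_eq_zero_of_mem_cong {v : HeightOneSpectrum (𝓞 K)} {n : ℕ} {u : Kˣ} (hu : u ∈ cong v n) :
    ord v u = 0 := by
  rw [ord_eq_zero_iff]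
  rw [mem_cong] at hu
  have hlt : v.valuation K ((u : K) - 1) < 1 := by
    refine lt_of_le_of_lt hu ?_
    rw [← exp_zero, exp_lt_exp]
    omega
  have : (u : K) = (u - 1) + 1 := by ring
  rw [this, Valuation.map_add_eq_of_lt_right _ (by simpa using hlt), map_one]

/-- one Newton step -/
lemma newton (p : ℕ) (hp : p ≠ 0) (v : HeightOneSpectrum (𝓞 K)) (e : ℕ)
    (he : v.valuation K (p : K) = exp (-(e : ℤ))) (m : ℕ) (hm : 2 * e ≤ m) :
    cong v m ≤ (powMonoidHom p : Kˣ →* Kˣ).range ⊔ cong v (m + 1) := by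
  intro u hu
  rw [mem_cong] at hu
  have hp0 : (p : K) ≠ 0 := by exact_mod_cast hp
  set s : K := ((u : K) - 1) / p with hs
  have hsv : v.valuation K s ≤ exp (-((m : ℤ) + 1) + e) := by
    rw [hs, map_div₀, he, div_eq_mul_inv, ← exp_neg, neg_neg, exp_add]
    exact mul_le_mul_left hu _
  have hs1 : v.valuation K s ≤ 1 := by
    refine hsv.trans ?_
    rw [← exp_zero, exp_le_exp]
    omega
  have hslt : v.valuation K s < 1 := by
    refine lt_of_le_of_lt hsv ?_
    rw [← exp_zero, exp_lt_exp]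
    omega
  have h1s : v.valuation K (1 + s) = 1 := by
    rw [Valuation.map_add_eq_of_lt_left _ (by simpa using hslt), map_one]
  have h1s0 : (1 + s) ≠ 0 := by
    intro h
    rw [h, map_zero] at h1s
    exact zero_ne_one h1s
  -- (1+s)^p = 1 + p s + s^2 * q
  obtain ⟨q, hq⟩ : ∃ q : Polynomial ℤ, ((1 : Polynomial ℤ) + Polynomial.X) ^ p =
      1 + (p : Polynomial ℤ) * Polynomial.X + Polynomial.X ^ 2 * q := by
    clear hm he hp hp0 hs hsv hs1 hslt h1s h1s0
    clear_value s
    induction p with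
    | zero => exact ⟨0, by simp⟩
    | succ k ih =>
      obtain ⟨q, hq⟩ := ih
      refine ⟨q + (k : Polynomial ℤ) + Polynomial.X * q, ?_⟩
      rw [pow_succ, hq]
      push_cast
      ring
  have hq' : (1 + s) ^ p = 1 + p * s + s ^ 2 * Polynomial.aeval s q := by
    have := congrArg (Polynomial.aeval s) hq
    simpa using this
  have hps : (p : K) * s = u - 1 := by
    rw [hs]
    field_simp
  have hqv : v.valuation K (Polynomial.aeval s q) ≤ 1 := by
    have hmem : Polynomial.aeval s q ∈ (v.valuation K).valuationSubring := by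
      rw [Polynomial.aeval_eq_sum_range]
      refine sum_mem fun i _ => ?_
      rw [zsmul_eq_mul]
      refine mul_mem (intCast_mem _ _) (pow_mem ?_ _)
      exact hs1
    exact hmem
  refine Subgroup.mem_sup.mpr ⟨Units.mk0 _ h1s0 ^ p, ⟨Units.mk0 _ h1s0, rfl⟩,
    u / Units.mk0 _ h1s0 ^ p, ?_, by rw [mul_div_cancel]⟩
  rw [mem_cong]
  have e1 : ((u / Units.mk0 _ h1s0 ^ p : Kˣ) : K) - 1 =
      -(s ^ 2 * Polynomial.aeval s q) * ((1 + s) ^ p)⁻¹ := by
    push_cast
    rw [Units.val_mk0, hq', hps]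
    have h2 : (1 + (↑u - 1) + s ^ 2 * Polynomial.aeval s q) ≠ 0 := by
      rw [← hps, ← hq']
      exact pow_ne_zero _ h1s0
    field_simp
    ring
  rw [e1, map_mul, Valuation.map_neg, map_mul, map_inv₀, map_pow, map_pow, h1s, one_pow, inv_one,
    mul_one]
  calc v.valuation K s ^ 2 * v.valuation K (Polynomial.aeval s q)
      ≤ v.valuation K s ^ 2 := mul_le_of_le_one_right' hqv
    _ ≤ (exp (-((m : ℤ) + 1) + e)) ^ 2 := pow_le_pow_left' hsv 2
    _ ≤ _ := by
      rw [← exp_nsmul, exp_le_exp, nsmul_eq_mul]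
      push_cast
      omega

lemma cong_le_of_newton (p : ℕ) (v : HeightOneSpectrum (𝓞 K)) (m : ℕ)
    (h : ∀ k, m ≤ k → cong v k ≤ (powMonoidHom p : Kˣ →* Kˣ).range ⊔ cong v (k + 1)) :
    cong v m ≤ locPow p v := by
  have : ∀ k, cong v m ≤ (powMonoidHom p : Kˣ →* Kˣ).range ⊔ cong v (m + k) := by
    intro k
    induction k with
    | zero => exact le_sup_right
    | succ k ih =>
      refine ih.trans (sup_le le_sup_left ((h (m + k) (by omega)).trans ?_))
      exact le_refl _
  rw [locPow]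
  refine le_iInf fun n => ?_
  rcases le_total n m with hn | hn
  · exact (cong_anti v hn).trans le_sup_right
  · obtain ⟨k, rfl⟩ := Nat.exists_eq_add_of_le hn
    exact this k

/-- `p`-adic valuation as `exp (-e)`. -/
lemma exists_val_natCast (p : ℕ) (hp : p ≠ 0) (v : HeightOneSpectrum (𝓞 K)) :
    ∃ e : ℕ, v.valuation K (p : K) = exp (-(e : ℤ)) := by
  have hp0 : (p : K) ≠ 0 := by exact_mod_cast hp
  have h1 := valuation_eq_exp_neg_ord K (R := 𝓞 K) v (Units.mk0 _ hp0)
  rw [Units.val_mk0] at h1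
  have h2 : 0 ≤ ord v (Units.mk0 _ hp0) := by
    rw [ord_nonneg_iff]
    have := v.valuation_le_one (K := K) (p : 𝓞 K)
    simpa using this
  refine ⟨(ord v (Units.mk0 _ hp0)).toNat, ?_⟩
  rw [h1, Int.toNat_of_nonneg h2]

/-- `locPow` is open. -/
theorem exists_cong_le_locPow (p : ℕ) (hp : p ≠ 0) (v : HeightOneSpectrum (𝓞 K)) :
    ∃ n, cong v n ≤ locPow p v := by
  obtain ⟨e, he⟩ := exists_val_natCast p hp v
  exact ⟨2 * e, cong_le_of_newton p v _ fun k hk => newton p hp v e he k hk⟩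

/-- away from `p`, principal units are local `p`-th powers. -/
theorem cong_zero_le_locPow (p : ℕ) (hp : p ≠ 0) (v : HeightOneSpectrum (𝓞 K))
    (hv : (p : 𝓞 K) ∉ v.asIdeal) : cong v 0 ≤ locPow p v := by
  have he : v.valuation K (p : K) = exp (-((0 : ℕ) : ℤ)) := by
    rw [Nat.cast_zero, neg_zero, exp_zero]
    have h1 := v.valuation_le_one (K := K) (p : 𝓞 K)
    have h2 := (v.valuation_lt_one_iff_mem (K := K) (p : 𝓞 K)).not.mpr hv
    have h3 := le_antisymm h1 (not_lt.mp h2)
    simpa using h3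
  exact cong_le_of_newton p v _ fun k hk => newton p hp v 0 he k (by omega)

lemma locPow_eq_of_not_mem (p : ℕ) (hp : p ≠ 0) (v : HeightOneSpectrum (𝓞 K))
    (hv : (p : 𝓞 K) ∉ v.asIdeal) : locPow p v = (powMonoidHom p : Kˣ →* Kˣ).range ⊔ cong v 0 := by
  apply le_antisymm
  · exact iInf_le _ 0
  · refine sup_le ?_ (cong_zero_le_locPow p hp v hv)
    rintro _ ⟨x, rfl⟩
    exact pow_mem_locPow p v x

/-- Weak approximation for local `p`-th powers. -/
theorem indep_locPow (p : ℕ) (hp : p ≠ 0) (S : Finset (HeightOneSpectrum (𝓞 K))) :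
    Indep S (fun v => locPow p v) := by
  choose n hn using fun v : HeightOneSpectrum (𝓞 K) => exists_cong_le_locPow p hp v
  refine (indep_cong S (S.sup n)).mono fun v hv => ?_
  exact (cong_anti v (Finset.le_sup hv)).trans (hn v)

end Approx

end Fermat.Agent.CFT.Global
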