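import Mathlib.FieldTheory.KummerExtension
import Fermat.Agent.CFT.Global.Approx

/-!
# Kummer extensions of degree `p` : the basic lemmas
-/

set_option autoImplicit false

namespace Fermat.Agent.CFT.Global

open IsDedekindDomain NumberField WithZero Fermat.Agent.CFT.SUnits Polynomial

universe u

section Field

variable {K : Type u} [Field K]

/-- The field `K(a^{1/p})`. -/
abbrev Rad (p : ℕ) (a : Kˣ) : Type u := AdjoinRoot (X ^ p - C (a : K))

lemma irreducible_of_not_pow {p : ℕ} (hp : p.Prime) {a : Kˣ} (ha : ∀ b : Kˣ, b ^ p ≠ a) :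
    Irreducible (X ^ p - C (a : K)) := by
  refine X_pow_sub_C_irreducible_of_prime hp fun b hb => ?_
  have hb0 : b ≠ 0 := by
    rintro rfl
    rw [zero_pow hp.ne_zero] at hb
    exact a.ne_zero hb.symm
  exact ha (Units.mk0 b hb0) (Units.ext hb)

/-- Kummer: elements of `K` which become `p`-th powers in `L = K(a^{1/p})`. -/
theorem exists_eq_pow_mul_pow' {L : Type*} [Field L] [Algebra K L] {p : ℕ} (hp : p.Prime) {ζ : K}
    (hζ : IsPrimitiveRoot ζ p) {a : Kˣ} (H : Irreducible (X ^ p - C (a : K)))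
    [IsSplittingField K L (X ^ p - C (a : K))] (α : L) (hαp : α ^ p = algebraMap K L (a : K))
    (β : L) (x : Kˣ) (hβ : β ^ p = algebraMap K L (x : K)) :
    ∃ (k : ℕ) (b : Kˣ), x = a ^ k * b ^ p := by
  have : NeZero p := ⟨hp.ne_zero⟩
  have hζ' : (primitiveRoots p K).Nonempty := ⟨ζ, (mem_primitiveRoots hp.pos).mpr hζ⟩
  have := isGalois_of_isSplittingField_X_pow_sub_C hζ' H L
  have : FiniteDimensional K L := IsSplittingField.finiteDimensional L (X ^ p - C (a : K))
  have hα0 : α ≠ 0 := by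
    intro h
    rw [h, zero_pow hp.ne_zero] at hαp
    exact a.ne_zero ((map_eq_zero (algebraMap K L)).mp hαp.symm)
  have hβ0 : β ≠ 0 := by
    intro h
    rw [h, zero_pow hp.ne_zero] at hβ
    exact x.ne_zero ((map_eq_zero (algebraMap K L)).mp hβ.symm)
  set e := autEquivZmod H L hζ with he
  set σ := e.symm (Multiplicative.ofAdd ((1 : ℕ) : ZMod p)) with hσ
  have hσα : σ α = ζ • α := by
    have := autEquivZmod_symm_apply_natCast H L hαp hζ 1
    rw [pow_one] at this
    exact this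
  -- `σ β = ζ^i β`
  obtain ⟨i, -, hi⟩ : ∃ i < p, (algebraMap K L ζ) ^ i = σ β / β := by
    refine (hζ.map_of_injective (algebraMap K L).injective).eq_pow_of_pow_eq_one ?_
    rw [_root_.div_pow, ← map_pow, hβ, AlgEquiv.commutes, div_self]
    exact (map_ne_zero (algebraMap K L)).mpr x.ne_zero
  have hσβ : σ β = (algebraMap K L ζ) ^ i * β := by
    rw [hi]
    field_simp
  have hfix : σ (β / α ^ i) = β / α ^ i := by
    have hζ0 : algebraMap K L ζ ≠ 0 :=
      (map_ne_zero (algebraMap K L)).mpr (hζ.ne_zero hp.ne_zero)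
    rw [map_div₀, map_pow, hσα, Algebra.smul_def, mul_pow, hσβ]
    field_simp
  have hmem : β / α ^ i ∈ Set.range (algebraMap K L) := by
    rw [IsGalois.mem_range_algebraMap_iff_fixed]
    intro τ
    obtain ⟨m, rfl⟩ : ∃ m : ℕ, σ ^ m = τ := by
      obtain ⟨m, hm⟩ : ∃ m : ℕ, (m : ZMod p) = (e τ).toAdd := ⟨((e τ).toAdd).val, by simp⟩
      refine ⟨m, e.injective ?_⟩
      rw [map_pow, hσ, MulEquiv.apply_symm_apply, ← ofAdd_nsmul]
      simp [hm]
    clear hi
    induction m with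
    | zero => simp
    | succ m ih =>
      rw [pow_succ, AlgEquiv.mul_apply, hfix, ih]
  obtain ⟨b, hb⟩ := hmem
  have hb0 : b ≠ 0 := by
    rintro rfl
    rw [map_zero] at hb
    have : β / α ^ i ≠ 0 := div_ne_zero hβ0 (pow_ne_zero _ hα0)
    exact this hb.symm
  refine ⟨i, Units.mk0 b hb0, Units.ext ?_⟩
  apply (algebraMap K L).injective
  have e2 : ((a ^ i * Units.mk0 b hb0 ^ p : Kˣ) : K) = (a : K) ^ i * b ^ p := by simp
  rw [e2, map_mul, map_pow, map_pow, hb, ← hαp, _root_.div_pow, ← pow_mul, ← pow_mul,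
    mul_comm p i, mul_div_cancel₀ _ (pow_ne_zero _ hα0)]
  exact hβ.symm

/-- Kummer: elements of `K` which become `p`-th powers in `K(a^{1/p})`. -/
theorem exists_eq_pow_mul_pow {p : ℕ} (hp : p.Prime) {ζ : K} (hζ : IsPrimitiveRoot ζ p) {a : Kˣ}
    [Hf : Fact (Irreducible (X ^ p - C (a : K)))] (β : Rad p a) (x : Kˣ)
    (hβ : β ^ p = algebraMap K (Rad p a) (x : K)) :
    ∃ (k : ℕ) (b : Kˣ), x = a ^ k * b ^ p := by
  have hζ' : (primitiveRoots p K).Nonempty := ⟨ζ, (mem_primitiveRoots hp.pos).mpr hζ⟩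
  have := isSplittingField_AdjoinRoot_X_pow_sub_C hζ' Hf.out
  exact exists_eq_pow_mul_pow' (L := Rad p a) hp hζ Hf.out (AdjoinRoot.root _)
    (root_X_pow_sub_C_pow p (a : K)) β x hβ

end Field

section NumberField

variable {K : Type u} [Field K] [NumberField K]

lemma numberField_rad {p : ℕ} (hp : p.Prime) {a : Kˣ} [Fact (Irreducible (X ^ p - C (a : K)))] :
    NumberField (Rad p a) := by
  have : Module.Finite K (Rad p a) :=
    (AdjoinRoot.powerBasis' (monic_X_pow_sub_C (a : K) hp.ne_zero)).finite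
  have : CharZero (Rad p a) := charZero_of_injective_algebraMap (algebraMap K (Rad p a)).injective
  exact NumberField.of_module_finite K (Rad p a)

omit [NumberField K] in
lemma adjoin_root_rad (p : ℕ) (a : Kˣ) [Fact (Irreducible (X ^ p - C (a : K)))] :
    IntermediateField.adjoin K {(AdjoinRoot.root (X ^ p - C (a : K)) : Rad p a)} = ⊤ := by
  rw [eq_top_iff]
  have h : Algebra.adjoin K {(AdjoinRoot.root (X ^ p - C (a : K)) : Rad p a)} = ⊤ :=
    AdjoinRoot.adjoinRoot_eq_top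
  intro x _
  have hx : x ∈ Algebra.adjoin K {(AdjoinRoot.root (X ^ p - C (a : K)) : Rad p a)} := by
    rw [h]
    trivial
  exact IntermediateField.algebra_adjoin_le_adjoin K _ hx

end NumberField

section Ext

variable {K : Type*} [Field K] [NumberField K] {L : Type*} [Field L] [NumberField L] [Algebra K L]

lemma map_mem_cong (w : HeightOneSpectrum (𝓞 L)) (n : ℕ) {u : Kˣ}
    (hu : u ∈ cong (w.under (𝓞 K)) n) :
    Units.map (algebraMap K L : K →* L) u ∈ cong w n := by
  rw [mem_cong] at hu ⊢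
  have hle : w.asIdeal.LiesOver (w.under (𝓞 K)).asIdeal := ⟨rfl⟩
  have e1 : ((Units.map (algebraMap K L : K →* L) u : Lˣ) : L) - 1 =
      algebraMap K L ((u : K) - 1) := by simp
  rw [e1, ← HeightOneSpectrum.valuation_liesOver L (w.under (𝓞 K)) w]
  have hne : (w.under (𝓞 K)).asIdeal.ramificationIdx' w.asIdeal ≠ 0 :=
    Ideal.IsDedekindDomain.ramificationIdx'_ne_zero_of_liesOver w.asIdeal (w.under (𝓞 K)).ne_bot
  have h1 : (w.under (𝓞 K)).valuation K ((u : K) - 1) ≤ 1 := by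
    refine hu.trans ?_
    rw [← exp_zero, exp_le_exp]
    omega
  calc (w.under (𝓞 K)).valuation K ((u : K) - 1) ^ _
      ≤ (w.under (𝓞 K)).valuation K ((u : K) - 1) ^ 1 :=
        pow_le_pow_right_of_le_one' h1 (Nat.one_le_iff_ne_zero.mpr hne)
    _ ≤ _ := by rw [pow_one]; exact hu

lemma map_mem_locPow (p : ℕ) (w : HeightOneSpectrum (𝓞 L)) {x : Kˣ}
    (hx : x ∈ locPow p (w.under (𝓞 K))) :
    Units.map (algebraMap K L : K →* L) x ∈ locPow p w := by
  rw [locPow, Subgroup.mem_iInf] at hx ⊢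
  intro n
  obtain ⟨_, ⟨y, rfl⟩, z, hz, rfl⟩ := Subgroup.mem_sup.mp (hx n)
  refine Subgroup.mem_sup.mpr ⟨_, ⟨Units.map (algebraMap K L : K →* L) y, rfl⟩, _,
    map_mem_cong w n hz, ?_⟩
  simp

lemma ord_map_eq_zero (w : HeightOneSpectrum (𝓞 L)) {x : Kˣ} (hx : ord (w.under (𝓞 K)) x = 0) :
    ord w (Units.map (algebraMap K L : K →* L) x) = 0 := by
  rw [ord_eq_zero_iff] at hx ⊢
  have hle : w.asIdeal.LiesOver (w.under (𝓞 K)).asIdeal := ⟨rfl⟩
  rw [Units.coe_map, MonoidHom.coe_coe, ← HeightOneSpectrum.valuation_liesOver L (w.under (𝓞 K)) w,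
    hx, one_pow]

lemma map_mem_E (S : Finset (HeightOneSpectrum (𝓞 K))) {x : Kˣ} (hx : x ∈ E S) :
    Units.map (algebraMap K L : K →* L) x ∈ E (above L S) := by
  rw [mem_E] at hx ⊢
  intro w hw
  exact ord_map_eq_zero w (hx _ (fun h => hw ((mem_above L).mpr h)))

end Ext

end Fermat.Agent.CFT.Global
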