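import Mathlib.FieldTheory.KummerExtension
import Mathlib.RepresentationTheory.Homological.GroupCohomology.Hilbert90
import Mathlib.RingTheory.Norm.Basic
import Mathlib.Tactic

/-!
# Kummer extensions of prime degree : generator, coordinates, Hilbert 90
-/

set_option autoImplicit false
set_option linter.unusedSectionVars false

namespace Fermat.Agent.CFT.KummerExt

open Polynomial IntermediateField

section Basic

variable {K L : Type*} [Field K] [Field L] [Algebra K L] {p : ℕ} (hp : p.Prime)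
  {ζ : K} (hζ : IsPrimitiveRoot ζ p) {a : K} (ha : ∀ b : K, b ^ p ≠ a)
  {α : L} (hα : α ^ p = algebraMap K L a) (hL : K⟮α⟯ = ⊤)

include hp ha hα in
lemma minpoly_eq : minpoly K α = X ^ p - C a := by
  symm
  apply minpoly.eq_of_irreducible_of_monic (X_pow_sub_C_irreducible_of_prime hp ha)
  · simp [hα]
  · exact monic_X_pow_sub_C _ hp.ne_zero

include hp hα in
lemma isIntegral_gen : IsIntegral K α :=
  ⟨X ^ p - C a, monic_X_pow_sub_C _ hp.ne_zero, by simp [hα]⟩

include hp ha hα hL in
lemma finrank_eq : Module.finrank K L = p := by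
  rw [← IntermediateField.finrank_top', ← hL,
    IntermediateField.adjoin.finrank (isIntegral_gen hp hα), minpoly_eq hp ha hα,
    natDegree_X_pow_sub_C]

include hp ha hα hL in
lemma finiteDimensional : FiniteDimensional K L :=
  Module.finite_of_finrank_pos (by rw [finrank_eq hp ha hα hL]; exact hp.pos)

include hp hζ in
lemma ne_zero_natCast : (p : K) ≠ 0 := by
  have : NeZero p := ⟨hp.ne_zero⟩
  exact hζ.neZero'.out

include hp hζ ha hα hL in
lemma exists_gen : IsGalois K L ∧ ∃ σ : L ≃ₐ[K] L, σ α = algebraMap K L ζ * α ∧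
    (∀ τ : L ≃ₐ[K] L, τ ∈ Subgroup.zpowers σ) ∧ orderOf σ = p := by
  have hfd := finiteDimensional hp ha hα hL
  have hfr := finrank_eq hp ha hα hL
  have hne : (primitiveRoots (Module.finrank K L) K).Nonempty := by
    rw [hfr]
    exact ⟨ζ, (mem_primitiveRoots hp.pos).mpr hζ⟩
  have hα' : α ^ (Module.finrank K L) = algebraMap K L a := by rw [hfr]; exact hα
  have hsf := isSplittingField_X_pow_sub_C_of_root_adjoin_eq_top hne hα' hL
  rw [hfr] at hsf hne
  have H := X_pow_sub_C_irreducible_of_prime hp ha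
  have hgal : IsGalois K L := isGalois_of_isSplittingField_X_pow_sub_C hne H L
  have : NeZero p := ⟨hp.ne_zero⟩
  refine ⟨hgal, (autEquivZmod H L hζ).symm (Multiplicative.ofAdd (1 : ZMod p)), ?_, ?_, ?_⟩
  · have := autEquivZmod_symm_apply_natCast H L hα hζ 1
    rw [Nat.cast_one, pow_one, Algebra.smul_def] at this
    exact this
  · intro τ
    obtain ⟨x, rfl⟩ := (autEquivZmod H L hζ).symm.surjective τ
    refine ⟨((x.toAdd).val : ℤ), ?_⟩
    change ((autEquivZmod H L hζ).symm (Multiplicative.ofAdd (1 : ZMod p))) ^ ((x.toAdd).val : ℤ) = _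
    rw [← map_zpow]
    congr 1
    rw [← ofAdd_zsmul]
    apply Multiplicative.toAdd.injective
    simp
  · rw [MulEquiv.orderOf_eq, orderOf_ofAdd_eq_addOrderOf, ZMod.addOrderOf_one]

/-- every element is a polynomial of degree `< p` in `α` -/
lemma exists_coords (hp : p.Prime) (hα : α ^ p = algebraMap K L a) (hL : K⟮α⟯ = ⊤) (y : L) :
    ∃ c : ℕ → K, y = ∑ i ∈ Finset.range p, algebraMap K L (c i) * α ^ i := by
  have h1 : y ∈ Algebra.adjoin K {α} := by
    rw [← IntermediateField.adjoin_simple_toSubalgebra_of_isAlgebraic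
      (isIntegral_gen hp hα).isAlgebraic, hL]
    trivial
  rw [Algebra.adjoin_singleton_eq_range_aeval] at h1
  obtain ⟨f, rfl⟩ := h1
  have hm : (X ^ p - C a : K[X]).Monic := monic_X_pow_sub_C _ hp.ne_zero
  have h2 : aeval α f = aeval α (f %ₘ (X ^ p - C a)) := by
    conv_lhs => rw [← modByMonic_add_div f (X ^ p - C a)]
    rw [map_add, map_mul]
    simp [hα]
  have h3 : (f %ₘ (X ^ p - C a)).natDegree < p := by
    have := natDegree_modByMonic_lt f hm (by
      intro h
      have := congrArg natDegree h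
      rw [natDegree_X_pow_sub_C, natDegree_one] at this
      exact hp.ne_zero this)
    rwa [natDegree_X_pow_sub_C] at this
  refine ⟨(f %ₘ (X ^ p - C a)).coeff, ?_⟩
  change aeval α f = _
  rw [h2, aeval_eq_sum_range' h3]
  exact Finset.sum_congr rfl fun i _ => Algebra.smul_def _ _

lemma pow_apply_gen {σ : L ≃ₐ[K] L} (hσ : σ α = algebraMap K L ζ * α) (j : ℕ) :
    (σ ^ j) α = algebraMap K L ζ ^ j * α := by
  induction j with
  | zero => simp
  | succ j ih =>
    rw [pow_succ', AlgEquiv.mul_apply, ih, map_mul, map_pow, AlgEquiv.commutes, hσ]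
    ring

include hp hζ in
/-- orthogonality relations: the `i`-th coordinate is a combination of the conjugates -/
lemma coord_formula {σ : L ≃ₐ[K] L} (hσ : σ α = algebraMap K L ζ * α) (c : ℕ → K) {i : ℕ}
    (hi : i < p) :
    ∑ j ∈ Finset.range p, ((algebraMap K L ζ ^ i)⁻¹) ^ j *
        (σ ^ j) (∑ k ∈ Finset.range p, algebraMap K L (c k) * α ^ k) =
      (p : L) * (algebraMap K L (c i) * α ^ i) := by
  have hz := hζ.map_of_injective (algebraMap K L).injective
  set z := algebraMap K L ζ with hzdef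
  have hz0 : z ≠ 0 := hz.ne_zero hp.ne_zero
  have e1 : ∀ j ∈ Finset.range p, ((z ^ i)⁻¹) ^ j *
      (σ ^ j) (∑ k ∈ Finset.range p, algebraMap K L (c k) * α ^ k) =
      ∑ k ∈ Finset.range p, (algebraMap K L (c k) * α ^ k) * ((z ^ k / z ^ i) ^ j) := by
    intro j _
    rw [map_sum, Finset.mul_sum]
    refine Finset.sum_congr rfl fun k _ => ?_
    rw [map_mul, map_pow, AlgEquiv.commutes, pow_apply_gen hσ, mul_pow, div_pow, ← pow_mul,
      ← pow_mul, ← pow_mul, inv_pow, ← pow_mul, mul_comm j k]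
    field_simp
    rw [← hzdef]
    ring
  rw [Finset.sum_congr rfl e1, Finset.sum_comm]
  have e2 : ∀ k ∈ Finset.range p,
      ∑ j ∈ Finset.range p, (algebraMap K L (c k) * α ^ k) * ((z ^ k / z ^ i) ^ j) =
      if k = i then (p : L) * (algebraMap K L (c i) * α ^ i) else 0 := by
    intro k hk
    rw [← Finset.mul_sum]
    split_ifs with hki
    · subst hki
      rw [div_self (pow_ne_zero _ hz0)]
      simp [mul_comm]
    · have h1 : z ^ k / z ^ i ≠ 1 := by
        intro h
        rw [div_eq_one_iff_eq (pow_ne_zero _ hz0)] at h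
        exact hki (hz.pow_inj (Finset.mem_range.mp hk) hi h)
      have h2 : (z ^ k / z ^ i) ^ p = 1 := by
        rw [div_pow, ← pow_mul, ← pow_mul, mul_comm k, mul_comm i, pow_mul, pow_mul, hz.pow_eq_one,
          one_pow, one_pow, div_one]
      have h3 := mul_geom_sum (z ^ k / z ^ i) p
      rw [h2, sub_self] at h3
      rcases mul_eq_zero.mp h3 with h | h
      · exact absurd (sub_eq_zero.mp h) h1
      · rw [h, mul_zero]
  rw [Finset.sum_congr rfl e2, Finset.sum_ite_eq' (Finset.range p) i]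
  rw [if_pos (Finset.mem_range.mpr hi)]

/-- the norm is the product over the powers of a generator -/
lemma norm_eq_prod_pow [FiniteDimensional K L] [IsGalois K L] {σ : L ≃ₐ[K] L}
    (hgen : ∀ τ : L ≃ₐ[K] L, τ ∈ Subgroup.zpowers σ) (hord : orderOf σ = p) (x : L) :
    algebraMap K L (Algebra.norm K x) = ∏ i ∈ Finset.range p, (σ ^ i) x := by
  rw [Algebra.norm_eq_prod_automorphisms]
  symm
  refine Finset.prod_bij (fun i _ => σ ^ i) (fun _ _ => Finset.mem_univ _) ?_ ?_ (fun _ _ => rfl)
  · intro i hi j hj h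
    rw [← hord, Finset.mem_range] at hi hj
    exact pow_injOn_Iio_orderOf hi hj h
  · intro τ _
    have h1 := hgen τ
    have hfin : IsOfFinOrder σ := isOfFinOrder_of_finite σ
    rw [← hfin.mem_powers_iff_mem_zpowers] at h1
    obtain ⟨n, hn⟩ := h1
    have hpos : 0 < orderOf σ := orderOf_pos σ
    refine ⟨n % p, ?_, ?_⟩
    · rw [Finset.mem_range, ← hord]; exact Nat.mod_lt _ hpos
    · rw [← hord, pow_mod_orderOf]; exact hn

/-- **Hilbert 90** for a cyclic group, product form (any universe) -/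
theorem hilbert90 {σ : L ≃ₐ[K] L} (hord : orderOf σ = p) (hp0 : 0 < p) {x : L}
    (hx : ∏ i ∈ Finset.range p, (σ ^ i) x = 1) : ∃ y : Lˣ, (y : L) / σ y = x := by
  let f : ℕ → L := fun j => ∏ i ∈ Finset.range j, (σ ^ i) x
  have hf0 : f 0 = 1 := by simp [f]
  have hfp : f p = 1 := hx
  have hfs : ∀ j, x * σ (f j) = f (j + 1) := by
    intro j
    simp only [f]
    rw [Finset.prod_range_succ', map_prod, mul_comm]
    congr 1
    refine Finset.prod_congr rfl fun i _ => ?_
    rw [pow_succ', AlgEquiv.mul_apply]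
  have hli : LinearIndependent L (fun (j : Fin p) => (((σ ^ (j : ℕ) : L ≃ₐ[K] L) : L →* L) : L → L)) := by
    refine LinearIndependent.comp (linearIndependent_monoidHom L L)
      (fun j : Fin p => ((σ ^ (j : ℕ) : L ≃ₐ[K] L) : L →* L)) ?_
    intro i j h
    have h1 : σ ^ (i : ℕ) = σ ^ (j : ℕ) := by
      ext z
      exact DFunLike.congr_fun h z
    apply Fin.ext
    exact pow_injOn_Iio_orderOf (by rw [Set.mem_Iio, hord]; exact i.2)
      (by rw [Set.mem_Iio, hord]; exact j.2) h1
  obtain ⟨θ, hθ⟩ : ∃ θ : L, ∑ j ∈ Finset.range p, f j * (σ ^ j) θ ≠ 0 := by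
    by_contra hcon
    push Not at hcon
    rw [Fintype.linearIndependent_iff] at hli
    have h1 := hli (fun j => f j) (by
      funext θ
      rw [Finset.sum_apply]
      have := hcon θ
      rw [Finset.sum_range] at this
      simpa [Pi.smul_apply] using this) ⟨0, hp0⟩
    rw [hf0] at h1
    exact one_ne_zero h1
  refine ⟨Units.mk0 _ hθ, ?_⟩
  rw [Units.val_mk0]
  have hσ0 : σ (∑ j ∈ Finset.range p, f j * (σ ^ j) θ) ≠ 0 := (_root_.map_ne_zero _).mpr hθ
  rw [div_eq_iff hσ0, map_sum, Finset.mul_sum]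
  have e1 : ∀ j ∈ Finset.range p, x * σ (f j * (σ ^ j) θ) = f (j + 1) * (σ ^ (j + 1)) θ := by
    intro j _
    rw [map_mul, ← mul_assoc, hfs, pow_succ', AlgEquiv.mul_apply]
  rw [Finset.sum_congr rfl e1]
  have e2 := Finset.sum_range_succ (fun j => f j * (σ ^ j) θ) p
  have e3 := Finset.sum_range_succ' (fun j => f j * (σ ^ j) θ) p
  have e4 : σ ^ p = 1 := by rw [← hord]; exact pow_orderOf_eq_one σ
  rw [e2, hfp, e4, hf0, pow_zero] at e3
  exact add_right_cancel e3

end Basic

end Fermat.Agent.CFT.KummerExt
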