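import Mathlib.NumberTheory.RamificationInertia.Valuation
import Mathlib.RingTheory.Norm.Basic
import Mathlib.RingTheory.AdjoinRoot
import Fermat.Agent.CFT.SUnits

/-!
# Shared definitions for the global part of class field theory mod `p`

`K` is a number field containing a primitive `p`-th root of unity, `S` is a finite set of
(finite) places of `K`.  All local objects are expressed *inside* `Kˣ`:

* `E S : Subgroup Kˣ` : the `S`-units,
* `cong v n` : the congruence subgroup `{u | v (u - 1) ≤ exp (-(n+1))}`,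
* `locPow p v : Subgroup Kˣ` : elements which are `p`-th powers in the completion `K_v`,
* `ClTrivial S` : every divisor is principal outside `S`, i.e. `Cl_S(K) = 0`,
* `above L S` : the places of `L` above `S`,
* `normUnits L S` : norms of the `S`-units of `L`.
-/

set_option autoImplicit false

namespace Fermat.Agent.CFT.Global

open IsDedekindDomain NumberField WithZero Fermat.Agent.CFT.SUnits

universe u

section Base

variable {K : Type*} [Field K] [NumberField K]

/-- The group of `S`-units as a subgroup of `Kˣ`. -/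
noncomputable abbrev E (S : Finset (HeightOneSpectrum (𝓞 K))) : Subgroup Kˣ :=
  (S : Set (HeightOneSpectrum (𝓞 K))).unit K

lemma mem_E {S : Finset (HeightOneSpectrum (𝓞 K))} {x : Kˣ} :
    x ∈ E S ↔ ∀ v ∉ S, ord v x = 0 := mem_unit_iff S x

lemma E_mono {S T : Finset (HeightOneSpectrum (𝓞 K))} (h : S ⊆ T) : E S ≤ E T := by
  intro x hx
  rw [mem_E] at hx ⊢
  exact fun v hv => hx v (fun h' => hv (h h'))

/-- `Cl_S(K) = 0`: every divisor is principal outside of `S`. -/
def ClTrivial (S : Finset (HeightOneSpectrum (𝓞 K))) : Prop :=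
  ∀ D : HeightOneSpectrum (𝓞 K) →₀ ℤ, ∃ x : Kˣ, ∀ v ∉ S, ord v x = D v

lemma ClTrivial.mono {S T : Finset (HeightOneSpectrum (𝓞 K))} (hS : ClTrivial S) (h : S ⊆ T) :
    ClTrivial T := by
  intro D
  obtain ⟨x, hx⟩ := hS D
  exact ⟨x, fun v hv => hx v (fun h' => hv (h h'))⟩

/-- `S` contains all places above `p`. -/
def AboveP (p : ℕ) (S : Finset (HeightOneSpectrum (𝓞 K))) : Prop :=
  ∀ v : HeightOneSpectrum (𝓞 K), (p : 𝓞 K) ∈ v.asIdeal → v ∈ S

/-- The congruence subgroup `1 + v^(n+1) O_v` inside `Kˣ`. -/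
def cong (v : HeightOneSpectrum (𝓞 K)) (n : ℕ) : Subgroup Kˣ where
  carrier := {u | v.valuation K ((u : K) - 1) ≤ exp (-((n : ℤ) + 1))}
  one_mem' := by simp
  mul_mem' := by
    intro a b ha hb
    have hb1 : v.valuation K (b : K) ≤ 1 := by
      have : (b : K) = (b - 1) + 1 := by ring
      rw [this]
      refine (Valuation.map_add _ _ _).trans (max_le (le_trans hb ?_) (by simp))
      rw [← exp_zero, exp_le_exp]
      omega
    have e : ((a * b : Kˣ) : K) - 1 = (a - 1) * b + (b - 1) := by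
      push_cast
      ring
    change v.valuation K (((a * b : Kˣ) : K) - 1) ≤ _
    rw [e]
    refine (Valuation.map_add _ _ _).trans (max_le ?_ hb)
    rw [map_mul]
    exact (mul_le_of_le_one_right' hb1).trans ha
  inv_mem' := by
    intro a ha
    have ha' : v.valuation K ((a : K) - 1) ≤ exp (-((n : ℤ) + 1)) := ha
    have hlt : v.valuation K ((a : K) - 1) < 1 := by
      refine lt_of_le_of_lt ha' ?_
      rw [← exp_zero, exp_lt_exp]
      omega
    have ha1 : v.valuation K (a : K) = 1 := by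
      have : (a : K) = (a - 1) + 1 := by ring
      rw [this, Valuation.map_add_eq_of_lt_right _ (by simpa using hlt), map_one]
    have e : ((a⁻¹ : Kˣ) : K) - 1 = -((a : K) - 1) * (a : K)⁻¹ := by
      rw [Units.val_inv_eq_inv_val]
      field_simp
      ring
    change v.valuation K (((a⁻¹ : Kˣ) : K) - 1) ≤ _
    rw [e, map_mul, Valuation.map_neg, map_inv₀, ha1, inv_one, mul_one]
    exact ha'

lemma mem_cong {v : HeightOneSpectrum (𝓞 K)} {n : ℕ} {u : Kˣ} :
    u ∈ cong v n ↔ v.valuation K ((u : K) - 1) ≤ exp (-((n : ℤ) + 1)) := Iff.rfl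

/-- Elements of `Kˣ` which are `p`-th powers in the completion `K_v`: for every `n` they are
congruent to a `p`-th power modulo `1 + v^(n+1)`. -/
def locPow (p : ℕ) (v : HeightOneSpectrum (𝓞 K)) : Subgroup Kˣ :=
  ⨅ n : ℕ, (powMonoidHom p : Kˣ →* Kˣ).range ⊔ cong v n

lemma mem_locPow {p : ℕ} {v : HeightOneSpectrum (𝓞 K)} {x : Kˣ} :
    x ∈ locPow p v ↔
      ∀ n : ℕ, ∃ y : Kˣ, v.valuation K ((x / y ^ p : Kˣ) - 1 : K) ≤ exp (-((n : ℤ) + 1)) := by
  rw [locPow, Subgroup.mem_iInf]
  refine forall_congr' fun n => ?_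
  rw [Subgroup.mem_sup]
  constructor
  · rintro ⟨_, ⟨y, rfl⟩, z, hz, rfl⟩
    refine ⟨y, ?_⟩
    rw [powMonoidHom_apply, mul_div_cancel_left]
    exact hz
  · rintro ⟨y, hy⟩
    exact ⟨y ^ p, ⟨y, rfl⟩, x / y ^ p, hy, by rw [mul_div_cancel]⟩

lemma pow_mem_locPow (p : ℕ) (v : HeightOneSpectrum (𝓞 K)) (x : Kˣ) : x ^ p ∈ locPow p v := by
  rw [locPow, Subgroup.mem_iInf]
  exact fun n => Subgroup.mem_sup_left ⟨x, rfl⟩

end Base

section Ext

variable {K : Type*} [Field K] [NumberField K] (L : Type*) [Field L] [NumberField L] [Algebra K L]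

lemma finite_above (S : Finset (HeightOneSpectrum (𝓞 K))) :
    {w : HeightOneSpectrum (𝓞 L) | w.under (𝓞 K) ∈ S}.Finite := by
  have : {w : HeightOneSpectrum (𝓞 L) | w.under (𝓞 K) ∈ S} =
      ⋃ v ∈ S, {w : HeightOneSpectrum (𝓞 L) | w.under (𝓞 K) = v} := by
    ext w
    simp
  rw [this]
  refine Set.Finite.biUnion S.finite_toSet fun v _ => ?_
  have hf := IsDedekindDomain.primesOver_finite v.asIdeal (𝓞 L)
  refine Set.Finite.of_finite_image (f := fun w : HeightOneSpectrum (𝓞 L) => w.asIdeal)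
    (hf.subset ?_) (fun a _ b _ h => HeightOneSpectrum.ext h)
  rintro _ ⟨w, hw, rfl⟩
  refine ⟨w.isPrime, ⟨?_⟩⟩
  have hw' : w.under (𝓞 K) = v := hw
  rw [← hw']
  rfl

/-- The places of `L` above `S`. -/
noncomputable def above (S : Finset (HeightOneSpectrum (𝓞 K))) :
    Finset (HeightOneSpectrum (𝓞 L)) := (finite_above L S).toFinset

@[simp] lemma mem_above {S : Finset (HeightOneSpectrum (𝓞 K))} {w : HeightOneSpectrum (𝓞 L)} :
    w ∈ above L S ↔ w.under (𝓞 K) ∈ S := by
  simp [above]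

/-- The norm on unit groups. -/
noncomputable def normU : Lˣ →* Kˣ := Units.map (Algebra.norm K : L →* K)

/-- Norms of `S`-units of `L`. -/
noncomputable def normUnits (S : Finset (HeightOneSpectrum (𝓞 K))) : Subgroup Kˣ :=
  (E (above L S)).map (normU L)

end Ext

open Classical in
/-- **The statement of the first inequality** (for fixed `p`): `K ∋ ζ_p`, `S ⊇ {v | p}`,
`Cl_S(K) = 0`, `a` an `S`-unit which is not a `p`-th power, `L = K(α)`, `α ^ p = a`. Then
`[E_S : N E_{L,S}]` divides `p ^ (c - 1)` where `c ≥ 1` is the number of `v ∈ S` such that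
`a` is not a `p`-th power in `K_v`. -/
def FirstInequality (p : ℕ) : Prop :=
  ∀ (K : Type u) [Field K] [NumberField K] (ζ : K), IsPrimitiveRoot ζ p →
  ∀ S : Finset (HeightOneSpectrum (𝓞 K)), AboveP p S → ClTrivial S →
  ∀ a : Kˣ, a ∈ E S → (∀ b : Kˣ, b ^ p ≠ a) →
  ∀ (L : Type u) [Field L] [NumberField L] [Algebra K L] (α : L),
    α ^ p = algebraMap K L a → IntermediateField.adjoin K {α} = ⊤ →
  (normUnits L S).relIndex (E S) ∣ p ^ ((S.filter (fun v => a ∉ locPow p v)).card - 1) ∧
    1 ≤ (S.filter (fun v => a ∉ locPow p v)).card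

/-- `x` is a norm from the algebra `K[X]/(X^p - a)`. -/
def IsNormFrom {K : Type u} [Field K] (p : ℕ) (a x : Kˣ) : Prop :=
  ∃ z : AdjoinRoot (Polynomial.X ^ p - Polynomial.C (a : K)), Algebra.norm K z = (x : K)

/-- **Local symbols** on a number field `K ∋ ζ_p` with values in `ZMod p`
(restricted to `Kˣ × Kˣ`; this is `inv_v (a, x)_v`). -/
structure LocalSymbols (p : ℕ) (K : Type u) [Field K] [NumberField K] where
  /-- the symbol -/
  sym : HeightOneSpectrum (𝓞 K) → Kˣ →* Kˣ →* Multiplicative (ZMod p)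
  /-- nondegeneracy -/
  mem_locPow_iff : ∀ v a, a ∈ locPow p v ↔ ∀ x, sym v a x = 1
  /-- skew-symmetry -/
  skew : ∀ v a b, sym v a b * sym v b a = 1
  /-- norms have trivial symbol -/
  norm_mem : ∀ v a x, IsNormFrom p a x → sym v a x = 1
  /-- units pair trivially with units away from `p` -/
  unit_mem : ∀ (v : HeightOneSpectrum (𝓞 K)), (p : 𝓞 K) ∉ v.asIdeal → ∀ a x : Kˣ,
    ord v a = 0 → ord v x = 0 → sym v a x = 1

/-- The local count: for `S ⊇ {v | p}`, `Kˣ / ⋂_{v ∈ S} (Kˣ ∩ K_v^{*p}) = ∏_{v ∈ S} K_v^*/K_v^{*p}`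
has order `p ^ (2 #S + [K : ℚ])` (weak approximation and local computation). -/
def LocalCount (p : ℕ) : Prop :=
  ∀ (K : Type u) [Field K] [NumberField K] (ζ : K), IsPrimitiveRoot ζ p →
  ∀ S : Finset (HeightOneSpectrum (𝓞 K)), AboveP p S →
    (⨅ v ∈ S, locPow p v).index = p ^ (2 * S.card + Module.finrank ℚ K)

end Fermat.Agent.CFT.Global
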