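import Fermat.Agent.CFT.Chevalley
import Mathlib.Tactic

/-!
# Multiplicative form of Chevalley's lemma for a subgroup stable under an endomorphism
-/

set_option autoImplicit false
set_option linter.unusedSectionVars false

namespace Fermat.Agent.CFT.ChevMul

open Chevalley

variable {M : Type*} [CommGroup M] (p : ℕ) (U : Subgroup M) (σ : Monoid.End M)
  (hU : ∀ x ∈ U, σ x ∈ U)

/-- fixed elements of `U` -/
def fixedIn : Subgroup M where
  carrier := {x | x ∈ U ∧ σ x = x}
  one_mem' := ⟨U.one_mem, map_one σ⟩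
  mul_mem' := fun ha hb => ⟨U.mul_mem ha.1 hb.1, by rw [map_mul, ha.2, hb.2]⟩
  inv_mem' := fun ha => ⟨U.inv_mem ha.1, by rw [map_inv, ha.2]⟩

lemma mem_fixedIn {x : M} : x ∈ fixedIn U σ ↔ x ∈ U ∧ σ x = x := Iff.rfl

/-- the norm `∏_{i<p} σ^i` -/
noncomputable def nrm : M →* M := ∏ i ∈ Finset.range p, ((σ ^ i : Monoid.End M) : M →* M)

lemma nrm_apply (x : M) : nrm p σ x = ∏ i ∈ Finset.range p, (σ ^ i) x := by
  rw [nrm, MonoidHom.finsetProd_apply]
  rfl

/-- the restriction of `σ` to `U` as an additive endomorphism of `Additive U` -/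
noncomputable def resEnd : AddMonoid.End (Additive U) :=
  MonoidHom.toAdditive ((σ.comp U.subtype).codRestrict U (fun x => hU x x.2) : U →* U)

lemma resEnd_apply (x : Additive U) :
    ((resEnd U σ hU x).toMul : M) = σ (x.toMul : M) := rfl

include hU in
lemma pow_mem (i : ℕ) {x : M} (hx : x ∈ U) : (σ ^ i) x ∈ U := by
  induction i generalizing x with
  | zero => exact hx
  | succ i ih => 
    rw [pow_succ]
    exact ih (hU x hx)

lemma resEnd_pow_apply (i : ℕ) (x : Additive U) :
    (((resEnd U σ hU ^ i) x).toMul : M) = (σ ^ i) (x.toMul : M) := by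
  induction i generalizing x with
  | zero => rfl
  | succ i ih =>
    rw [pow_succ, pow_succ]
    change (((resEnd U σ hU ^ i) (resEnd U σ hU x)).toMul : M) = (σ ^ i) (σ (x.toMul : M))
    rw [ih]
    rfl

lemma resEnd_pow_eq_one (hσ : ∀ x ∈ U, (σ ^ p) x = x) : resEnd U σ hU ^ p = 1 := by
  refine AddMonoidHom.ext fun x => ?_
  apply Additive.toMul.injective
  apply Subtype.ext
  exact (resEnd_pow_apply U σ hU p x).trans (hσ _ x.toMul.2)

lemma norm_resEnd_apply (x : Additive U) :
    ((norm p (resEnd U σ hU) x).toMul : M) = nrm p σ (x.toMul : M) := by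
  have e1 : norm p (resEnd U σ hU) x = ∑ i ∈ Finset.range p, (resEnd U σ hU ^ i) x :=
    AddMonoidHom.finsetSum_apply _ _ _
  rw [e1, toMul_sum, nrm_apply]
  have : ((∏ i ∈ Finset.range p, ((resEnd U σ hU ^ i) x).toMul : U) : M) =
      ∏ i ∈ Finset.range p, (((resEnd U σ hU ^ i) x).toMul : M) :=
    map_prod U.subtype _ _
  rw [this]
  exact Finset.prod_congr rfl fun i _ => resEnd_pow_apply U σ hU i x

/-- pushing a subgroup of `Additive U` to a subgroup of `M` -/
def push (H : AddSubgroup (Additive U)) : Subgroup M := (AddSubgroup.toSubgroup' H).map U.subtype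

lemma mem_push {H : AddSubgroup (Additive U)} {x : M} :
    x ∈ push U H ↔ ∃ y ∈ H, (y.toMul : M) = x := Iff.rfl

lemma relIndex_push (H H' : AddSubgroup (Additive U)) :
    (push U H).relIndex (push U H') = H.relIndex H' := by
  rw [push, push, Subgroup.relIndex_map_map_of_injective _ _ U.subtype_injective]
  rfl

lemma card_push (H : AddSubgroup (Additive U)) : Nat.card (push U H) = Nat.card H :=
  (Nat.card_congr ((AddSubgroup.toSubgroup' H).equivMapOfInjective U.subtype
    U.subtype_injective).toEquiv).symm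

lemma push_top : push U ⊤ = U := by
  ext x
  rw [mem_push]
  exact ⟨fun ⟨y, _, h⟩ => h ▸ y.toMul.2, fun h => ⟨Additive.ofMul ⟨x, h⟩, trivial, rfl⟩⟩

lemma push_eker : push U (eker (1 - resEnd U σ hU)) = fixedIn U σ := by
  ext x
  rw [mem_push, mem_fixedIn]
  constructor
  · rintro ⟨y, hy, rfl⟩
    refine ⟨y.toMul.2, ?_⟩
    have h1 : y - resEnd U σ hU y = 0 := hy
    have h2 := sub_eq_zero.mp h1
    conv_rhs => rw [h2]
    rfl
  · rintro ⟨hx, hσx⟩
    refine ⟨Additive.ofMul ⟨x, hx⟩, ?_, rfl⟩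
    change Additive.ofMul (⟨x, hx⟩ : U) - resEnd U σ hU (Additive.ofMul ⟨x, hx⟩) = 0
    rw [sub_eq_zero]
    apply Additive.toMul.injective
    apply Subtype.ext
    exact hσx.symm

lemma push_erange_norm : push U (erange (norm p (resEnd U σ hU))) = U.map (nrm p σ) := by
  ext x
  rw [mem_push]
  constructor
  · rintro ⟨_, ⟨z, rfl⟩, rfl⟩
    exact ⟨z.toMul, z.toMul.2, (norm_resEnd_apply p U σ hU z).symm⟩
  · rintro ⟨z, hz, rfl⟩
    exact ⟨_, ⟨Additive.ofMul ⟨z, hz⟩, rfl⟩, norm_resEnd_apply p U σ hU _⟩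

lemma natCast_apply_toMul (x : Additive U) :
    (((p : AddMonoid.End (Additive U)) x).toMul : M) = (x.toMul : M) ^ p := by
  rw [AddMonoid.End.natCast_apply]
  rfl

lemma push_map_natCast (H : AddSubgroup (Additive U)) :
    push U (H.map (p : AddMonoid.End (Additive U))) = (push U H).map (powMonoidHom p) := by
  ext x
  rw [mem_push, Subgroup.mem_map]
  constructor
  · rintro ⟨_, ⟨y, hy, rfl⟩, rfl⟩
    exact ⟨y.toMul, ⟨y, hy, rfl⟩, (natCast_apply_toMul p U y).symm⟩
  · rintro ⟨_, ⟨y, hy, rfl⟩, rfl⟩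
    exact ⟨_, ⟨y, hy, rfl⟩, natCast_apply_toMul p U y⟩

lemma erange_natCast_eq : erange (p : AddMonoid.End (Additive U)) =
    (⊤ : AddSubgroup (Additive U)).map (p : AddMonoid.End (Additive U)) :=
  AddMonoidHom.range_eq_map _

/-- `p`-torsion elements of a subgroup -/
def torsIn (H : Subgroup M) : Subgroup M := H ⊓ (powMonoidHom p : M →* M).ker

lemma mem_torsIn {H : Subgroup M} {x : M} : x ∈ torsIn p H ↔ x ∈ H ∧ x ^ p = 1 := Iff.rfl

lemma push_inf_eker (H : AddSubgroup (Additive U)) :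
    push U (H ⊓ eker (p : AddMonoid.End (Additive U))) = torsIn p (push U H) := by
  ext x
  rw [mem_push, mem_torsIn, mem_push]
  constructor
  · rintro ⟨y, ⟨hy, hy'⟩, rfl⟩
    refine ⟨⟨y, hy, rfl⟩, ?_⟩
    rw [← natCast_apply_toMul, mem_eker.mp hy']
    rfl
  · rintro ⟨⟨y, hy, rfl⟩, h⟩
    refine ⟨y, ⟨hy, ?_⟩, rfl⟩
    change (p : AddMonoid.End (Additive U)) y = 0
    apply Additive.toMul.injective
    apply Subtype.ext
    rw [natCast_apply_toMul, h]
    rfl

include hU in
/-- **Chevalley's lemma** in multiplicative form, when `H¹ = 0`. -/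
theorem chevalley_of_H1 (hp : p.Prime) (hσ : ∀ x ∈ U, (σ ^ p) x = x)
    (hker : Nat.card (torsIn p U) ≠ 0) (hidx : (U.map (powMonoidHom p)).relIndex U ≠ 0)
    (hH1 : ∀ x ∈ U, nrm p σ x = 1 → ∃ y ∈ U, y / σ y = x) :
    ((U.map (nrm p σ)).relIndex (fixedIn U σ)) ^ (p - 1) *
        (Nat.card (torsIn p (fixedIn U σ))) ^ p * (U.map (powMonoidHom p)).relIndex U =
      (((fixedIn U σ).map (powMonoidHom p)).relIndex (fixedIn U σ)) ^ p *
        Nat.card (torsIn p U) := by
  have hσ' := resEnd_pow_eq_one p U σ hU hσ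
  have e1 : Nat.card (eker (p : AddMonoid.End (Additive U))) = Nat.card (torsIn p U) := by
    have := card_push U (⊤ ⊓ eker (p : AddMonoid.End (Additive U)))
    rw [push_inf_eker, push_top, top_inf_eq] at this
    exact this.symm
  have e2 : (erange (p : AddMonoid.End (Additive U))).index =
      (U.map (powMonoidHom p)).relIndex U := by
    rw [← AddSubgroup.relIndex_top_right, erange_natCast_eq, ← relIndex_push, push_map_natCast,
      push_top]
  obtain ⟨h, -, -, -⟩ := chevalley p hp (resEnd U σ hU) hσ' (by rw [e1]; exact hker)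
    (by rw [e2]; exact hidx)
  have e3 : h0 p (resEnd U σ hU) = (U.map (nrm p σ)).relIndex (fixedIn U σ) := by
    rw [h0, ← relIndex_push, push_erange_norm, push_eker]
  have e4 : h1 p (resEnd U σ hU) = 1 := by
    rw [h1, AddSubgroup.relIndex_eq_one]
    intro x hx
    have h1 : nrm p σ (x.toMul : M) = 1 := by
      rw [← norm_resEnd_apply p U σ hU, mem_eker.mp hx]
      rfl
    obtain ⟨y, hy, hxy⟩ := hH1 _ x.toMul.2 h1
    refine ⟨Additive.ofMul ⟨y, hy⟩, ?_⟩
    apply Additive.toMul.injective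
    apply Subtype.ext
    rw [← hxy]
    rfl
  have e5 : Nat.card ↥(eker (1 - resEnd U σ hU) ⊓ eker (p : AddMonoid.End (Additive U))) =
      Nat.card (torsIn p (fixedIn U σ)) := by
    rw [← card_push, push_inf_eker, push_eker]
  have e6 : ((eker (1 - resEnd U σ hU)).map (p : AddMonoid.End (Additive U))).relIndex
      (eker (1 - resEnd U σ hU)) =
        ((fixedIn U σ).map (powMonoidHom p)).relIndex (fixedIn U σ) := by
    rw [← relIndex_push, push_map_natCast, push_eker]
  rw [e1, e2, e3, e4, e5, e6, one_pow, one_mul] at h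
  exact h

end Fermat.Agent.CFT.ChevMul
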