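import Fermat.Agent.CFT.Global.Image
import Mathlib.NumberTheory.NumberField.Cyclotomic.Ideal

/-!
# The number of places above `q` in a Galois extension; the place above `p` in `ℚ(ζ_p)`
-/

set_option autoImplicit false

namespace Fermat.Agent.CFT.Global

open Fermat.Agent.CFT.Bridge
open NumberField IsDedekindDomain

section

variable (K : Type*) [Field K] [NumberField K]

lemma span_le_of_mem {v : HeightOneSpectrum (𝓞 K)} {q : ℕ} (hq : q.Prime)
    (hv : (q : 𝓞 K) ∈ v.asIdeal) : v.asIdeal.LiesOver (Ideal.span {(q : ℤ)}) := by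
  have hqp : Prime (q : ℤ) := Nat.prime_iff_prime_int.1 hq
  have hmax : (Ideal.span {(q : ℤ)}).IsMaximal := by
    have h1 : (Ideal.span {(q : ℤ)}).IsPrime := (Ideal.span_singleton_prime hqp.ne_zero).2 hqp
    exact h1.isMaximal (by rw [Ne, Ideal.span_singleton_eq_bot]; exact hqp.ne_zero)
  rw [Ideal.liesOver_iff]
  refine hmax.eq_of_le ?_ ?_
  · have := v.isPrime
    exact Ideal.IsPrime.ne_top inferInstance
  · rw [Ideal.span_singleton_le_iff_mem, Ideal.mem_comap]
    simpa using hv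

lemma image_asIdeal {q : ℕ} (hq : q.Prime) :
    (fun v : HeightOneSpectrum (𝓞 K) => v.asIdeal) '' {v | (q : 𝓞 K) ∈ v.asIdeal} =
      Ideal.primesOver (Ideal.span {(q : ℤ)}) (𝓞 K) := by
  ext P
  constructor
  · rintro ⟨v, hv, rfl⟩
    exact ⟨v.isPrime, span_le_of_mem K hq hv⟩
  · rintro ⟨hP, hP'⟩
    have hqP : (q : 𝓞 K) ∈ P := by
      have h1 : (q : ℤ) ∈ P.under ℤ := by
        rw [← hP'.over]
        exact Ideal.mem_span_singleton_self _
      rw [Ideal.mem_comap] at h1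
      simpa using h1
    refine ⟨⟨P, hP, ?_⟩, hqP, rfl⟩
    rintro rfl
    rw [Ideal.mem_bot, Nat.cast_eq_zero] at hqP
    exact hq.ne_zero hqP

lemma asIdeal_injective :
    Function.Injective (fun v : HeightOneSpectrum (𝓞 K) => v.asIdeal) :=
  fun _ _ h => HeightOneSpectrum.ext h

/-- The number of places above `q` divides the degree of a Galois extension. -/
theorem ncard_places_dvd [IsGalois ℚ K] {q : ℕ} (hq : q.Prime) :
    {v : HeightOneSpectrum (𝓞 K) | (q : 𝓞 K) ∈ v.asIdeal}.ncard ∣ Module.finrank ℚ K := by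
  have hqp : Prime (q : ℤ) := Nat.prime_iff_prime_int.1 hq
  have h1 : (Ideal.span {(q : ℤ)}).IsPrime := (Ideal.span_singleton_prime hqp.ne_zero).2 hqp
  rw [← Set.ncard_image_of_injective _ (asIdeal_injective K), image_asIdeal K hq,
    ← IsGalois.card_aut_eq_finrank,
    ← Ideal.ncard_primesOver_mul_ramificationIdxIn_mul_inertiaDegIn (Ideal.span {(q : ℤ)})
      (𝓞 K) Gal(K/ℚ)]
  exact Dvd.intro _ rfl

/-- There is only one place above `p` in `ℚ(ζ_p)`. -/
theorem place_unique (p : ℕ) [hp : Fact p.Prime] [IsCyclotomicExtension {p} ℚ K]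
    {v w : HeightOneSpectrum (𝓞 K)} (hv : (p : 𝓞 K) ∈ v.asIdeal) (hw : (p : 𝓞 K) ∈ w.asIdeal) :
    v = w := by
  have h1 := IsCyclotomicExtension.Rat.ncard_primesOver_of_prime p K
  rw [Set.ncard_eq_one] at h1
  obtain ⟨P, hP⟩ := h1
  have h2 : v.asIdeal ∈ Ideal.primesOver (Ideal.span {(p : ℤ)}) (𝓞 K) :=
    ⟨v.isPrime, span_le_of_mem K hp.out hv⟩
  have h3 : w.asIdeal ∈ Ideal.primesOver (Ideal.span {(p : ℤ)}) (𝓞 K) :=
    ⟨w.isPrime, span_le_of_mem K hp.out hw⟩
  rw [hP, Set.mem_singleton_iff] at h2 h3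
  exact HeightOneSpectrum.ext (h2.trans h3.symm)

end

end Fermat.Agent.CFT.Global
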