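import Fermat.Agent.CFT.Global.H1
import Fermat.Agent.CFT.Global.ChevMul
import Fermat.Agent.CFT.SClass

/-!
# The first inequality for Kummer extensions of prime degree

For `L = K(a^{1/p})`, `ζ_p ∈ K`, `Cl_S(K) = 0`, `S ⊇ {v ∣ p}`, `a ∈ E_S` not a `p`-th power:
`[E_S : N E_{L,S}]` divides `p^(c-1)`, where `c ≥ 1` is the number of `v ∈ S` for which `a` is not a
local `p`-th power.
-/

set_option autoImplicit false
set_option linter.unusedSectionVars false

namespace Fermat.Agent.CFT.FirstIneq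

universe u

open IsDedekindDomain NumberField WithZero Global SUnits Places KummerExt IntermediateField ChevMul

section Aux

lemma relIndex_map_pow {G : Type*} [CommGroup G] (H : Subgroup G) (n : ℕ) :
    (H.map (powMonoidHom n)).relIndex H = (powMonoidHom n : H →* H).range.index := by
  rw [Subgroup.relIndex]
  congr 1
  ext ⟨x, hx⟩
  rw [Subgroup.mem_subgroupOf, Subgroup.mem_map, MonoidHom.mem_range]
  constructor
  · rintro ⟨y, hy, hyx⟩
    exact ⟨⟨y, hy⟩, Subtype.ext hyx⟩
  · rintro ⟨y, hy⟩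
    exact ⟨y, y.2, congrArg Subtype.val hy⟩

end Aux

section Split

variable {K : Type*} [Field K] [NumberField K] {L : Type*} [Field L] [NumberField L] [Algebra K L]
  {p : ℕ} (hp : p.Prime) {ζ : K} (hζ : IsPrimitiveRoot ζ p) {a : Kˣ}
  {α : L} (hα : α ^ p = algebraMap K L a)

include hp hζ hα in
/-- if `a` is a local `p`-th power at `v` then `σ` moves each place above `v`. -/
lemma conj_ne_of_mem_locPow {v : HeightOneSpectrum (𝓞 K)} (hav : a ∈ locPow p v)
    {σ : L ≃ₐ[K] L} (hσ : σ α = algebraMap K L ζ * α) (w : HeightOneSpectrum (𝓞 L))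
    (hw : w.under (𝓞 K) = v) : conj σ w ≠ w := by
  intro hfix
  have hinv := valuation_apply_of_conj_eq σ w hfix
  have hζ1 : ζ - 1 ≠ 0 := sub_ne_zero.mpr (hζ.ne_one hp.one_lt)
  have hα0 : α ≠ 0 := by
    rintro rfl
    rw [zero_pow hp.ne_zero] at hα
    exact (map_ne_zero (algebraMap K L)).mpr a.ne_zero hα.symm
  -- choose an approximate root
  obtain ⟨k, hk⟩ : ∃ k : ℤ, v.valuation K ((ζ - 1) ^ p) = exp k :=
    ⟨log _, (exp_log ((Valuation.ne_zero_iff _).mpr (pow_ne_zero _ hζ1))).symm⟩
  obtain ⟨y, hy⟩ := mem_locPow.mp hav (k.natAbs)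
  have hlt1 : v.valuation K ((a / y ^ p : Kˣ) - 1 : K) < 1 := by
    refine lt_of_le_of_lt hy ?_
    rw [← exp_zero, exp_lt_exp]
    omega
  have hval1 : v.valuation K ((a / y ^ p : Kˣ) : K) = 1 := by
    have : ((a / y ^ p : Kˣ) : K) = ((a / y ^ p : Kˣ) - 1 : K) + 1 := by ring
    rw [this, Valuation.map_add_eq_of_lt_right _ (by simpa using hlt1), map_one]
  have hy0 : (y : K) ^ p ≠ 0 := pow_ne_zero _ y.ne_zero
  have hcoe : ((a / y ^ p : Kˣ) : K) = (a : K) / (y : K) ^ p := by
    rw [Units.val_div_eq_div_val, Units.val_pow_eq_pow_val]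
  have hvy : v.valuation K ((y : K) ^ p) = v.valuation K (a : K) := by
    rw [hcoe, map_div₀] at hval1
    exact ((div_eq_one_iff_eq ((Valuation.ne_zero_iff _).mpr hy0)).mp hval1).symm
  have hva : v.valuation K (a : K) ≠ 0 := (Valuation.ne_zero_iff _).mpr a.ne_zero
  have hdiff : v.valuation K ((a : K) - (y : K) ^ p) < v.valuation K ((ζ - 1) ^ p * a) := by
    have e1 : (a : K) - (y : K) ^ p = (y : K) ^ p * (((a / y ^ p : Kˣ) : K) - 1) := by
      rw [hcoe]
      field_simp
    rw [e1, map_mul, hvy, map_mul, hk, mul_comm (exp k)]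
    refine mul_lt_mul_of_pos_left ?_ (zero_lt_iff.mpr hva)
    refine lt_of_le_of_lt hy ?_
    rw [exp_lt_exp]
    omega
  -- upstairs
  set z := algebraMap K L ζ with hz
  have hzp := hζ.map_of_injective (algebraMap K L).injective
  rw [← hz] at hzp
  set b := algebraMap K L (y : K) with hb
  have hup : w.valuation L (α ^ p - b ^ p) < w.valuation L ((z - 1) * α) ^ p := by
    have e1 : α ^ p - b ^ p = algebraMap K L ((a : K) - (y : K) ^ p) := by
      rw [hα, hb, map_sub, map_pow]
    have e2 : w.valuation L ((z - 1) * α) ^ p =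
        w.valuation L (algebraMap K L ((ζ - 1) ^ p * a)) := by
      rw [← map_pow, mul_pow, hα, map_mul (algebraMap K L), map_pow (algebraMap K L), map_sub,
        map_one]
    rw [e1, e2, valuation_algebraMap_lt_iff, hw]
    exact hdiff
  obtain ⟨η, hη⟩ : ∃ η ∈ Polynomial.nthRootsFinset p (1 : L),
      w.valuation L (α - η * b) < w.valuation L ((z - 1) * α) := by
    by_contra hcon
    push Not at hcon
    rw [hzp.pow_sub_pow_eq_prod_sub_mul _ _ hp.pos, map_prod] at hup
    refine absurd hup (not_lt.mpr ?_)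
    calc w.valuation L ((z - 1) * α) ^ p
        = ∏ η ∈ Polynomial.nthRootsFinset p (1 : L), w.valuation L ((z - 1) * α) := by
          rw [Finset.prod_const, hzp.card_nthRootsFinset]
      _ ≤ _ := Finset.prod_le_prod' fun η hη => hcon η hη
  obtain ⟨hηr, hη⟩ := hη
  -- `η` is in `K`
  have : NeZero p := ⟨hp.ne_zero⟩
  obtain ⟨i, -, hi⟩ := hzp.eq_pow_of_pow_eq_one
    ((Polynomial.mem_nthRootsFinset hp.pos _).mp hηr)
  have hση : σ (α - η * b) = z * α - η * b := by
    rw [map_sub, map_mul, hσ, hb, AlgEquiv.commutes, ← hi, map_pow, hz, AlgEquiv.commutes]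
  have h1 : w.valuation L (z * α - η * b) < w.valuation L ((z - 1) * α) := by
    rw [← hση, hinv]
    exact hη
  have h2 : (z - 1) * α = (z * α - η * b) - (α - η * b) := by ring
  have h3 : w.valuation L ((z - 1) * α) < w.valuation L ((z - 1) * α) := by
    conv_lhs => rw [h2]
    exact Valuation.map_sub_lt _ h1 hη
  exact lt_irrefl _ h3

include hp hζ hα in
lemma card_le_of_mem_locPow [FiniteDimensional K L] {v : HeightOneSpectrum (𝓞 K)}
    (hav : a ∈ locPow p v)
    {σ : L ≃ₐ[K] L} (hσ : σ α = algebraMap K L ζ * α)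
    (hcard : Nat.card (L ≃ₐ[K] L) = p)
    (F : Finset (HeightOneSpectrum (𝓞 L))) (hF : ∀ w, w.under (𝓞 K) = v → w ∈ F) :
    p ≤ F.card := by
  classical
  obtain ⟨w, hw⟩ := exists_below_eq L v
  letI := conjAction (K := K) (L := L)
  have hsm : ∀ (τ : L ≃ₐ[K] L) (w : HeightOneSpectrum (𝓞 L)), τ • w = conj τ w := fun _ _ => rfl
  have hstab : MulAction.stabilizer (L ≃ₐ[K] L) w = ⊥ := by
    have : Fact (Nat.card (L ≃ₐ[K] L)).Prime := ⟨by rw [hcard]; exact hp⟩
    rcases Subgroup.eq_bot_or_eq_top_of_prime_card (MulAction.stabilizer (L ≃ₐ[K] L) w) with h | h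
    · exact h
    · exfalso
      have h1 : σ ∈ MulAction.stabilizer (L ≃ₐ[K] L) w := by rw [h]; trivial
      rw [MulAction.mem_stabilizer_iff, hsm] at h1
      exact conj_ne_of_mem_locPow hp hζ hα hav hσ w hw h1
  have hinj : Function.Injective fun τ : L ≃ₐ[K] L => τ • w := by
    intro τ τ' h
    have h1 : τ'⁻¹ * τ ∈ MulAction.stabilizer (L ≃ₐ[K] L) w := by
      rw [MulAction.mem_stabilizer_iff, mul_smul]
      have h2 : τ • w = τ' • w := h
      rw [h2, inv_smul_smul]
    rw [hstab, Subgroup.mem_bot] at h1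
    exact (inv_mul_eq_one.mp h1).symm
  rw [← hcard, Nat.card_eq_fintype_card, ← Finset.card_univ]
  refine Finset.card_le_card_of_injOn (fun τ : L ≃ₐ[K] L => τ • w) (fun τ _ => hF _ ?_)
    (fun τ _ τ' _ h => hinj h)
  change (conj τ w).under (𝓞 K) = v
  rw [below_conj, hw]

open Classical in
include hp hζ hα in
lemma card_above_ge [FiniteDimensional K L] (S : Finset (HeightOneSpectrum (𝓞 K)))
    {σ : L ≃ₐ[K] L} (hσ : σ α = algebraMap K L ζ * α)
    (hcard : Nat.card (L ≃ₐ[K] L) = p) :
    p * S.card ≤ (above L S).card + (p - 1) * (S.filter (fun v => a ∉ locPow p v)).card := by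
  have h1 : (above L S).card = ∑ v ∈ S, ((above L S).filter fun w => w.under (𝓞 K) = v).card :=
    Finset.card_eq_sum_card_fiberwise fun w hw => (mem_above L).mp hw
  have h2 : ∀ v ∈ S, (if a ∉ locPow p v then 1 else p) ≤
      ((above L S).filter fun w => w.under (𝓞 K) = v).card := by
    intro v hv
    by_cases h : a ∈ locPow p v
    · rw [if_neg (not_not.mpr h)]
      exact card_le_of_mem_locPow hp hζ hα h hσ hcard _ fun w hw =>
        Finset.mem_filter.mpr ⟨(mem_above L).mpr (by rw [hw]; exact hv), hw⟩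
    · rw [if_pos h, Nat.one_le_iff_ne_zero, Finset.card_ne_zero]
      obtain ⟨w, hw⟩ := exists_below_eq L v
      exact ⟨w, Finset.mem_filter.mpr ⟨(mem_above L).mpr (by rw [hw]; exact hv), hw⟩⟩
  have h3 := Finset.sum_le_sum h2
  rw [← h1, Finset.sum_ite, Finset.sum_const, Finset.sum_const, smul_eq_mul, smul_eq_mul,
    mul_one] at h3
  have h4 := Finset.card_filter_add_card_filter_not (s := S) (fun v => a ∉ locPow p v)
  have h5 : 1 ≤ p := hp.pos
  calc p * S.card
      = p * (S.filter (fun v => a ∉ locPow p v)).card +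
          (S.filter (fun v => ¬ (a ∉ locPow p v))).card * p := by rw [← h4]; ring
    _ = ((S.filter (fun v => a ∉ locPow p v)).card +
          (S.filter (fun v => ¬ (a ∉ locPow p v))).card * p) +
        (p - 1) * (S.filter (fun v => a ∉ locPow p v)).card := by
          obtain ⟨q, rfl⟩ : ∃ q, p = q + 1 := ⟨p - 1, by omega⟩
          simp only [Nat.add_sub_cancel]
          ring
    _ ≤ _ := Nat.add_le_add_right h3 _

end Split

section Main

variable {K : Type*} [Field K] [NumberField K] {L : Type*} [Field L] [NumberField L] [Algebra K L]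

lemma relIndex_pow_E (S : Finset (HeightOneSpectrum (𝓞 K))) {n : ℕ} (hn : n ≠ 0) {ζ : K}
    (hζ : IsPrimitiveRoot ζ n) :
    ((E S).map (powMonoidHom n)).relIndex (E S) = n ^ (Units.rank K + 1 + S.card) := by
  rw [relIndex_map_pow]
  exact index_pow_sunits_of_isPrimitiveRoot S hn hζ

lemma card_torsIn_E (S : Finset (HeightOneSpectrum (𝓞 K))) {n : ℕ} (hn : n ≠ 0) {ζ : K}
    (hζ : IsPrimitiveRoot ζ n) : Nat.card (torsIn n (E S)) = n := by
  have : torsIn n (E S) = rootsOfUnity n K := by
    ext x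
    rw [mem_torsIn, mem_rootsOfUnity]
    exact ⟨fun h => h.2, fun h => ⟨mem_unit_of_pow_eq_one S hn h, h⟩⟩
  rw [this]
  exact card_rootsOfUnity_of_isPrimitiveRoot hn hζ

variable (K L) in
/-- the embedding `Kˣ → Lˣ` -/
noncomputable abbrev jU : Kˣ →* Lˣ := Units.map (algebraMap K L : K →* L)

lemma jU_injective : Function.Injective (jU K L) :=
  Units.map_injective (algebraMap K L).injective

lemma jU_mem_E_iff {S : Finset (HeightOneSpectrum (𝓞 K))} {x : Kˣ} :
    jU K L x ∈ E (above L S) ↔ x ∈ E S := by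
  rw [mem_E_iff_valuation, mem_E_iff_valuation]
  constructor
  · intro h v hv
    obtain ⟨w, hw⟩ := exists_below_eq L v
    have h1 := h w (by rw [mem_above, hw]; exact hv)
    have h2 := (valuation_algebraMap_eq_one_iff w (x : K)).mp h1
    rwa [hw] at h2
  · intro h w hw
    rw [mem_above] at hw
    exact (valuation_algebraMap_eq_one_iff w (x : K)).mpr (h _ hw)

variable {p : ℕ} (hp : p.Prime) (hp2 : p ≠ 2) {ζ : K} (hζ : IsPrimitiveRoot ζ p)
  {S : Finset (HeightOneSpectrum (𝓞 K))}
  (hSp : AboveP p S) (hCl : ClTrivial S) {a : Kˣ} (haS : a ∈ E S) (ha : ∀ b : Kˣ, b ^ p ≠ a)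
  {α : L} (hα : α ^ p = algebraMap K L a) (hL : K⟮α⟯ = ⊤)

/-- the action of an automorphism on units, as a monoid endomorphism -/
noncomputable def galEnd (σ : L ≃ₐ[K] L) : Monoid.End Lˣ := Units.map (σ : L →* L)

lemma galEnd_apply (σ : L ≃ₐ[K] L) (x : Lˣ) : ((galEnd σ x : Lˣ) : L) = σ (x : L) := rfl

lemma galEnd_pow_apply (σ : L ≃ₐ[K] L) (i : ℕ) (x : Lˣ) :
    (((galEnd σ ^ i) x : Lˣ) : L) = (σ ^ i) (x : L) := by
  induction i generalizing x with
  | zero =>
    rw [pow_zero, pow_zero]
    rfl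
  | succ i ih =>
    rw [pow_succ, pow_succ]
    exact ih _

include hp hp2 hζ hSp hCl haS ha hα hL in
open Classical in
theorem first_inequality :
    (normUnits L S).relIndex (E S) ∣ p ^ ((S.filter (fun v => a ∉ locPow p v)).card - 1) ∧
    1 ≤ (S.filter (fun v => a ∉ locPow p v)).card := by
  have ha' : ∀ b : K, b ^ p ≠ (a : K) := by
    intro b hb
    have hb0 : b ≠ 0 := by
      rintro rfl
      rw [zero_pow hp.ne_zero] at hb
      exact a.ne_zero hb.symm
    exact ha (Units.mk0 b hb0) (Units.ext (by simpa using hb))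
  obtain ⟨hgal, σ, hσ, hgen, hord⟩ := exists_gen hp hζ ha' hα hL
  have hfd := finiteDimensional hp ha' hα hL
  have hcard : Nat.card (L ≃ₐ[K] L) = p := by
    rw [IsGalois.card_aut_eq_finrank, finrank_eq hp ha' hα hL]
  have hζL := hζ.map_of_injective (algebraMap K L).injective
  set σ' : Monoid.End Lˣ := galEnd σ with hσ'
  have hU : ∀ x ∈ E (above L S), σ' x ∈ E (above L S) := fun x hx => map_mem_E σ hx
  have hσp : ∀ x ∈ E (above L S), (σ' ^ p) x = x := by
    intro x _
    apply Units.ext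
    rw [hσ', galEnd_pow_apply, ← hord, pow_orderOf_eq_one]
    rfl
  have hnrm : ∀ x : Lˣ, nrm p σ' x = jU K L (normU L x) := by
    intro x
    apply Units.ext
    rw [nrm_apply, Units.coe_prod]
    have : ∀ i ∈ Finset.range p, (((σ' ^ i) x : Lˣ) : L) = (σ ^ i) (x : L) :=
      fun i _ => galEnd_pow_apply σ i x
    rw [Finset.prod_congr rfl this, ← norm_eq_prod_pow hgen hord]
    rfl
  have hfix : fixedIn (E (above L S)) σ' = (E S).map (jU K L) := by
    ext x
    rw [mem_fixedIn, Subgroup.mem_map]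
    constructor
    · rintro ⟨hx, hxσ⟩
      have h1 : ∀ τ : L ≃ₐ[K] L, τ (x : L) = x := by
        intro τ
        have h2 : σ (x : L) = x := congrArg Units.val hxσ
        have h3 : σ ∈ MulAction.stabilizer (L ≃ₐ[K] L) (x : L) := h2
        have h4 : Subgroup.zpowers σ ≤ MulAction.stabilizer (L ≃ₐ[K] L) (x : L) :=
          Subgroup.zpowers_le.mpr h3
        exact h4 (hgen τ)
      obtain ⟨y, hy⟩ := (IsGalois.mem_range_algebraMap_iff_fixed (F := K) (x : L)).mpr h1
      have hy0 : y ≠ 0 := by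
        rintro rfl
        rw [map_zero] at hy
        exact x.ne_zero hy.symm
      have hyx : jU K L (Units.mk0 y hy0) = x := Units.ext hy
      refine ⟨Units.mk0 y hy0, ?_, hyx⟩
      rw [← jU_mem_E_iff (L := L), hyx]
      exact hx
    · rintro ⟨y, hy, rfl⟩
      refine ⟨jU_mem_E_iff.mpr hy, ?_⟩
      apply Units.ext
      exact σ.commutes (y : K)
  have hker : Nat.card (torsIn p (E (above L S))) = p := card_torsIn_E _ hp.ne_zero hζL
  have hidx : ((E (above L S)).map (powMonoidHom p)).relIndex (E (above L S)) =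
      p ^ (Units.rank L + 1 + (above L S).card) := relIndex_pow_E _ hp.ne_zero hζL
  have key := chevalley_of_H1 p (E (above L S)) σ' hU hp hσp
    (by rw [hker]; exact hp.ne_zero) (by rw [hidx]; exact pow_ne_zero _ hp.ne_zero) (by
      intro x hx hN
      refine exists_div_of_norm_eq_one hp hζ hSp hCl haS hα hL hσ hord hx ?_
      have h1 := congrArg Units.val hN
      rw [nrm_apply, Units.coe_prod] at h1
      have : ∀ i ∈ Finset.range p, (((σ' ^ i) x : Lˣ) : L) = (σ ^ i) (x : L) :=
        fun i _ => galEnd_pow_apply σ i x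
      rw [Finset.prod_congr rfl this] at h1
      exact h1)
  have e1 : (E (above L S)).map (nrm p σ') = (normUnits L S).map (jU K L) := by
    rw [normUnits, Subgroup.map_map]
    ext x
    rw [Subgroup.mem_map, Subgroup.mem_map]
    constructor
    · rintro ⟨y, hy, rfl⟩; exact ⟨y, hy, (hnrm y).symm⟩
    · rintro ⟨y, hy, rfl⟩; exact ⟨y, hy, hnrm y⟩
  have e2 : ((E (above L S)).map (nrm p σ')).relIndex (fixedIn (E (above L S)) σ') =
      (normUnits L S).relIndex (E S) := by
    rw [e1, hfix, Subgroup.relIndex_map_map_of_injective _ _ jU_injective]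
  have e3 : ((fixedIn (E (above L S)) σ').map (powMonoidHom p)).relIndex
      (fixedIn (E (above L S)) σ') = p ^ (Units.rank K + 1 + S.card) := by
    have h1 : ((E S).map (jU K L)).map (powMonoidHom p) =
        ((E S).map (powMonoidHom p)).map (jU K L) := by
      rw [Subgroup.map_map, Subgroup.map_map]
      congr 1
      ext x
      simp
    rw [hfix, h1, Subgroup.relIndex_map_map_of_injective _ _ jU_injective,
      relIndex_pow_E S hp.ne_zero hζ]
  have e4 : Nat.card (torsIn p (fixedIn (E (above L S)) σ')) = p := by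
    have h1 : torsIn p (fixedIn (E (above L S)) σ') = (torsIn p (E S)).map (jU K L) := by
      rw [hfix]
      ext x
      rw [mem_torsIn, Subgroup.mem_map, Subgroup.mem_map]
      constructor
      · rintro ⟨⟨y, hy, rfl⟩, hx⟩
        refine ⟨y, mem_torsIn p |>.mpr ⟨hy, jU_injective (L := L) ?_⟩, rfl⟩
        rw [map_pow, hx, map_one]
      · rintro ⟨y, hy, rfl⟩
        obtain ⟨hy1, hy2⟩ := (mem_torsIn p).mp hy
        exact ⟨⟨y, hy1, rfl⟩, by rw [← map_pow, hy2, map_one]⟩
    rw [h1, ← Nat.card_congr ((torsIn p (E S)).equivMapOfInjective (jU K L) jU_injective).toEquiv]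
    exact card_torsIn_E S hp.ne_zero hζ
  rw [e2, e3, e4, hidx, hker] at key
  -- ranks
  have hp3 : 2 < p := lt_of_le_of_ne hp.two_le hp2.symm
  have r1 := finrank_eq_two_mul hp3 hζ
  have r2 := finrank_eq_two_mul hp3 hζL
  have r3 : Module.finrank ℚ K * Module.finrank K L = Module.finrank ℚ L :=
    Module.finrank_mul_finrank ℚ K L
  rw [finrank_eq hp ha' hα hL, r1, r2] at r3
  have r4 : Units.rank L + 1 = p * (Units.rank K + 1) := by
    have : 2 * (Units.rank L + 1) = 2 * (p * (Units.rank K + 1)) := by rw [← r3]; ring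
    omega
  have hge := card_above_ge hp hζ hα S hσ hcard
  rw [r4] at key
  generalize (normUnits L S).relIndex (E S) = h at *
  generalize (S.filter (fun v => a ∉ locPow p v)).card = c at *
  generalize (above L S).card = A at *
  generalize Units.rank K + 1 = r at *
  generalize S.card = s at *
  obtain ⟨e, he⟩ := Nat.exists_eq_add_of_le hge
  obtain ⟨q, rfl⟩ : ∃ q, p = q + 1 := ⟨p - 1, by have := hp.pos; omega⟩
  simp only [Nat.add_sub_cancel] at *
  have hpp : 0 < q + 1 := hp.pos
  have key2 : h ^ q * ((q + 1) ^ (q + e)) = ((q + 1) ^ c) ^ q := by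
    have hpos : 0 < (q + 1) ^ ((q + 1) * r + (q + 1) * s + 1) := pow_pos hpp _
    apply Nat.eq_of_mul_eq_mul_right hpos
    calc h ^ q * (q + 1) ^ (q + e) * (q + 1) ^ ((q + 1) * r + (q + 1) * s + 1)
        = h ^ q * (q + 1) ^ ((q + 1) + ((q + 1) * r + ((q + 1) * s + e))) := by
          rw [mul_assoc, ← pow_add]; congr 2; ring
      _ = h ^ q * (q + 1) ^ ((q + 1) + ((q + 1) * r + (A + q * c))) := by rw [← he]
      _ = (h ^ q * (q + 1) ^ (q + 1) * (q + 1) ^ ((q + 1) * r + A)) * (q + 1) ^ (q * c) := by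
          rw [mul_assoc, mul_assoc, ← pow_add, ← pow_add]; congr 2; ring
      _ = ((q + 1) ^ (r + s)) ^ (q + 1) * (q + 1) * (q + 1) ^ (q * c) := by rw [key]
      _ = _ := by ring
  have key3 : (h * (q + 1)) ^ q ∣ ((q + 1) ^ c) ^ q := by
    rw [← key2, mul_pow, pow_add, ← mul_assoc]
    exact Dvd.intro _ rfl
  have hq0 : q ≠ 0 := by omega
  have key4 := (Nat.pow_dvd_pow_iff hq0).mp key3
  have hc : 1 ≤ c := by
    by_contra hc
    have : c = 0 := by omega
    rw [this, pow_zero, Nat.dvd_one] at key4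
    have := Nat.eq_one_of_mul_eq_one_left key4
    omega
  refine ⟨?_, hc⟩
  obtain ⟨d, rfl⟩ : ∃ d, c = d + 1 := ⟨c - 1, by omega⟩
  rw [pow_succ] at key4
  simp only [Nat.add_sub_cancel]
  exact Nat.dvd_of_mul_dvd_mul_right hpp key4

end Main

/-- The first inequality in the shared form. -/
theorem firstInequality {p : ℕ} (hp : p.Prime) (hp2 : p ≠ 2) : Global.FirstInequality.{u} p := by
  intro K _ _ ζ hζ S hSp hCl a haS ha L _ _ _ α hα hL
  exact first_inequality hp hp2 hζ hSp hCl haS ha hα hL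

end Fermat.Agent.CFT.FirstIneq
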