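import Fermat.Agent.CFT.Global.Second
import Mathlib.LinearAlgebra.Dual.Lemmas
import Mathlib.Algebra.Module.ZMod

/-!
# The reciprocity functional

Let `R` be a subgroup of `⊕_v ZMod p` whose intersection with
`V_a = {t | t_v = 0 if a is a p-th power in K_v}` is `W_a = {(sym_v a x)_v}` for all
`a ∉ K^{*p}`.  Then `R` is the kernel of a functional `t ↦ Σ c_v t_v` with all `c_v ≠ 0`.
-/

set_option autoImplicit false

namespace Fermat.Agent.CFT.Global

open IsDedekindDomain NumberField WithZero Polynomial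
open Fermat.Agent.CFT.SUnits (ord ord_one ord_mul ord_inv ord_pow ord_div ord_eq_zero_iff
  valuation_eq_exp_neg_ord finite_ord_ne_zero)

universe u

section Isotropic

/-- isotropic subspaces have at most half the dimension -/
lemma two_mul_finrank_le {k V : Type*} [Field k] [AddCommGroup V] [Module k V]
    [FiniteDimensional k V] (B : V →ₗ[k] Module.Dual k V) (hB : Function.Injective B)
    (W : Submodule k V) (hW : ∀ x ∈ W, ∀ y ∈ W, B x y = 0) :
    2 * Module.finrank k W ≤ Module.finrank k V := by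
  have h1 : W.map B ≤ W.dualAnnihilator := by
    rintro _ ⟨x, hx, rfl⟩
    rw [Submodule.mem_dualAnnihilator]
    exact fun y hy => hW x hx y hy
  have h2 : Module.finrank k (W.map B) = Module.finrank k W :=
    (Submodule.equivMapOfInjective B hB W).finrank_eq.symm
  have h3 := Submodule.finrank_mono h1
  have h4 := Subspace.finrank_add_finrank_dualAnnihilator_eq W
  omega

/-- multiplicative version -/
theorem card_sq_le {Q : Type*} [CommGroup Q] [Finite Q] (p : ℕ) [Fact p.Prime]
    (hQ : ∀ x : Q, x ^ p = 1) (B : Q →* Q →* Multiplicative (ZMod p))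
    (hB : ∀ x, (∀ y, B x y = 1) → x = 1) (W : Subgroup Q)
    (hW : ∀ x ∈ W, ∀ y ∈ W, B x y = 1) : Nat.card W ^ 2 ≤ Nat.card Q := by
  let V := Additive Q
  let _ : Module (ZMod p) V := AddCommGroup.zmodModule (n := p) fun x => hQ x.toMul
  have : Finite V := inferInstanceAs (Finite Q)
  let B' : V →ₗ[ZMod p] Module.Dual (ZMod p) V :=
    AddMonoidHom.toZModLinearMap p
      { toFun := fun x => AddMonoidHom.toZModLinearMap p (MonoidHom.toAdditiveLeft (B x.toMul))
        map_zero' := by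
          ext y
          change (B 1 y.toMul).toAdd = 0
          rw [map_one]
          rfl
        map_add' := fun x y => by
          ext z
          change (B (x.toMul * y.toMul) z.toMul).toAdd = _
          rw [map_mul]
          rfl }
  have hB'apply : ∀ x y : V, B' x y = (B x.toMul y.toMul).toAdd := fun x y => rfl
  have hinj : Function.Injective B' := by
    rw [injective_iff_map_eq_zero]
    intro x hx
    have : x.toMul = 1 := by
      apply hB
      intro y
      have h1 : B' x (Additive.ofMul y) = 0 := by rw [hx]; rfl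
      rw [hB'apply] at h1
      exact h1
    exact this
  let W' : Submodule (ZMod p) V := AddSubgroup.toZModSubmodule p (Subgroup.toAddSubgroup W)
  have h1 := two_mul_finrank_le B' hinj W' (fun x hx y hy => by
    rw [hB'apply]
    exact hW x.toMul hx y.toMul hy)
  have h2 : Nat.card V = p ^ Module.finrank (ZMod p) V := by
    rw [Module.natCard_eq_pow_finrank (K := ZMod p), Nat.card_zmod]
  have h3 : Nat.card W' = p ^ Module.finrank (ZMod p) W' := by
    rw [Module.natCard_eq_pow_finrank (K := ZMod p), Nat.card_zmod]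
  have h4 : Nat.card W = Nat.card W' := rfl
  have h5 : Nat.card Q = Nat.card V := rfl
  rw [h4, h5, h2, h3, ← pow_mul, mul_comm]
  exact Nat.pow_le_pow_right (Fact.out : p.Prime).pos h1

end Isotropic

section Vec

variable {K : Type u} [Field K] [NumberField K] {p : ℕ} (LS : LocalSymbols p K)

lemma LocalSymbols.sym_unit (LS : LocalSymbols p K) {S : Finset (HeightOneSpectrum (𝓞 K))}
    (hS : AboveP p S) {a x : Kˣ} (ha : a ∈ E S) (hx : x ∈ E S) {v : HeightOneSpectrum (𝓞 K)}
    (hv : v ∉ S) : LS.sym v a x = 1 :=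
  LS.unit_mem v (fun h => hv (hS v h)) a x (mem_E.mp ha v hv) (mem_E.mp hx v hv)

lemma finite_sym_ne (hp : p ≠ 0) (a x : Kˣ) :
    (Function.support fun v => (LS.sym v a x).toAdd).Finite := by
  classical
  obtain ⟨S, -, hS, -, hF⟩ := exists_good (K := K) p hp ∅ {a, x}
  refine S.finite_toSet.subset fun v hv => ?_
  by_contra h
  apply hv
  change (LS.sym v a x).toAdd = 0
  rw [LS.sym_unit hS (hF a (by simp)) (hF x (by simp)) h]
  rfl

/-- The vector of local symbols. -/
noncomputable def symVec (hp : p ≠ 0) (a x : Kˣ) : HeightOneSpectrum (𝓞 K) →₀ ZMod p :=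
  Finsupp.ofSupportFinite (fun v => (LS.sym v a x).toAdd) (finite_sym_ne LS hp a x)

@[simp] lemma symVec_apply (hp : p ≠ 0) (a x : Kˣ) (v : HeightOneSpectrum (𝓞 K)) :
    symVec LS hp a x v = (LS.sym v a x).toAdd := rfl

lemma symVec_mul (hp : p ≠ 0) (a x y : Kˣ) :
    symVec LS hp a (x * y) = symVec LS hp a x + symVec LS hp a y := by
  ext v
  simp

lemma LocalSymbols.sym_surjective (LS : LocalSymbols p K) (hp : p.Prime)
    {v : HeightOneSpectrum (𝓞 K)} {a : Kˣ} (ha : a ∉ locPow p v) :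
    Function.Surjective (LS.sym v a) := by
  have : NeZero p := ⟨hp.ne_zero⟩
  rw [← MonoidHom.range_eq_top]
  apply Subgroup.eq_top_of_card_eq
  rw [← Subgroup.index_ker]
  have h1 := LS.index_N hp ha
  rw [LocalSymbols.N] at h1
  rw [h1]
  exact (Nat.card_zmod p).symm

/-- elements of `V_a` are locally symbols -/
lemma exists_approx (hp : p.Prime) (a : Kˣ) (S : Finset (HeightOneSpectrum (𝓞 K)))
    (t : HeightOneSpectrum (𝓞 K) → ZMod p) (ht : ∀ v, a ∈ locPow p v → t v = 0) :
    ∃ y : Kˣ, ∀ v ∈ S, (LS.sym v a y).toAdd = t v := by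
  have h1 : ∀ v, ∃ y : Kˣ, (LS.sym v a y).toAdd = t v := by
    intro v
    by_cases hv : a ∈ locPow p v
    · exact ⟨1, by rw [map_one, ht v hv]; rfl⟩
    · obtain ⟨y, hy⟩ := LS.sym_surjective hp hv (Multiplicative.ofAdd (t v))
      exact ⟨y, by rw [hy]; rfl⟩
  choose f hf using h1
  obtain ⟨y, hy⟩ := indep_locPow p hp.ne_zero S f
  refine ⟨y, fun v hv => ?_⟩
  have h2 := LS.sym_eq_one_of_right (a := a) (hy v hv)
  rw [_root_.map_div, div_eq_one] at h2
  rw [h2, hf]

lemma exists_div_mem_of_prime_index {G : Type*} [CommGroup G] {J : Subgroup G} {p : ℕ}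
    (hp : p.Prime) (hJ : J.index = p) {z : G} (hz : z ∉ J) (y : G) : ∃ k : ℕ, y / z ^ k ∈ J := by
  have h1 : Nat.card (G ⧸ J) = p := hJ
  have hfin : Finite (G ⧸ J) := Nat.finite_of_card_ne_zero (by rw [h1]; exact hp.ne_zero)
  have : Fact p.Prime := ⟨hp⟩
  have hz' : (z : G ⧸ J) ≠ 1 := by
    rw [Ne, QuotientGroup.eq_one_iff]
    exact hz
  have h2 : (y : G ⧸ J) ∈ Subgroup.zpowers (z : G ⧸ J) := mem_zpowers_of_prime_card h1 hz'
  rw [← mem_powers_iff_mem_zpowers] at h2
  obtain ⟨k, hk⟩ := h2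
  refine ⟨k, ?_⟩
  rw [← QuotientGroup.eq_one_iff, QuotientGroup.mk_div, QuotientGroup.mk_pow, div_eq_one]
  exact hk.symm

/-- If `t` agrees on `S` with symbols of a product of an `S`-unit and a local norm. -/
lemma eq_symVec_of_mem (hp : p ≠ 0) {S : Finset (HeightOneSpectrum (𝓞 K))} (hS : AboveP p S)
    {a : Kˣ} (ha : a ∈ E S) (t : HeightOneSpectrum (𝓞 K) →₀ ZMod p) (htS : t.support ⊆ S)
    (y : Kˣ) (hy : ∀ v ∈ S, (LS.sym v a y).toAdd = t v)
    (hyJ : y ∈ (⨅ v ∈ S, LS.N v a) ⊔ E S) : ∃ x ∈ E S, t = symVec LS hp a x := by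
  obtain ⟨n, hn, e, he, rfl⟩ := Subgroup.mem_sup.mp hyJ
  refine ⟨e, he, ?_⟩
  ext v
  rw [symVec_apply]
  by_cases hv : v ∈ S
  · rw [← hy v hv, map_mul]
    simp only [Subgroup.mem_iInf] at hn
    rw [(hn v hv : LS.sym v a n = 1), one_mul]
  · rw [LS.sym_unit hS ha he hv, Finsupp.notMem_support_iff.mp (fun h => hv (htS h))]
    rfl

/-- `V_a / W_a` is cyclic of order `p` (1): generated by any element outside `W_a`. -/
theorem exists_eq_nsmul_add (In : Inputs.{u} p) {ζ : K} (hζ : IsPrimitiveRoot ζ p) {a : Kˣ}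
    (hna : ∀ b : Kˣ, b ^ p ≠ a) (u t : HeightOneSpectrum (𝓞 K) →₀ ZMod p)
    (hu : ∀ v, a ∈ locPow p v → u v = 0) (ht : ∀ v, a ∈ locPow p v → t v = 0)
    (huW : ∀ x, u ≠ symVec LS In.prime.ne_zero a x) :
    ∃ (k : ℕ) (x : Kˣ), t = k • u + symVec LS In.prime.ne_zero a x := by
  classical
  have hp := In.prime
  have : Fact (Irreducible (X ^ p - C (a : K))) := ⟨irreducible_of_not_pow hp hna⟩
  have : NumberField (Rad p a) := numberField_rad hp
  obtain ⟨S, hS₀, hSp, -, haS, -, hidx, -⟩ := second In LS hζ (u.support ∪ t.support) ∅ hna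
  obtain ⟨z, hz⟩ := exists_approx LS hp a S u hu
  obtain ⟨y, hy⟩ := exists_approx LS hp a S t ht
  have hzJ : z ∉ (⨅ v ∈ S, LS.N v a) ⊔ E S := by
    intro h
    obtain ⟨x, -, hx⟩ := eq_symVec_of_mem LS hp.ne_zero hSp haS u
      (Finset.subset_union_left.trans hS₀) z hz h
    exact huW x hx
  obtain ⟨k, hk⟩ := exists_div_mem_of_prime_index hp hidx hzJ y
  obtain ⟨x, -, hx⟩ := eq_symVec_of_mem LS hp.ne_zero hSp haS (t - k • u) (by
      refine (Finsupp.support_sub).trans (Finset.union_subset ?_ ?_)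
      · exact Finset.subset_union_right.trans hS₀
      · exact (Finsupp.support_smul).trans (Finset.subset_union_left.trans hS₀))
    (y / z ^ k) (fun v hv => by
      rw [_root_.map_div, map_pow, toAdd_div, toAdd_pow, hz v hv, hy v hv]
      rfl) hk
  exact ⟨k, x, by rw [← hx, add_sub_cancel]⟩

/-- `V_a / W_a` is cyclic of order `p` (2): it is nontrivial. -/
theorem exists_ne_symVec (In : Inputs.{u} p) {ζ : K} (hζ : IsPrimitiveRoot ζ p) {a : Kˣ}
    (hna : ∀ b : Kˣ, b ^ p ≠ a) :
    ∃ u : HeightOneSpectrum (𝓞 K) →₀ ZMod p, (∀ v, a ∈ locPow p v → u v = 0) ∧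
      ∀ x, u ≠ symVec LS In.prime.ne_zero a x := by
  classical
  have hp := In.prime
  have : Fact (Irreducible (X ^ p - C (a : K))) := ⟨irreducible_of_not_pow hp hna⟩
  have : NumberField (Rad p a) := numberField_rad hp
  obtain ⟨S, -, hSp, hcl, haS, -, hidx, -⟩ := second In LS hζ ∅ ∅ hna
  have hJ : (⨅ v ∈ S, LS.N v a) ⊔ E S ≠ ⊤ := by
    intro h
    rw [h, Subgroup.index_top] at hidx
    exact hp.one_lt.ne hidx
  obtain ⟨z, hzJ⟩ : ∃ z, z ∉ (⨅ v ∈ S, LS.N v a) ⊔ E S := by
    by_contra hcon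
    push Not at hcon
    exact hJ (by rw [eq_top_iff]; exact fun x _ => hcon x)
  -- truncate the symbols of `z` to `S`
  let u : HeightOneSpectrum (𝓞 K) →₀ ZMod p := (symVec LS hp.ne_zero a z).filter (· ∈ S)
  have huv : ∀ v ∈ S, u v = (LS.sym v a z).toAdd := fun v hv => Finsupp.filter_apply_pos _ _ hv
  have huv' : ∀ v ∉ S, u v = 0 := fun v hv => Finsupp.filter_apply_neg _ _ hv
  refine ⟨u, ?_, ?_⟩
  · intro v hv
    by_cases h : v ∈ S
    · rw [huv v h, LS.sym_eq_one_of_left hv]
      rfl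
    · exact huv' v h
  · intro x hx
    -- a larger good set
    obtain ⟨S₁, hSS₁, hS₁p, -, haS₁, hF₁, hidx₁, -⟩ := second In LS hζ S {x} hna
    have hxS₁ : x ∈ E S₁ := hF₁ x (Finset.mem_singleton_self x)
    have hJ₁ : (⨅ v ∈ S₁, LS.N v a) ⊔ E S₁ ≠ ⊤ := by
      intro h
      rw [h, Subgroup.index_top] at hidx₁
      exact hp.one_lt.ne hidx₁
    apply hJ₁
    rw [eq_top_iff]
    intro y _
    -- adjust `y` to be a unit at `S₁ \ S`
    obtain ⟨b, hb⟩ := hcl (∑ v ∈ S₁, Finsupp.single v (ord v y))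
    have hbS₁ : b ∈ E S₁ := by
      rw [mem_E]
      intro v hv
      rw [hb v (fun h => hv (hSS₁ h)), Finsupp.finsetSum_apply]
      refine Finset.sum_eq_zero fun w hw => ?_
      rw [Finsupp.single_eq_of_ne]
      rintro rfl
      exact hv hw
    have hyb : ∀ v ∈ S₁, v ∉ S → LS.sym v a (y / b) = 1 := by
      intro v hv hvS
      refine LS.unit_mem v (fun h => hvS (hSp v h)) a (y / b) (mem_E.mp haS v hvS) ?_
      rw [ord_div, hb v hvS, Finsupp.finsetSum_apply,
        Finset.sum_eq_single_of_mem v hv (fun w _ hwv => by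
          rw [Finsupp.single_eq_of_ne (Ne.symm hwv)])]
      simp
    obtain ⟨k, hk⟩ := exists_div_mem_of_prime_index hp hidx hzJ (y / b)
    obtain ⟨n, hn, e, he, hne⟩ := Subgroup.mem_sup.mp hk
    have hn' : ∀ v ∈ S, LS.sym v a n = 1 := by
      simp only [Subgroup.mem_iInf] at hn
      exact hn
    have hdec : (y / b) / (x ^ k * e) ∈ ⨅ v ∈ S₁, LS.N v a := by
      simp only [Subgroup.mem_iInf]
      intro v hv
      change LS.sym v a _ = 1
      have hxz : (LS.sym v a x) = if v ∈ S then LS.sym v a z else 1 := by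
        have h1 := DFunLike.congr_fun hx v
        rw [symVec_apply] at h1
        split_ifs with h
        · rw [huv v h] at h1
          exact h1.symm
        · rw [huv' v h] at h1
          exact h1.symm
      rw [_root_.map_div, map_mul, map_pow, hxz, div_eq_one]
      split_ifs with h
      · have h2 : y / b = n * e * z ^ k := by rw [hne, div_mul_cancel]
        rw [h2, map_mul, map_mul, map_pow, hn' v h, one_mul, mul_comm]
      · rw [hyb v hv h, one_pow, one_mul, LS.sym_unit hSp haS he h]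
    refine Subgroup.mem_sup.mpr ⟨_, hdec, x ^ k * e * b,
      mul_mem (mul_mem (pow_mem hxS₁ k) (E_mono hSS₁ he)) hbS₁, ?_⟩
    rw [← mul_assoc, div_mul_cancel, div_mul_cancel]

end Vec

end Fermat.Agent.CFT.Global
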