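import Fermat.Agent.CFT.Global.Places
import Fermat.Agent.CFT.Global.KummerExt

/-!
# `H¹(G, E_{L,S}) = 0` for a Kummer extension `L = K(a^{1/p})`, `Cl_S(K) = 0`, `a ∈ E_S`
-/

set_option autoImplicit false
set_option linter.unusedSectionVars false

namespace Fermat.Agent.CFT.FirstIneq

open IsDedekindDomain NumberField WithZero Global SUnits Places KummerExt IntermediateField

section Val

variable {K : Type*} [Field K] [NumberField K]

lemma mem_E_iff_valuation {S : Finset (HeightOneSpectrum (𝓞 K))} {x : Kˣ} :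
    x ∈ E S ↔ ∀ v ∉ S, v.valuation K (x : K) = 1 := by
  rw [mem_E]
  exact forall_congr' fun v => forall_congr' fun _ => ord_eq_zero_iff K v x

lemma valuation_natCast_eq_one {p : ℕ} {S : Finset (HeightOneSpectrum (𝓞 K))}
    (hSp : AboveP p S) {v : HeightOneSpectrum (𝓞 K)} (hv : v ∉ S) :
    v.valuation K (p : K) = 1 := by
  have h1 : (p : 𝓞 K) ∉ v.asIdeal := fun h => hv (hSp v h)
  have h2 := (HeightOneSpectrum.valuation_eq_one_iff_notMem (K := K) v (r := (p : 𝓞 K)))
  rw [map_natCast] at h2
  exact h2.mpr h1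

end Val

variable {K : Type*} [Field K] [NumberField K] {L : Type*} [Field L] [NumberField L] [Algebra K L]
  {p : ℕ} (hp : p.Prime) {ζ : K} (hζ : IsPrimitiveRoot ζ p) {S : Finset (HeightOneSpectrum (𝓞 K))}
  (hSp : AboveP p S) (hCl : ClTrivial S) {a : Kˣ} (haS : a ∈ E S)
  {α : L} (hα : α ^ p = algebraMap K L a) (hL : K⟮α⟯ = ⊤)

include hp hα haS in
lemma valuation_gen {w : HeightOneSpectrum (𝓞 L)} (hw : w ∉ above L S) :
    w.valuation L α = 1 := by
  rw [mem_above] at hw
  have h1 : w.valuation L (algebraMap K L a) = 1 :=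
    (valuation_algebraMap_eq_one_iff w _).mpr (mem_E_iff_valuation.mp haS _ hw)
  rw [← hα, map_pow] at h1
  exact (pow_eq_one_iff_of_nonneg zero_le hp.ne_zero).mp h1

include hSp in
lemma valuation_natCast_L {w : HeightOneSpectrum (𝓞 L)} (hw : w ∉ above L S) :
    w.valuation L (p : L) = 1 := by
  rw [mem_above] at hw
  have h1 := (valuation_algebraMap_eq_one_iff w (p : K)).mpr (valuation_natCast_eq_one hSp hw)
  rwa [map_natCast] at h1

/-- `S`-units are stable under the Galois group -/
lemma map_mem_E (σ : L ≃ₐ[K] L) {x : Lˣ} (hx : x ∈ E (above L S)) :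
    Units.map (σ : L →* L) x ∈ E (above L S) := by
  rw [mem_E_iff_valuation] at hx ⊢
  intro w hw
  have h1 : w = conj σ (conj σ⁻¹ w) := by
    rw [← Places.conj_mul, mul_inv_cancel, conj_one]
  have h2 : conj σ⁻¹ w ∉ above L S := by
    rw [mem_above] at hw ⊢
    rwa [below_conj]
  rw [h1]
  have := valuation_conj σ (conj σ⁻¹ w) (x : L)
  refine Eq.trans this (hx _ h2)

include hp hζ hSp hCl haS hα hL in
theorem exists_div_of_norm_eq_one {σ : L ≃ₐ[K] L}
    (hσ : σ α = algebraMap K L ζ * α) (hord : orderOf σ = p)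
    {x : Lˣ} (hx : x ∈ E (above L S)) (hN : ∏ i ∈ Finset.range p, (σ ^ i) (x : L) = 1) :
    ∃ z ∈ E (above L S), z / Units.map (σ : L →* L) z = x := by
  classical
  obtain ⟨y, hy⟩ := hilbert90 hord hp.pos hN
  obtain ⟨c, hc⟩ := exists_coords hp hα hL (y : L)
  set I : Finset ℕ := (Finset.range p).filter (fun i => c i ≠ 0) with hI
  have hIne : I.Nonempty := by
    by_contra h
    rw [Finset.not_nonempty_iff_eq_empty] at h
    apply y.ne_zero
    rw [hc]
    refine Finset.sum_eq_zero fun i hi => ?_
    have : c i = 0 := by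
      by_contra h0
      have : i ∈ I := Finset.mem_filter.mpr ⟨hi, h0⟩
      rw [h] at this
      exact absurd this (Finset.notMem_empty _)
    rw [this, map_zero, zero_mul]
  let u : ℕ → Kˣ := fun i => if h : c i ≠ 0 then Units.mk0 (c i) h else 1
  have hu : ∀ i ∈ I, (u i : K) = c i := by
    intro i hi
    have h0 : c i ≠ 0 := (Finset.mem_filter.mp hi).2
    simp only [u, dif_pos h0, Units.val_mk0]
  let D : HeightOneSpectrum (𝓞 K) →₀ ℤ := Finsupp.ofSupportFinite
    (fun v => I.inf' hIne fun i => ord v (u i)) (by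
      refine Set.Finite.subset (I.finite_toSet.biUnion fun i _ => finite_ord_ne_zero K (u i)) ?_
      intro v hv
      rw [Set.mem_iUnion₂]
      by_contra hcon
      push Not at hcon
      have h0 : ∀ i ∈ I, ord v (u i) = 0 := by
        intro i hi
        by_contra h
        exact hcon i hi h
      apply hv
      apply le_antisymm
      · obtain ⟨i, hi⟩ := hIne
        exact (Finset.inf'_le _ hi).trans (h0 i hi).le
      · exact Finset.le_inf' _ _ fun i hi => (h0 i hi).ge)
  obtain ⟨b, hb⟩ := hCl D
  set z : Lˣ := y / Units.map (algebraMap K L : K →* L) b with hz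
  have hzval : (z : L) = ∑ i ∈ Finset.range p, algebraMap K L (c i / b) * α ^ i := by
    rw [hz, Units.val_div_eq_div_val, hc, Finset.sum_div]
    refine Finset.sum_congr rfl fun i _ => ?_
    rw [map_div₀]
    change algebraMap K L (c i) * α ^ i / algebraMap K L (b : K) = _
    ring
  have hzx : z / Units.map (σ : L →* L) z = x := by
    apply Units.ext
    rw [← hy]
    have e1 : ((Units.map (σ : L →* L) z : Lˣ) : L) = σ (y : L) / algebraMap K L b := by
      change σ (z : L) = _
      rw [hz, Units.val_div_eq_div_val, map_div₀]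
      congr 1
      exact σ.commutes (b : K)
    rw [Units.val_div_eq_div_val, e1, hz, Units.val_div_eq_div_val]
    change ((y : L) / algebraMap K L (b : K)) / _ = _
    have hb0 : algebraMap K L (b : K) ≠ 0 := (map_ne_zero _).mpr b.ne_zero
    field_simp
  refine ⟨z, ?_, hzx⟩
  rw [mem_E_iff_valuation]
  intro w hw
  have hwS : w.under (𝓞 K) ∉ S := by rwa [mem_above] at hw
  set v := w.under (𝓞 K) with hv
  have hα1 := valuation_gen hp haS hα hw
  have hp1 := valuation_natCast_L hSp hw
  -- coordinates are integral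
  have hD : ∀ i ∈ I, D v ≤ ord v (u i) := fun i hi => Finset.inf'_le _ hi
  have hci : ∀ i, c i ≠ 0 → i ∈ Finset.range p → v.valuation K (c i / b) =
      exp (- (ord v (u i) - D v)) := by
    intro i hi hir
    have hiI : i ∈ I := Finset.mem_filter.mpr ⟨hir, hi⟩
    rw [← hu i hiI, map_div₀, valuation_eq_exp_neg_ord, valuation_eq_exp_neg_ord, ← exp_sub, hb v hwS]
    congr 1
    ring
  have hle : w.valuation L (z : L) ≤ 1 := by
    rw [hzval]
    refine Valuation.map_sum_le _ fun i hi => ?_
    rw [map_mul, map_pow, hα1, one_pow, mul_one, valuation_algebraMap_le_one_iff]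
    by_cases h0 : c i = 0
    · rw [h0, zero_div, map_zero]; exact zero_le
    · rw [← hv, hci i h0 hi, ← exp_zero, exp_le_exp]
      have := hD i (Finset.mem_filter.mpr ⟨hi, h0⟩)
      omega
  by_contra hne
  have hlt : w.valuation L (z : L) < 1 := lt_of_le_of_ne hle hne
  -- conjugates have the same valuation
  have hpowx : ∀ j : ℕ, w.valuation L ((σ ^ j) (x : L)) = 1 := by
    intro j
    have h1 := map_mem_E (S := S) (σ ^ j) hx
    rw [mem_E_iff_valuation] at h1
    exact h1 w hw
  have hxz : (z : L) = x * σ (z : L) := by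
    have h1 : (x : L) = (z : L) / σ (z : L) := by
      rw [← hzx, Units.val_div_eq_div_val]
      rfl
    rw [h1, div_mul_cancel₀]
    exact (map_ne_zero _).mpr z.ne_zero
  have hpowz : ∀ j : ℕ, w.valuation L ((σ ^ j) (z : L)) = w.valuation L (z : L) := by
    intro j
    induction j with
    | zero => simp
    | succ j ih =>
      rw [← ih]
      conv_rhs => rw [hxz]
      rw [map_mul, map_mul, hpowx, one_mul, pow_succ, AlgEquiv.mul_apply]
  obtain ⟨i, hiI, hDi⟩ := Finset.exists_mem_eq_inf' hIne fun i => ord v (u i)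
  have hir : i ∈ Finset.range p := (Finset.mem_filter.mp hiI).1
  have hi0 : c i ≠ 0 := (Finset.mem_filter.mp hiI).2
  have hform := coord_formula hp hζ hσ (fun i => c i / (b : K)) (Finset.mem_range.mp hir)
  rw [← hzval] at hform
  have hlt2 : w.valuation L ((p : L) * (algebraMap K L (c i / b) * α ^ i)) < 1 := by
    rw [← hform]
    refine Valuation.map_sum_lt _ one_ne_zero fun j _ => ?_
    rw [map_mul, hpowz j]
    have : w.valuation L (((algebraMap K L ζ ^ i)⁻¹) ^ j) = 1 := by
      have h1 : w.valuation L (algebraMap K L ζ) = 1 := by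
        have h2 : (algebraMap K L ζ) ^ p = 1 := by
          rw [← map_pow, hζ.pow_eq_one, map_one]
        have h3 := congrArg (w.valuation L) h2
        rw [map_pow, map_one] at h3
        exact (pow_eq_one_iff_of_nonneg zero_le hp.ne_zero).mp h3
      rw [map_pow, map_inv₀, map_pow, h1, one_pow, inv_one, one_pow]
    rw [this, one_mul]
    exact hlt
  rw [map_mul, map_mul, map_pow, hp1, hα1, one_pow, one_mul, mul_one,
    valuation_algebraMap_lt_one_iff, ← hv, hci i hi0 hir] at hlt2
  have hDv : D v = ord v (u i) := hDi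
  rw [hDv, sub_self, neg_zero, exp_zero] at hlt2
  exact lt_irrefl _ hlt2

end Fermat.Agent.CFT.FirstIneq
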