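import Fermat.Agent.CFT.Global.Defs
import Fermat.Agent.CFT.Local.FieldIndex
import Fermat.Agent.CFT.AbCount

/-!
# The local count: `[Kˣ : ⋂_{v ∈ S} Kˣ ∩ K_v^{×p}] = p^(2 #S + [K : ℚ])`

Everything is done inside `Kˣ`, no completions are used.
-/

set_option autoImplicit false

namespace Fermat.Agent.CFT.LocalCount

open IsDedekindDomain NumberField WithZero Fermat.Agent.CFT.SUnits Fermat.Agent.CFT.Global
open scoped nonZeroDivisors

section Abstract

/-- Counting `p`-th powers modulo `ker π` via a surjection onto `ℤ` with finite kernel. -/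
lemma index_pow_sup_ker {A Q : Type*} [CommGroup A] [CommGroup Q] (π : A →* Q)
    (hπs : Function.Surjective π) (φ : Q →* Multiplicative ℤ) (hφs : Function.Surjective φ)
    {p : ℕ} (hp : p ≠ 0) (hfin : π.ker.relIndex (φ.comp π).ker ≠ 0) :
    ((powMonoidHom p : A →* A).range ⊔ π.ker).index =
      p * π.ker.relIndex (π.ker.comap (powMonoidHom p : A →* A)) := by
  have hφker : φ.ker = (φ.comp π).ker.map π := by
    ext y
    obtain ⟨x, rfl⟩ := hπs y
    rw [MonoidHom.mem_ker, Subgroup.mem_map]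
    constructor
    · intro h
      exact ⟨x, h, rfl⟩
    · rintro ⟨x', hx', hxx'⟩
      rw [← hxx']
      exact hx'
  have hfin : Finite φ.ker := by
    apply Nat.finite_of_card_ne_zero
    rw [hφker, ← Subgroup.relIndex_ker]
    exact hfin
  have h1 : ((powMonoidHom p : A →* A).range ⊔ π.ker).index =
      (powMonoidHom p : Q →* Q).range.index := by
    rw [← Subgroup.index_comap_of_surjective _ hπs]
    congr 1
    rw [← Subgroup.comap_map_eq]
    congr 1
    ext y
    rw [Subgroup.mem_map]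
    constructor
    · rintro ⟨_, ⟨x, rfl⟩, rfl⟩
      exact ⟨π x, by simp⟩
    · rintro ⟨y, rfl⟩
      obtain ⟨x, rfl⟩ := hπs y
      exact ⟨x ^ p, ⟨x, rfl⟩, by simp⟩
  rw [h1, CFTLocal.index_pow_of_surjective_int φ hφs p hp, AbCount.index_range_pow_of_finite]
  have h2 : Nat.card (powMonoidHom p : φ.ker →* φ.ker).ker =
      Nat.card (powMonoidHom p : Q →* Q).ker := by
    refine Nat.card_congr
      { toFun := fun x => ⟨((x : φ.ker) : Q), ?_⟩
        invFun := fun x => ⟨⟨(x : Q), ?_⟩, ?_⟩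
        left_inv := fun x => rfl
        right_inv := fun x => rfl }
    · exact congrArg Subtype.val (MonoidHom.mem_ker.mp x.2)
    · have h3 : (x : Q) ^ p = 1 := x.2
      rw [MonoidHom.mem_ker]
      have h4 : φ (x : Q) ^ p = 1 := by rw [← map_pow, h3, map_one]
      exact (pow_eq_one_iff_left hp).mp h4
    · rw [MonoidHom.mem_ker]
      exact Subtype.ext x.2
  have h3 : (powMonoidHom p : Q →* Q).ker =
      (π.ker.comap (powMonoidHom p : A →* A)).map π := by
    ext y
    obtain ⟨x, rfl⟩ := hπs y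
    rw [MonoidHom.mem_ker, Subgroup.mem_map, powMonoidHom_apply, ← map_pow,
      ← MonoidHom.mem_ker]
    constructor
    · intro h
      exact ⟨x, h, rfl⟩
    · rintro ⟨x', hx', hxx'⟩
      have h4 : (π x') ^ p = (π x) ^ p := by rw [hxx']
      rw [← map_pow, ← map_pow] at h4
      rw [MonoidHom.mem_ker, ← h4, ← MonoidHom.mem_ker]
      exact hx'
  rw [h2, h3, ← Subgroup.relIndex_ker]

lemma index_pow_sup {A : Type*} [CommGroup A] (C : Subgroup A) (f : A →* Multiplicative ℤ)
    (hf : Function.Surjective f) (hC : C ≤ f.ker) {p : ℕ} (hp : p ≠ 0)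
    (hfin : C.relIndex f.ker ≠ 0) :
    ((powMonoidHom p : A →* A).range ⊔ C).index =
      p * C.relIndex (C.comap (powMonoidHom p : A →* A)) := by
  have hπk : (QuotientGroup.mk' C).ker = C := QuotientGroup.ker_mk' C
  have hφs : Function.Surjective (QuotientGroup.lift C f hC) := by
    intro y
    obtain ⟨x, hx⟩ := hf y
    exact ⟨QuotientGroup.mk x, hx⟩
  have h := @index_pow_sup_ker A (A ⧸ C) _ (QuotientGroup.Quotient.commGroup C)
    (QuotientGroup.mk' C) (QuotientGroup.mk'_surjective C) (QuotientGroup.lift C f hC) hφs p hp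
    (by
      have : (QuotientGroup.mk' C).ker.relIndex f.ker ≠ 0 := by rwa [hπk]
      exact this)
  have h' : ((powMonoidHom p : A →* A).range ⊔ (QuotientGroup.mk' C).ker).index =
      p * (QuotientGroup.mk' C).ker.relIndex
        ((QuotientGroup.mk' C).ker.comap (powMonoidHom p : A →* A)) := h
  rwa [hπk] at h'

/-- Index of the kernel of a surjection to a finite product. -/
lemma index_ker_pi {A ι : Type*} [Group A] [Fintype ι] {B : ι → Type*} [∀ i, Group (B i)]
    (f : A →* ∀ i, B i) (hf : Function.Surjective f) :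
    f.ker.index = ∏ i, Nat.card (B i) := by
  rw [Subgroup.index_ker, MonoidHom.range_eq_top.mpr hf,
    Nat.card_congr (Subgroup.topEquiv.toEquiv), Nat.card_pi]

end Abstract

section Local

variable {K : Type*} [Field K] [NumberField K] (v : HeightOneSpectrum (𝓞 K))

/-- `𝓞 K` is dense in the valuation ring at `v`. -/
lemma exists_int_approx {x : K} (hx : v.valuation K x ≤ 1) (n : ℤ) :
    ∃ a : 𝓞 K, v.valuation K (algebraMap (𝓞 K) K a - x) ≤ exp (-n) := by
  obtain ⟨a, ha⟩ := v.exists_valuation_sub_lt_of_integer hx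
    (Units.mk0 (exp (-n)) exp_ne_zero)
  exact ⟨a, ha.le⟩

lemma cong_anti {m n : ℕ} (h : m ≤ n) : cong v n ≤ cong v m := by
  intro x hx
  rw [mem_cong] at hx ⊢
  refine hx.trans ?_
  rw [exp_le_exp]
  omega

lemma valuation_eq_one_of_mem_cong {n : ℕ} {x : Kˣ} (hx : x ∈ cong v n) :
    v.valuation K (x : K) = 1 := by
  rw [mem_cong] at hx
  have hlt : v.valuation K ((x : K) - 1) < 1 := by
    refine lt_of_le_of_lt hx ?_
    rw [← exp_zero, exp_lt_exp]
    omega
  have : (x : K) = (x - 1) + 1 := by ring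
  rw [this, Valuation.map_add_eq_of_lt_right _ (by simpa using hlt), map_one]

/-- a uniformizer in `𝓞 K` -/
lemma exists_int_uniformizer : ∃ π : 𝓞 K, v.valuation K (algebraMap (𝓞 K) K π) = exp (-1 : ℤ) := by
  obtain ⟨π, hπ⟩ := v.intValuation_exists_uniformizer
  exact ⟨π, by rw [HeightOneSpectrum.valuation_of_algebraMap, hπ]⟩

/-- `[cong v k : cong v (k+1)] = N v`. -/
lemma relIndex_cong_succ (k : ℕ) :
    (cong v (k + 1)).relIndex (cong v k) = Ideal.absNorm v.asIdeal := by
  obtain ⟨π, hπ⟩ := exists_int_uniformizer v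
  have hval : ∀ a : 𝓞 K, v.valuation K (algebraMap (𝓞 K) K (π ^ (k + 1) * a)) ≤
      exp (-((k : ℤ) + 1)) := by
    intro a
    rw [map_mul, map_pow, map_mul, map_pow, hπ]
    refine (mul_le_of_le_one_right' (v.valuation_le_one a)).trans ?_
    rw [← exp_nsmul, exp_le_exp]
    simp
  have hne : ∀ a : 𝓞 K, (1 : K) + algebraMap (𝓞 K) K (π ^ (k + 1) * a) ≠ 0 := by
    intro a h
    have h1 := hval a
    have h2 : algebraMap (𝓞 K) K (π ^ (k + 1) * a) = -1 := by linear_combination h
    rw [h2, Valuation.map_neg, map_one, ← exp_zero, exp_le_exp] at h1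
    omega
  have hmem : ∀ a : 𝓞 K, Units.mk0 _ (hne a) ∈ cong v k := by
    intro a
    rw [mem_cong, Units.val_mk0, add_sub_cancel_left]
    exact hval a
  -- the homomorphism `cong v k → 𝓞/v`
  let q : cong v k → K := fun u => (((u : Kˣ) : K) - 1) / (algebraMap (𝓞 K) K π) ^ (k + 1)
  have hπ0 : algebraMap (𝓞 K) K π ≠ 0 := by
    intro h
    rw [h, map_zero] at hπ
    exact exp_ne_zero hπ.symm
  have hq : ∀ u, v.valuation K (q u) ≤ 1 := by
    intro u
    have h1 : v.valuation K (((u : Kˣ) : K) - 1) ≤ exp (-((k : ℤ) + 1)) := u.2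
    rw [map_div₀, map_pow, hπ, ← exp_nsmul]
    have h2 : (0 : ℤᵐ⁰) < exp ((k + 1) • (-1 : ℤ)) := exp_pos
    rw [div_le_one₀ h2]
    refine h1.trans ?_
    rw [exp_le_exp]
    simp
  have hq' : ∀ u : cong v k, (((u : Kˣ) : K)) = 1 + (algebraMap (𝓞 K) K π) ^ (k + 1) * q u := by
    intro u
    simp only [q]
    field_simp
    ring
  choose c hc using fun u => exists_int_approx v (hq u) 1
  have hcuniq : ∀ u (a : 𝓞 K), v.valuation K (algebraMap (𝓞 K) K a - q u) ≤ exp (-1 : ℤ) →
      Ideal.Quotient.mk v.asIdeal a = Ideal.Quotient.mk v.asIdeal (c u) := by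
    intro u a ha
    rw [Ideal.Quotient.eq]
    have h1 : v.valuation K (algebraMap (𝓞 K) K (a - c u)) ≤ exp (-1 : ℤ) := by
      have : algebraMap (𝓞 K) K (a - c u) = (algebraMap (𝓞 K) K a - q u) -
          (algebraMap (𝓞 K) K (c u) - q u) := by
        rw [map_sub]
        ring
      rw [this]
      exact (Valuation.map_sub _ _ _).trans (max_le ha (hc u))
    rw [HeightOneSpectrum.valuation_of_algebraMap] at h1
    have h2 := (v.intValuation_le_pow_iff_mem (a - c u) 1).mp (by simpa using h1)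
    simpa using h2
  let φ : cong v k →* Multiplicative (𝓞 K ⧸ v.asIdeal) :=
    { toFun := fun u => Multiplicative.ofAdd (Ideal.Quotient.mk v.asIdeal (c u))
      map_one' := by
        have : Ideal.Quotient.mk v.asIdeal (0 : 𝓞 K) = Ideal.Quotient.mk v.asIdeal (c 1) := by
          apply hcuniq
          have : q 1 = 0 := by simp [q]
          rw [this]
          simp
        rw [← this, map_zero]
        rfl
      map_mul' := by
        intro x y
        rw [← ofAdd_add, ← map_add]
        congr 1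
        symm
        apply hcuniq
        have e : q (x * y) = q x + q y + (algebraMap (𝓞 K) K π) ^ (k + 1) * (q x * q y) := by
          have h1 := hq' (x * y)
          have h2 : (((x * y : cong v k) : Kˣ) : K) = ((x : Kˣ) : K) * ((y : Kˣ) : K) := by
            push_cast
            rfl
          rw [h2, hq' x, hq' y] at h1
          apply mul_left_cancel₀ (pow_ne_zero (k + 1) hπ0)
          linear_combination -h1
        have e2 : algebraMap (𝓞 K) K (c x + c y) - q (x * y) =
            ((algebraMap (𝓞 K) K (c x) - q x) + (algebraMap (𝓞 K) K (c y) - q y)) -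
            (algebraMap (𝓞 K) K π) ^ (k + 1) * (q x * q y) := by
          rw [e, map_add]
          ring
        rw [e2]
        refine (Valuation.map_sub _ _ _).trans (max_le ((Valuation.map_add _ _ _).trans
          (max_le (hc x) (hc y))) ?_)
        rw [map_mul, map_pow, hπ, map_mul]
        refine (mul_le_of_le_one_right' (mul_le_one' (hq x) (hq y))).trans ?_
        rw [← exp_nsmul, exp_le_exp]
        simp }
  have hφs : Function.Surjective φ := by
    intro y
    obtain ⟨a, ha⟩ := Ideal.Quotient.mk_surjective (Multiplicative.toAdd y)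
    refine ⟨⟨Units.mk0 _ (hne a), hmem a⟩, ?_⟩
    change Multiplicative.ofAdd (Ideal.Quotient.mk v.asIdeal (c _)) = y
    rw [← hcuniq _ a, ha]
    · rfl
    · have : q ⟨Units.mk0 _ (hne a), hmem a⟩ = algebraMap (𝓞 K) K a := by
        simp only [q, Units.val_mk0, add_sub_cancel_left]
        rw [map_mul, map_pow]
        field_simp
      rw [this, sub_self, map_zero]
      exact zero_le
  have hφk : φ.ker = (cong v (k + 1)).subgroupOf (cong v k) := by
    ext u
    rw [MonoidHom.mem_ker, Subgroup.mem_subgroupOf, mem_cong]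
    have h1 : φ u = 1 ↔ v.valuation K (q u) ≤ exp (-1 : ℤ) := by
      change Multiplicative.ofAdd (Ideal.Quotient.mk v.asIdeal (c u)) = 1 ↔ _
      rw [← ofAdd_zero, Multiplicative.ofAdd.injective.eq_iff, Ideal.Quotient.eq_zero_iff_mem]
      have h2 : c u ∈ v.asIdeal ↔ v.valuation K (algebraMap (𝓞 K) K (c u)) ≤ exp (-1 : ℤ) := by
        rw [HeightOneSpectrum.valuation_of_algebraMap]
        have h3 := (v.intValuation_le_pow_iff_mem (c u) 1)
        rw [pow_one] at h3
        exact h3.symm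
      rw [h2]
      constructor
      · intro h
        have : q u = algebraMap (𝓞 K) K (c u) - (algebraMap (𝓞 K) K (c u) - q u) := by ring
        rw [this]
        exact (Valuation.map_sub _ _ _).trans (max_le h (hc u))
      · intro h
        have : algebraMap (𝓞 K) K (c u) = (algebraMap (𝓞 K) K (c u) - q u) + q u := by ring
        rw [this]
        exact (Valuation.map_add _ _ _).trans (max_le (hc u) h)
    rw [h1]
    have h4 : ((u : Kˣ) : K) - 1 = (algebraMap (𝓞 K) K π) ^ (k + 1) * q u := by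
      rw [hq' u]
      ring
    rw [h4, map_mul, map_pow, hπ, ← exp_nsmul]
    have h5 : exp (-(((k + 1 : ℕ) : ℤ) + 1)) = exp ((k + 1) • (-1 : ℤ)) * exp (-1 : ℤ) := by
      rw [← exp_add]
      congr 1
      simp
      ring
    rw [h5]
    exact (mul_le_mul_iff_of_pos_left exp_pos).symm
  rw [Subgroup.relIndex, ← hφk, Subgroup.index_ker, MonoidHom.range_eq_top.mpr hφs,
    Nat.card_congr (Subgroup.topEquiv.toEquiv), Ideal.absNorm_apply, Submodule.cardQuot_apply]
  rfl

lemma relIndex_cong_add (k j : ℕ) :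
    (cong v (k + j)).relIndex (cong v k) = Ideal.absNorm v.asIdeal ^ j := by
  induction j with
  | zero => rw [add_zero, Subgroup.relIndex_self, pow_zero]
  | succ j ih =>
    rw [← Subgroup.relIndex_mul_relIndex (cong v (k + (j + 1))) (cong v (k + j)) (cong v k)
      (cong_anti v (by omega)) (cong_anti v (by omega)), ih, ← add_assoc, relIndex_cong_succ,
      pow_succ, mul_comm]


section RootOfUnity

variable {p : ℕ} (hp : p.Prime) {ζ : K} (hζ : IsPrimitiveRoot ζ p)

include hp hζ

omit [NumberField K] in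
lemma natCast_eq_prod : (p : K) = ∏ k ∈ Finset.range (p - 1), (1 - ζ ^ (k + 1)) := by
  obtain ⟨n, rfl⟩ : ∃ n, p = n + 1 := ⟨p - 1, (Nat.sub_add_cancel hp.one_le).symm⟩
  rw [Nat.add_sub_cancel, hζ.prod_one_sub_pow_eq_order]
  push_cast
  ring

omit [NumberField K] in
lemma pow_sub_one_eq_prod (x : K) :
    x ^ p - 1 = (x - 1) * ∏ k ∈ Finset.range (p - 1), (x - ζ ^ (k + 1)) := by
  have h := X_pow_sub_C_eq_prod hζ hp.pos (one_pow p)
  have h2 := congrArg (Polynomial.eval x) h
  rw [Polynomial.eval_prod] at h2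
  simp only [Polynomial.eval_sub, Polynomial.eval_pow, Polynomial.eval_X, Polynomial.eval_C,
    mul_one] at h2
  rw [h2]
  obtain ⟨n, rfl⟩ : ∃ n, p = n + 1 := ⟨p - 1, (Nat.sub_add_cancel hp.one_le).symm⟩
  rw [Finset.prod_range_succ', pow_zero, Nat.add_sub_cancel, mul_comm]

omit hp in
lemma valuation_zeta (hp0 : p ≠ 0) : v.valuation K ζ = 1 := by
  have h : v.valuation K ζ ^ p = 1 := by
    rw [← map_pow, hζ.pow_eq_one, map_one]
  exact (pow_eq_one_iff.mp h).resolve_right hp0

lemma valuation_pow_sub_le_one (i j : ℕ) : v.valuation K (ζ ^ i - ζ ^ j) ≤ 1 := by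
  refine (Valuation.map_sub _ _ _).trans (max_le ?_ ?_)
  · rw [map_pow, valuation_zeta v hζ hp.ne_zero, one_pow]
  · rw [map_pow, valuation_zeta v hζ hp.ne_zero, one_pow]

/-- `|1 - ζ^i| ≥ |p|`. -/
lemma valuation_le_one_sub (i : ℕ) (hi : ζ ^ i ≠ 1) :
    v.valuation K (p : K) ≤ v.valuation K (1 - ζ ^ i) := by
  -- reduce to `i < p`
  have h1 : ζ ^ i = ζ ^ (i % p) := by
    conv_lhs => rw [← Nat.div_add_mod i p, pow_add, pow_mul, hζ.pow_eq_one, one_pow, one_mul]
  rw [h1] at hi ⊢
  have hlt : i % p < p := Nat.mod_lt _ hp.pos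
  set j := i % p with hj
  have hj0 : j ≠ 0 := by
    intro h
    rw [h, pow_zero] at hi
    exact hi rfl
  have hmem : j - 1 ∈ Finset.range (p - 1) := by
    rw [Finset.mem_range]
    omega
  rw [natCast_eq_prod hp hζ, map_prod, ← Finset.mul_prod_erase _ _ hmem,
    Nat.sub_add_cancel (Nat.one_le_iff_ne_zero.mpr hj0)]
  refine mul_le_of_le_one_right' (Finset.prod_le_one' fun k _ => ?_)
  have := valuation_pow_sub_le_one v hp hζ 0 (k + 1)
  rwa [pow_zero] at this

/-- Krasner-type estimate: the closest `p`-th root of unity. -/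
lemma exists_closest (x : K) :
    ∃ i : ℕ, v.valuation K (x - ζ ^ i) * v.valuation K (p : K) ≤ v.valuation K (x ^ p - 1) := by
  obtain ⟨i, -, hi⟩ := Finset.exists_min_image (Finset.range p)
    (fun i => v.valuation K (x - ζ ^ i)) ⟨0, Finset.mem_range.mpr hp.pos⟩
  have hmin : ∀ j : ℕ, v.valuation K (x - ζ ^ i) ≤ v.valuation K (x - ζ ^ j) := by
    intro j
    have h1 : ζ ^ j = ζ ^ (j % p) := by
      conv_lhs => rw [← Nat.div_add_mod j p, pow_add, pow_mul, hζ.pow_eq_one, one_pow, one_mul]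
    rw [h1]
    exact hi _ (Finset.mem_range.mpr (Nat.mod_lt _ hp.pos))
  have hζi : v.valuation K (ζ ^ i) = 1 := by
    rw [map_pow, valuation_zeta v hζ hp.ne_zero, one_pow]
  have hζi0 : ζ ^ i ≠ 0 := by
    intro h
    rw [h, map_zero] at hζi
    exact zero_ne_one hζi
  set y := x / ζ ^ i with hy
  have hxy : x = ζ ^ i * y := by
    rw [hy]
    field_simp
  have hval : ∀ j : ℕ, v.valuation K (y - ζ ^ j) = v.valuation K (x - ζ ^ (i + j)) := by
    intro j
    rw [hxy, pow_add, ← mul_sub, map_mul, hζi, one_mul]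
  have hval1 : v.valuation K (y - 1) = v.valuation K (x - ζ ^ i) := by
    have := hval 0
    rwa [pow_zero, add_zero] at this
  refine ⟨i, ?_⟩
  have hpow : x ^ p - 1 = y ^ p - 1 := by
    rw [hxy, mul_pow, ← pow_mul, mul_comm i p, pow_mul, hζ.pow_eq_one, one_pow, one_mul]
  rw [hpow, pow_sub_one_eq_prod hp hζ y, map_mul, hval1, natCast_eq_prod hp hζ, map_prod, map_prod]
  refine mul_le_mul_right (Finset.prod_le_prod' fun k _ => ?_) _
  -- `|1 - ζ^(k+1)| ≤ max(|y - 1|, |y - ζ^(k+1)|) = |y - ζ^(k+1)|`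
  have e : (1 : K) - ζ ^ (k + 1) = (y - ζ ^ (k + 1)) - (y - 1) := by ring
  rw [e]
  refine (Valuation.map_sub _ _ _).trans (max_le le_rfl ?_)
  rw [hval1, hval]
  exact hmin _

omit hζ in
lemma pow_mem_cong {e n : ℕ} (he' : v.valuation K (p : K) = exp (-(e : ℤ))) (hn : e ≤ n) {y : Kˣ} (hy : y ∈ cong v n) :
    y ^ p ∈ cong v (n + e) := by
  rw [mem_cong] at hy ⊢
  set t : K := (y : K) - 1 with ht
  have ht1 : v.valuation K t ≤ 1 := hy.trans (by rw [← exp_zero, exp_le_exp]; omega)
  have hmem : t ∈ (v.valuation K).integer := ht1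
  obtain ⟨r, hr⟩ := (Commute.all (⟨t, hmem⟩ : (v.valuation K).integer) 1).exists_add_pow_prime_eq hp
  have hr' := congrArg (Subtype.val) hr
  push_cast at hr'
  have e1 : ((y ^ p : Kˣ) : K) - 1 = t ^ p + p * t * r := by
    have : (y : K) = t + 1 := by rw [ht]; ring
    rw [Units.val_pow_eq_pow_val, this, hr']
    ring
  rw [e1]
  have hr1 : v.valuation K (r : K) ≤ 1 := r.2
  refine (Valuation.map_add _ _ _).trans (max_le ?_ ?_)
  · rw [map_pow, ← Nat.sub_add_cancel hp.one_le, pow_succ]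
    have h2 : v.valuation K t ^ (p - 1) ≤ exp (-((n : ℤ) + 1)) := by
      have hp1 : p - 1 ≠ 0 := by have := hp.two_le; omega
      exact (pow_le_of_le_one zero_le ht1 hp1).trans hy
    calc v.valuation K t ^ (p - 1) * v.valuation K t
        ≤ exp (-((n : ℤ) + 1)) * exp (-((n : ℤ) + 1)) := mul_le_mul' h2 hy
      _ ≤ _ := by
          rw [← exp_add, exp_le_exp]
          push_cast
          omega
  · rw [map_mul, map_mul, he']
    refine (mul_le_of_le_one_right' hr1).trans ?_
    refine (mul_le_mul_right hy _).trans ?_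
    rw [← exp_add, exp_le_exp]
    push_cast
    omega


/-- The elements whose `p`-th power is `≡ 1 mod v^(n+e+1)` are the roots of unity times
`1 + v^(n+1)`. -/
lemma comap_pow_cong {e n : ℕ} (he : v.valuation K (p : K) = exp (-(e : ℤ))) (hn : e ≤ n)
    {ζu : Kˣ} (hζu : (ζu : K) = ζ) :
    (cong v (n + e)).comap (powMonoidHom p : Kˣ →* Kˣ) = Subgroup.zpowers ζu ⊔ cong v n := by
  apply le_antisymm
  · intro x hx
    rw [Subgroup.mem_comap, powMonoidHom_apply, mem_cong, Units.val_pow_eq_pow_val] at hx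
    obtain ⟨i, hi⟩ := exists_closest v hp hζ (x : K)
    have h1 := hi.trans hx
    rw [he] at h1
    have h2 : v.valuation K ((x : K) - ζ ^ i) ≤ exp (-((n : ℤ) + 1)) := by
      have h3 : exp (-(((n + e : ℕ) : ℤ) + 1)) = exp (-((n : ℤ) + 1)) * exp (-(e : ℤ)) := by
        rw [← exp_add]
        congr 1
        push_cast
        ring
      rw [h3] at h1
      exact (mul_le_mul_iff_of_pos_right exp_pos).mp h1
    rw [Subgroup.mem_sup]
    refine ⟨ζu ^ i, Subgroup.pow_mem _ (Subgroup.mem_zpowers _) _, (ζu ^ i)⁻¹ * x, ?_, by group⟩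
    rw [mem_cong]
    have h4 : (((ζu ^ i)⁻¹ * x : Kˣ) : K) - 1 = (ζ ^ i)⁻¹ * ((x : K) - ζ ^ i) := by
      have h5 : ζ ^ i ≠ 0 := pow_ne_zero _ (hζ.ne_zero hp.ne_zero)
      push_cast
      rw [hζu]
      field_simp
    rw [h4, map_mul, map_inv₀, map_pow, valuation_zeta v hζ hp.ne_zero, one_pow, inv_one, one_mul]
    exact h2
  · refine sup_le ?_ ?_
    · rw [Subgroup.zpowers_le, Subgroup.mem_comap, powMonoidHom_apply]
      have : ζu ^ p = 1 := by
        apply Units.ext
        rw [Units.val_pow_eq_pow_val, hζu, hζ.pow_eq_one, Units.val_one]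
      rw [this]
      exact one_mem _
    · intro y hy
      rw [Subgroup.mem_comap, powMonoidHom_apply]
      exact pow_mem_cong v hp he hn hy

lemma relIndex_cong_comap {e n : ℕ} (he : v.valuation K (p : K) = exp (-(e : ℤ))) (hn : e ≤ n) :
    (cong v (n + e)).relIndex ((cong v (n + e)).comap (powMonoidHom p : Kˣ →* Kˣ)) =
      p * Ideal.absNorm v.asIdeal ^ e := by
  set ζu : Kˣ := Units.mk0 ζ (hζ.ne_zero hp.ne_zero) with hζu
  have hcoe : (ζu : K) = ζ := rfl
  have hprim : IsPrimitiveRoot ζu p := IsPrimitiveRoot.coe_units_iff.mp (by rw [hcoe]; exact hζ)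
  rw [comap_pow_cong v hp hζ he hn hcoe,
    ← Subgroup.relIndex_mul_relIndex (cong v (n + e)) (cong v n) _ (cong_anti v (by omega))
      le_sup_right, relIndex_cong_add, mul_comm, Subgroup.relIndex_sup_right]
  congr 1
  have hbot : (cong v n).subgroupOf (Subgroup.zpowers ζu) = ⊥ := by
    rw [eq_bot_iff]
    rintro ⟨x, hx⟩ hxc
    rw [Subgroup.mem_subgroupOf] at hxc
    obtain ⟨i, rfl⟩ := (hprim.isOfFinOrder hp.ne_zero).mem_powers_iff_mem_zpowers.mpr hx
    rw [Subgroup.mem_bot]
    apply Subtype.ext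
    change ζu ^ i = 1
    by_contra hne
    have hne' : ζ ^ i ≠ 1 := by
      intro h
      apply hne
      apply Units.ext
      rw [Units.val_pow_eq_pow_val, hcoe, h, Units.val_one]
    have h1 := valuation_le_one_sub v hp hζ i hne'
    rw [he] at h1
    have h2 : v.valuation K (ζ ^ i - 1) ≤ exp (-((n : ℤ) + 1)) := hxc
    rw [Valuation.map_sub_swap] at h2
    have h3 := h1.trans h2
    rw [exp_le_exp] at h3
    omega
  rw [Subgroup.relIndex, hbot, Subgroup.index_bot, Nat.card_zpowers, hprim.eq_orderOf.symm]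

end RootOfUnity

/-- The valuation as a homomorphism to `Multiplicative ℤ`. -/
noncomputable def ordHom : Kˣ →* Multiplicative ℤ where
  toFun x := Multiplicative.ofAdd (ord v x)
  map_one' := by rw [ord_one]; rfl
  map_mul' x y := by rw [ord_mul]; rfl

lemma ordHom_surjective : Function.Surjective (ordHom v) := by
  intro n
  obtain ⟨π, hπ⟩ := exists_int_uniformizer v
  have hπ0 : algebraMap (𝓞 K) K π ≠ 0 := by
    intro h
    rw [h, map_zero] at hπ
    exact exp_ne_zero hπ.symm
  refine ⟨(Units.mk0 _ hπ0) ^ n.toAdd, ?_⟩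
  have h1 : ordHom v (Units.mk0 _ hπ0) = Multiplicative.ofAdd 1 := by
    change Multiplicative.ofAdd (ord v _) = _
    congr 1
    have h2 := valuation_eq_exp_neg_ord K v (Units.mk0 _ hπ0)
    rw [Units.val_mk0, hπ, WithZero.exp_inj] at h2
    linarith
  rw [map_zpow, h1, ← ofAdd_zsmul, smul_eq_mul, mul_one, ofAdd_toAdd]

lemma mem_ker_ordHom (x : Kˣ) : x ∈ (ordHom v).ker ↔ v.valuation K (x : K) = 1 := by
  rw [MonoidHom.mem_ker, ← ord_eq_zero_iff]
  exact Multiplicative.ofAdd.apply_eq_iff_eq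

lemma cong_le_ker_ordHom (n : ℕ) : cong v n ≤ (ordHom v).ker := by
  intro x hx
  rw [mem_ker_ordHom]
  exact valuation_eq_one_of_mem_cong v hx

lemma relIndex_cong_zero_ne_zero : (cong v 0).relIndex (ordHom v).ker ≠ 0 := by
  have hle : ∀ u : (ordHom v).ker, v.valuation K ((u : Kˣ) : K) ≤ 1 := fun u =>
    ((mem_ker_ordHom v _).mp u.2).le
  choose c hc using fun u => exists_int_approx v (hle u) 1
  have hfin : Finite (𝓞 K ⧸ v.asIdeal) := Ideal.finiteQuotientOfFreeOfNeBot _ v.ne_bot
  have : Finite ((ordHom v).ker ⧸ (cong v 0).subgroupOf (ordHom v).ker) := by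
    refine Finite.of_injective
      (fun x => Ideal.Quotient.mk v.asIdeal (c (Quotient.out x))) ?_
    intro x y hxy
    have h1 : Ideal.Quotient.mk v.asIdeal (c (Quotient.out x)) =
      Ideal.Quotient.mk v.asIdeal (c (Quotient.out y)) := hxy
    rw [Ideal.Quotient.eq, ← pow_one v.asIdeal, ← v.intValuation_le_pow_iff_mem,
      ← HeightOneSpectrum.valuation_of_algebraMap (K := K)] at h1
    rw [← Quotient.out_eq x, ← Quotient.out_eq y]
    refine QuotientGroup.eq.mpr ?_
    rw [Subgroup.mem_subgroupOf, mem_cong]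
    set a := (Quotient.out x : (ordHom v).ker) with ha
    set b := (Quotient.out y : (ordHom v).ker) with hb
    have hab : v.valuation K (((b : Kˣ) : K) - ((a : Kˣ) : K)) ≤ exp (-1 : ℤ) := by
      have e : ((b : Kˣ) : K) - ((a : Kˣ) : K) =
        (algebraMap (𝓞 K) K (c a) - ((a : Kˣ) : K)) - (algebraMap (𝓞 K) K (c b) - ((b : Kˣ) : K)) -
          (algebraMap (𝓞 K) K (c a - c b)) := by
        rw [map_sub]
        ring
      rw [e]
      refine (Valuation.map_sub _ _ _).trans (max_le ?_ (by simpa using h1))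
      exact (Valuation.map_sub _ _ _).trans (max_le (hc a) (hc b))
    have e2 : ((((a⁻¹ * b : (ordHom v).ker) : Kˣ) : K)) - 1 =
        (((a : Kˣ) : K))⁻¹ * (((b : Kˣ) : K) - ((a : Kˣ) : K)) := by
      have h0 : ((a : Kˣ) : K) ≠ 0 := (a : Kˣ).ne_zero
      push_cast
      field_simp
    rw [e2, map_mul, map_inv₀, (mem_ker_ordHom v _).mp a.2, inv_one, one_mul]
    simpa using hab
  rw [Subgroup.relIndex, Subgroup.index_eq_card]
  exact Nat.card_pos.ne'

lemma relIndex_cong_ker_ne_zero (n : ℕ) : (cong v n).relIndex (ordHom v).ker ≠ 0 := by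
  rw [← Subgroup.relIndex_mul_relIndex (cong v n) (cong v 0) _ (cong_anti v (Nat.zero_le n))
    (cong_le_ker_ordHom v 0)]
  refine mul_ne_zero ?_ (relIndex_cong_zero_ne_zero v)
  have := relIndex_cong_add v 0 n
  rw [zero_add] at this
  rw [this]
  refine pow_ne_zero _ ?_
  rw [Ne, Ideal.absNorm_eq_zero_iff]
  exact v.ne_bot

/-- `[Kˣ : (Kˣ)^p (1 + v^(m+1))] = p² N(v)^e`, `e = ord_v p`, for `m ≥ 2e`. -/
lemma index_pow_sup_cong {p : ℕ} (hp : p.Prime) {ζ : K} (hζ : IsPrimitiveRoot ζ p) {e m : ℕ}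
    (he : v.valuation K (p : K) = exp (-(e : ℤ))) (hm : 2 * e ≤ m) :
    ((powMonoidHom p : Kˣ →* Kˣ).range ⊔ cong v m).index =
      p ^ 2 * Ideal.absNorm v.asIdeal ^ e := by
  obtain ⟨n, rfl⟩ : ∃ n, m = n + e := ⟨m - e, by omega⟩
  have hn : e ≤ n := by omega
  rw [index_pow_sup (cong v (n + e)) (ordHom v) (ordHom_surjective v) (cong_le_ker_ordHom v _)
    hp.ne_zero (relIndex_cong_ker_ne_zero v _), relIndex_cong_comap v hp hζ he hn]
  ring

/-- `Kˣ ∩ K_v^{×p} = (Kˣ)^p (1 + v^(m+1))` for `m ≥ 2 ord_v p`. -/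
theorem locPow_eq {p : ℕ} (hp : p.Prime) {ζ : K} (hζ : IsPrimitiveRoot ζ p) {e m : ℕ}
    (he : v.valuation K (p : K) = exp (-(e : ℤ))) (hm : 2 * e ≤ m) :
    locPow p v = (powMonoidHom p : Kˣ →* Kˣ).range ⊔ cong v m := by
  have hN : p ^ 2 * Ideal.absNorm v.asIdeal ^ e ≠ 0 := by
    refine mul_ne_zero (pow_ne_zero _ hp.ne_zero) (pow_ne_zero _ ?_)
    rw [Ne, Ideal.absNorm_eq_zero_iff]
    exact v.ne_bot
  apply le_antisymm
  · exact iInf_le _ m
  · refine le_iInf fun k => ?_
    -- `H_{max m k} = H_m`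
    have hle : (powMonoidHom p : Kˣ →* Kˣ).range ⊔ cong v (max m k) ≤
        (powMonoidHom p : Kˣ →* Kˣ).range ⊔ cong v m :=
      sup_le_sup le_rfl (cong_anti v (le_max_left _ _))
    have h1 := Subgroup.relIndex_mul_index hle
    rw [index_pow_sup_cong v hp hζ he hm,
      index_pow_sup_cong v hp hζ he (hm.trans (le_max_left _ _))] at h1
    have h2 := mul_right_cancel₀ hN (h1.trans (one_mul _).symm)
    rw [Subgroup.relIndex_eq_one] at h2
    exact h2.trans (sup_le_sup le_rfl (cong_anti v (le_max_right _ _)))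

/-- the exponent of `v` in `p` -/
noncomputable def ramP (p : ℕ) (v : HeightOneSpectrum (𝓞 K)) : ℕ :=
  (Associates.mk v.asIdeal).count (Associates.mk (Ideal.span {(p : 𝓞 K)})).factors

lemma valuation_natCast {p : ℕ} (hp : p ≠ 0) : v.valuation K (p : K) = exp (-(ramP p v : ℤ)) := by
  have h0 : (p : 𝓞 K) ≠ 0 := by exact_mod_cast hp
  have h1 : (p : K) = algebraMap (𝓞 K) K (p : 𝓞 K) := by rw [map_natCast]
  rw [h1, HeightOneSpectrum.valuation_of_algebraMap, HeightOneSpectrum.intValuation_if_neg _ h0]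
  rfl

/-- `[Kˣ : Kˣ ∩ K_v^{×p}] = p² N(v)^{ord_v p}`. -/
theorem index_locPow {p : ℕ} (hp : p.Prime) {ζ : K} (hζ : IsPrimitiveRoot ζ p) :
    (locPow p v).index = p ^ 2 * Ideal.absNorm v.asIdeal ^ (ramP p v) := by
  rw [locPow_eq v hp hζ (valuation_natCast v hp.ne_zero) le_rfl,
    index_pow_sup_cong v hp hζ (valuation_natCast v hp.ne_zero) le_rfl]

end Local

section Global

variable {K : Type*} [Field K] [NumberField K]

/-- **Weak approximation** at finite places. -/
theorem weak_approximation (S : Finset (HeightOneSpectrum (𝓞 K)))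
    (x : HeightOneSpectrum (𝓞 K) → Kˣ) (n : HeightOneSpectrum (𝓞 K) → ℕ) :
    ∃ y : Kˣ, ∀ v ∈ S, (x v)⁻¹ * y ∈ cong v (n v) := by
  classical
  by_cases hS : S = ∅
  · subst hS
    exact ⟨1, fun v hv => absurd hv (Finset.notMem_empty v)⟩
  -- common denominator
  obtain ⟨b, hb⟩ := IsLocalization.exist_integer_multiples (M := nonZeroDivisors (𝓞 K)) S
    (fun v => ((x v : Kˣ) : K))
  have hb0 : (algebraMap (𝓞 K) K b) ≠ 0 := by
    rw [Ne, map_eq_zero_iff _ (IsFractionRing.injective (𝓞 K) K)]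
    exact nonZeroDivisors.ne_zero b.2
  choose! a ha using hb
  have ha' : ∀ v ∈ S, algebraMap (𝓞 K) K (a v) = algebraMap (𝓞 K) K b * (x v : K) := by
    intro v hv
    rw [ha v hv, Algebra.smul_def]
  -- the exponents
  have hexp : ∀ v : HeightOneSpectrum (𝓞 K), ∃ k : ℕ, v ∈ S →
      exp (-(k : ℤ)) ≤ exp (-((n v : ℤ) + 1)) * v.valuation K (algebraMap (𝓞 K) K (a v)) := by
    intro v
    by_cases hv : v ∈ S
    · have hne : algebraMap (𝓞 K) K (a v) ≠ 0 := by
        rw [ha' v hv]
        exact mul_ne_zero hb0 (x v).ne_zero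
      have hne' : v.valuation K (algebraMap (𝓞 K) K (a v)) ≠ 0 := by
        rwa [Ne, map_eq_zero]
      refine ⟨(n v + 1 + (log (v.valuation K (algebraMap (𝓞 K) K (a v)))).natAbs), fun _ => ?_⟩
      conv_rhs => rw [← exp_log hne']
      rw [← exp_add, exp_le_exp]
      push_cast
      have := neg_abs_le (log (v.valuation K (algebraMap (𝓞 K) K (a v))))
      omega
    · exact ⟨0, fun h => absurd h hv⟩
  choose k hk using hexp
  obtain ⟨c, hc⟩ := IsDedekindDomain.exists_forall_sub_mem_ideal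
    (s := S) (fun v => v.asIdeal) k (fun v _ => v.prime) (fun v _ w _ hvw h =>
      hvw (HeightOneSpectrum.ext h)) (fun v => a v)
  have hc' : ∀ v ∈ S, v.valuation K (algebraMap (𝓞 K) K (c - a v)) ≤
      exp (-((n v : ℤ) + 1)) * v.valuation K (algebraMap (𝓞 K) K (a v)) := by
    intro v hv
    refine le_trans ?_ (hk v hv)
    rw [HeightOneSpectrum.valuation_of_algebraMap, v.intValuation_le_pow_iff_mem]
    exact hc v hv
  have hc0 : algebraMap (𝓞 K) K c ≠ 0 := by
    intro h0
    obtain ⟨v, hv⟩ := Finset.nonempty_iff_ne_empty.mpr hS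
    have h1 := hc' v hv
    have hne : v.valuation K (algebraMap (𝓞 K) K (a v)) ≠ 0 := by
      rw [Ne, map_eq_zero, ha' v hv]
      exact mul_ne_zero hb0 (x v).ne_zero
    rw [map_sub, h0, zero_sub, Valuation.map_neg] at h1
    have h2 : exp (-((n v : ℤ) + 1)) * v.valuation K (algebraMap (𝓞 K) K (a v)) <
        v.valuation K (algebraMap (𝓞 K) K (a v)) := by
      refine mul_lt_of_lt_one_left (zero_lt_iff.mpr hne) ?_
      rw [← exp_zero, exp_lt_exp]
      omega
    exact absurd h1 (not_le.mpr h2)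
  refine ⟨Units.mk0 (algebraMap (𝓞 K) K c / algebraMap (𝓞 K) K b) (div_ne_zero hc0 hb0),
    fun v hv => ?_⟩
  rw [mem_cong]
  have hx0 : (x v : K) ≠ 0 := (x v).ne_zero
  have e : ((((x v)⁻¹ * Units.mk0 (algebraMap (𝓞 K) K c / algebraMap (𝓞 K) K b)
      (div_ne_zero hc0 hb0) : Kˣ)) : K) - 1 =
      algebraMap (𝓞 K) K (c - a v) / algebraMap (𝓞 K) K (a v) := by
    rw [map_sub, ha' v hv, Units.val_mul, Units.val_mk0, Units.val_inv_eq_inv_val]
    field_simp
  have hne : v.valuation K (algebraMap (𝓞 K) K (a v)) ≠ 0 := by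
    rw [Ne, map_eq_zero, ha' v hv]
    exact mul_ne_zero hb0 hx0
  rw [e, map_div₀, div_le_iff₀ (zero_lt_iff.mpr hne)]
  exact hc' v hv

/-- The index of an intersection of open subgroups at distinct places is the product of the
indices. -/
theorem index_iInf_open (S : Finset (HeightOneSpectrum (𝓞 K)))
    (H : HeightOneSpectrum (𝓞 K) → Subgroup Kˣ) (n : HeightOneSpectrum (𝓞 K) → ℕ)
    (hH : ∀ v ∈ S, cong v (n v) ≤ H v) :
    (⨅ v ∈ S, H v).index = ∏ v ∈ S, (H v).index := by
  classical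
  let f : Kˣ →* ∀ v : S, Kˣ ⧸ H v := MonoidHom.pi fun v => QuotientGroup.mk' (H v)
  have hker : f.ker = ⨅ v ∈ S, H v := by
    ext x
    rw [MonoidHom.mem_ker, Subgroup.mem_iInf]
    constructor
    · intro h v
      rw [Subgroup.mem_iInf]
      intro hv
      exact (QuotientGroup.eq_one_iff x).mp (congrFun h ⟨v, hv⟩)
    · intro h
      funext v
      have h1 := h v
      rw [Subgroup.mem_iInf] at h1
      exact (QuotientGroup.eq_one_iff x).mpr (h1 v.2)
  have hsurj : Function.Surjective f := by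
    intro y
    choose x hx using fun v : S => QuotientGroup.mk_surjective (y v)
    obtain ⟨z, hz⟩ := weak_approximation S
      (fun v => if hv : v ∈ S then x ⟨v, hv⟩ else 1) n
    refine ⟨z, ?_⟩
    funext v
    rw [← hx v]
    have h1 := hz v v.2
    rw [dif_pos v.2] at h1
    exact (QuotientGroup.eq.mpr (hH v v.2 h1)).symm
  have h2 := index_ker_pi f hsurj
  rw [hker] at h2
  rw [h2, ← Finset.prod_coe_sort S (fun v => (H v).index)]
  rfl

/-- `∏_{v | p} N(v)^{ord_v p} = p^[K : ℚ]`. -/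
lemma prod_absNorm_pow_ramP {p : ℕ} (hp : p ≠ 0) (S : Finset (HeightOneSpectrum (𝓞 K)))
    (hS : AboveP p S) :
    ∏ v ∈ S, Ideal.absNorm v.asIdeal ^ (ramP p v) = p ^ Module.finrank ℚ K := by
  classical
  have h0 : (Ideal.span {(p : 𝓞 K)}) ≠ 0 := by
    rw [Ne, Ideal.zero_eq_bot, Ideal.span_singleton_eq_bot]
    exact_mod_cast hp
  have h1 := Ideal.finprod_heightOneSpectrum_factorization h0
  have hsupp : Function.mulSupport (fun v : HeightOneSpectrum (𝓞 K) =>
      v.maxPowDividing (Ideal.span {(p : 𝓞 K)})) ⊆ S := by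
    intro v hv
    apply hS
    by_contra hpv
    apply hv
    change v.asIdeal ^ (Associates.mk v.asIdeal).count
      (Associates.mk (Ideal.span {(p : 𝓞 K)})).factors = 1
    have h2 : (Associates.mk v.asIdeal).count
      (Associates.mk (Ideal.span {(p : 𝓞 K)})).factors = 0 := by
      by_contra h3
      have h4 := (Associates.count_ne_zero_iff_dvd h0 v.irreducible).mp h3
      rw [Ideal.dvd_span_singleton] at h4
      exact hpv h4
    rw [h2, pow_zero]
  rw [finprod_eq_prod_of_mulSupport_subset _ hsupp] at h1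
  have h2 := congrArg Ideal.absNorm h1
  rw [map_prod, Ideal.absNorm_span_natCast, RingOfIntegers.rank] at h2
  rw [← h2]
  refine Finset.prod_congr rfl fun v _ => ?_
  change _ = Ideal.absNorm (v.asIdeal ^ _)
  rw [map_pow]
  rfl

/-- **The local count**: `[Kˣ : ⋂_{v ∈ S} Kˣ ∩ K_v^{×p}] = p^(2 #S + [K : ℚ])`. -/
theorem index_iInf_locPow {p : ℕ} (hp : p.Prime) {ζ : K} (hζ : IsPrimitiveRoot ζ p)
    (S : Finset (HeightOneSpectrum (𝓞 K))) (hS : AboveP p S) :
    (⨅ v ∈ S, locPow p v).index = p ^ (2 * S.card + Module.finrank ℚ K) := by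
  rw [index_iInf_open S (locPow p) (fun v => 2 * ramP p v) fun v _ => by
    rw [locPow_eq v hp hζ (valuation_natCast v hp.ne_zero) le_rfl]
    exact le_sup_right]
  rw [Finset.prod_congr rfl fun v _ => index_locPow v hp hζ, Finset.prod_mul_distrib,
    prod_absNorm_pow_ramP hp.ne_zero S hS, Finset.prod_const, ← pow_mul, ← pow_add]

end Global

/-- The statement `LocalCount` of the shared interface. -/
theorem localCount {p : ℕ} (hp : p.Prime) : LocalCount p := by
  intro K _ _ ζ hζ S hS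
  exact index_iInf_locPow hp hζ S hS

end Fermat.Agent.CFT.LocalCount
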