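import Fermat.Agent.CFT.Global.Reciprocity
import Fermat.Agent.CFT.Global.FirstIneq
import Fermat.Agent.CFT.Global.LocalCount
import Fermat.Agent.CFT.Kum.HasseAbs
import Fermat.Agent.CFT.Bridge.GlobPlace

/-!
# The Hasse principle for `H²(G_K, μ_p)`, `K ∋ ζ_p`
-/

set_option autoImplicit false

namespace Fermat.Agent.CFT.Global

open Fermat.Agent.PT Fermat.Agent.CFT.Kum Fermat.Agent.CFT.Kum.KumSet Fermat.Agent.CFT.Bridge
open NumberField IsDedekindDomain

/-- The absolute Galois group of `ℚ`. -/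
abbrev GamQ := AlgebraicClosure ℚ ≃ₐ[ℚ] AlgebraicClosure ℚ

/-- The local Galois group. -/
abbrev LocG (q : ℕ) [Fact q.Prime] := PadicAlgCl q ≃ₐ[ℚ_[q]] PadicAlgCl q

/-- The levels of `GamQ`: all open subgroups. -/
noncomputable abbrev levQ : LevelSys GamQ := galLevels ℚ (AlgebraicClosure ℚ)

/-- The levels of `LocG q`: all open subgroups. -/
noncomputable abbrev levLoc (q : ℕ) [Fact q.Prime] : LevelSys (LocG q) := galLevels ℚ_[q] (PadicAlgCl q)

/-- The embedding of the local Galois group as a decomposition group, conjugated by `g⁻¹`. -/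
noncomputable def phiLoc (q : ℕ) [Fact q.Prime] (g : GamQ) : LocG q →* GamQ where
  toFun h := g⁻¹ * localGaloisToGlobal q h * g
  map_one' := by simp
  map_mul' a b := by
    simp only [map_mul]
    group

lemma phiLoc_apply (q : ℕ) [Fact q.Prime] (g : GamQ) (h : LocG q) :
    phiLoc q g h = g⁻¹ * localGaloisToGlobal q h * g := rfl

lemma comap_conj_mem (g : GamQ) {W : Subgroup GamQ} (hW : W ∈ levQ) :
    W.comap (MulAut.conj g).toMonoidHom ∈ levQ := by
  obtain ⟨V, hV, hVW, hn⟩ := LevelSys.exists_normal hW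
  refine LevelSys.mono hV fun v hv => ?_
  rw [Subgroup.mem_comap]
  exact hVW (hn.conj_mem v hv g)

lemma compat_phiLoc (q : ℕ) [Fact q.Prime] (g : GamQ) : levQ.Compat (phiLoc q g) (levLoc q) := by
  intro W hW
  have h0 : phiLoc q g = (MulAut.conj g⁻¹).toMonoidHom.comp (localGaloisToGlobal q) := by
    ext1 h
    simp [phiLoc_apply]
  rw [h0, ← Subgroup.comap_comap]
  have h1 := LevelSys.comap_mem_comap (localGaloisToGlobal q) (comap_conj_mem g⁻¹ hW)
  have h2 := comap_localGaloisToGlobal_galLevels q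
  rw [h2] at h1
  exact h1

/-- The index type of the local groups: a prime `q` and `g ∈ Γ`. -/
structure Pl where
  /-- the prime -/
  q : ℕ
  /-- it is prime -/
  hq : Fact q.Prime
  /-- the embedding is `ι_q ∘ g` -/
  g : GamQ

instance (i : Pl) : Fact i.q.Prime := i.hq

/-- the local groups -/
abbrev PlG (i : Pl) := LocG i.q

/-- the level systems -/
noncomputable abbrev PlL (i : Pl) : LevelSys (PlG i) := levLoc i.q

/-- the local embeddings -/
noncomputable abbrev plPhi (i : Pl) : PlG i →* GamQ := phiLoc i.q i.g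

/-- The local subgroup `{h | φ(h) ∈ U}` is the Galois group of the local field. -/
lemma comap_phiLoc_eq (q : ℕ) [Fact q.Prime] (K : IntermediateField ℚ (AlgebraicClosure ℚ))
    (g : GamQ) :
    K.fixingSubgroup.comap (phiLoc q g) = (locField (emb K q g)).fixingSubgroup := by
  ext h
  rw [mem_fixing_locField_emb_iff K q, Subgroup.mem_comap, phiLoc_apply]

variable {p : ℕ} [hp : Fact p.Prime]

/-- transport of `IsCob` along an equality of subgroups -/
lemma isCob_transport {G : Type*} [Group G] {𝓛 : LevelSys G} {H H' : Subgroup G} (h : H = H')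
    (c : H × H → ZMod p) :
    IsCob (𝓛.restrict H) c ↔
      IsCob (𝓛.restrict H') (fun q : H' × H' => c (⟨q.1, h ▸ q.1.2⟩, ⟨q.2, h ▸ q.2.2⟩)) := by
  subst h
  rfl

/-- `LocTriv` in terms of `resW`. -/
lemma locTriv_iff_resW (K : IntermediateField ℚ (AlgebraicClosure ℚ))
    (c : ↥(Z2 (lev K) (Bridge.triv p K.fixingSubgroup))) :
    LocTriv PlL plPhi c.1 ↔ ∀ (q : ℕ) [Fact q.Prime] (g : GamQ),
      resW K q g (H2mk (lev K) (Bridge.triv p K.fixingSubgroup) c) = 0 := by
  constructor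
  · intro h q hq g
    have h1 := h ⟨q, hq, g⟩
    rw [isCob_transport (comap_phiLoc_eq q K g)] at h1
    rw [resW, resT_mk, H2mk_triv_eq_zero_iff]
    exact h1
  · intro h i
    have h1 := h i.q i.g
    rw [resW, resT_mk, H2mk_triv_eq_zero_iff] at h1
    rw [isCob_transport (comap_phiLoc_eq i.q K i.g)]
    exact h1

/-- **The local input**: `H²` of the local Galois groups is one-dimensional. -/
def LocH2 (p : ℕ) [Fact p.Prime] : Prop :=
  ∀ (q : ℕ) [Fact q.Prime] (l : IntermediateField ℚ_[q] (PadicAlgCl q))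
    [FiniteDimensional ℚ_[q] l] (ξ : l), IsPrimitiveRoot ξ p →
    Module.finrank (ZMod p) (H2 (lev l) (Bridge.triv p l.fixingSubgroup)) = 1

/-- A local invariant. -/
lemma LocH2.exists_inv (HL : LocH2 p) (q : ℕ) [Fact q.Prime]
    (l : IntermediateField ℚ_[q] (PadicAlgCl q)) [FiniteDimensional ℚ_[q] l] {ξ : l}
    (hξ : IsPrimitiveRoot ξ p) :
    ∃ inv : H2 (lev l) (Bridge.triv p l.fixingSubgroup) →+ ZMod p, Function.Bijective inv := by
  have h := HL q l ξ hξ
  have hfd : Module.Finite (ZMod p) (H2 (lev l) (Bridge.triv p l.fixingSubgroup)) :=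
    Module.finite_of_finrank_eq_succ h
  have e : H2 (lev l) (Bridge.triv p l.fixingSubgroup) ≃ₗ[ZMod p] ZMod p :=
    LinearEquiv.ofFinrankEq _ _ (by rw [h, Module.finrank_self])
  exact ⟨e.toLinearMap.toAddMonoidHom, e.bijective⟩

theorem inputs_of_locH2 (hp2 : p ≠ 2) (HL : LocH2 p) : Inputs.{0} p where
  prime := hp.out
  two_lt := lt_of_le_of_ne hp.out.two_le (Ne.symm hp2)
  firstIneq := FirstIneq.firstInequality hp.out hp2
  localCount := LocalCount.localCount hp.out
  symbols := fun F _ _ ζ hζ => nonempty_localSymbols hp.out.ne_zero hζ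
    (fun q _ l _ ξ hξ => by
      obtain ⟨inv, hinv⟩ := HL.exists_inv q l hξ
      exact ⟨locSymOf l hp2 hξ inv hinv.1⟩)

section

variable {K : IntermediateField ℚ (AlgebraicClosure ℚ)} [FiniteDimensional ℚ K]

/-- A choice of local invariants at all places. -/
structure LocFunc' (p : ℕ) [Fact p.Prime] {v : HeightOneSpectrum (𝓞 K)} (P : PlaceRep K v) extends
    LocFunc p P where
  surj : Function.Surjective toLocFunc.inv

lemma LocH2.exists_locFunc (HL : LocH2 p) {ζ : K} (hζ : IsPrimitiveRoot ζ p)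
    {v : HeightOneSpectrum (𝓞 K)} (P : PlaceRep K v) :
    Nonempty (LocFunc' p P) := by
  let _ := P.hq
  have : FiniteDimensional ℚ_[P.q] (locField (emb K P.q P.g)) := inferInstance
  obtain ⟨inv, hinv⟩ := HL.exists_inv P.q (locField (emb K P.q P.g))
    (primitiveRoot_toLoc K P.q P.g hζ)
  exact ⟨⟨⟨inv, hinv.1⟩, hinv.2⟩⟩

/-- The Hasse principle for cup products. -/
theorem cupX_eq_zero_of_resW (hp2 : p ≠ 2) (HL : LocH2 p) {ζ : K} (hζ : IsPrimitiveRoot ζ p)
    (χ ψ : Xp (lev K) p)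
    (h : ∀ (q : ℕ) [Fact q.Prime] (g : GamQ), resW K q g (cupX χ ψ) = 0) : cupX χ ψ = 0 := by
  obtain ⟨a, ha⟩ := kumF_surjective (kumOf K hζ) (isFixed_fixingSubgroup K)
    (Multiplicative.ofAdd χ)
  obtain ⟨b, hb⟩ := kumF_surjective (kumOf K hζ) (isFixed_fixingSubgroup K)
    (Multiplicative.ofAdd ψ)
  have hχ : χ = (kumF (kumOf K hζ) (isFixed_fixingSubgroup K) a).toAdd := by rw [ha]; rfl
  have hψ : ψ = (kumF (kumOf K hζ) (isFixed_fixingSubgroup K) b).toAdd := by rw [hb]; rfl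
  by_cases hbp : ∃ c : Kˣ, c ^ p = b
  · rw [hψ, (kumF_eq_one_iff _ _ b).2 hbp, toAdd_one, map_zero]
  push Not at hbp
  rw [hχ, hψ, cupX_kumF_eq_zero_iff _ _ hbp]
  let P : ∀ v, PlaceRep K v := fun v => placeRep K v
  let I : ∀ v, LocFunc p (P v) := fun v => (HL.exists_locFunc hζ (P v)).some.toLocFunc
  refine hasse_norm (inputs_of_locH2 hp2 HL) (globSymbols hp2 hζ P I) hζ hbp a fun v => ?_
  have h1 := (globSymbols hp2 hζ P I).skew v a b
  have h2 : (globSymbols hp2 hζ P I).sym v a b = 1 := by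
    rw [globSymbols_sym, symF_apply, ← hχ, ← hψ]
    have := (P v).hq
    change Multiplicative.ofAdd ((I v).inv (resW K (P v).q (P v).g (cupX χ ψ))) = 1
    rw [h, map_zero]
    rfl
  rwa [h2, one_mul] at h1

end

/-- **The Hasse principle for `H²(G_K, ℤ/p)`**, `K ∋ ζ_p`. -/
theorem hasse_principle (hp2 : p ≠ 2) (HL : LocH2 p)
    (K : IntermediateField ℚ (AlgebraicClosure ℚ)) [FiniteDimensional ℚ K] {ζ : K}
    (hζ : IsPrimitiveRoot ζ p) (x : H2 (lev K) (Bridge.triv p K.fixingSubgroup))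
    (hx : ∀ (q : ℕ) [Fact q.Prime] (g : GamQ), resW K q g x = 0) : x = 0 := by
  obtain ⟨c, rfl⟩ := H2mk_surjective (𝓛 := lev K) (ρ := Bridge.triv p K.fixingSubgroup) x
  rw [← locTriv_iff_resW] at hx
  rw [H2mk_triv_eq_zero_iff]
  set ζ' : AlgebraicClosure ℚ := (ζ : AlgebraicClosure ℚ) with hζ'
  have hζ1 : IsPrimitiveRoot ζ' p := hζ.map_of_injective (algebraMap K (AlgebraicClosure ℚ)).injective
  set U₀ : Subgroup GamQ := (IntermediateField.adjoin ℚ {ζ'}).fixingSubgroup with hU₀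
  have hfix : ∀ H : Subgroup GamQ, H ≤ U₀ → ∀ g ∈ H, g ζ' = ζ' := by
    intro H hH g hg
    exact (IntermediateField.mem_fixingSubgroup_iff _ _).mp (hH hg) _
      (IntermediateField.mem_adjoin_simple_self ℚ ζ')
  refine hasse_abstract (𝓛 := levQ) (𝓛i := PlL) (φ := plPhi) (U₀ := U₀)
    (fun H hH => kumSetOf hp.out.pos H hζ1 (hfix H hH)) (fun i => compat_phiLoc i.q i.g) ?_
    K.fixingSubgroup ?_ (fixingSubgroup_mem_galLevels K) c.1 c.2.1 ?_ hx
  · intro H hH hHU κ χ hκ hχ hκa hχa hloc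
    obtain ⟨F, hFfin, rfl⟩ : ∃ F : IntermediateField ℚ (AlgebraicClosure ℚ),
        FiniteDimensional ℚ F ∧ F.fixingSubgroup = H :=
      ⟨IntermediateField.fixedField H, fixedField_finite_of_mem hH,
        fixingSubgroup_fixedField_of_mem hH⟩
    have hζF : ζ' ∈ F := by
      have h1 := (isFixed_fixingSubgroup F ζ').1 fun g => hfix _ hHU g.1 g.2
      obtain ⟨y, hy⟩ := h1
      rw [← hy]
      exact y.2
    have hζ2 : IsPrimitiveRoot (⟨ζ', hζF⟩ : F) p :=
      IsPrimitiveRoot.of_map_of_injective (f := algebraMap F (AlgebraicClosure ℚ)) hζ1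
        (algebraMap F (AlgebraicClosure ℚ)).injective
    let κ' : Xp (lev F) p := ⟨κ, hκ, hκa⟩
    let χ' : Xp (lev F) p := ⟨χ, hχ, hχa⟩
    have h1 := cupX_eq_zero_of_resW hp2 HL hζ2 κ' χ'
      ((locTriv_iff_resW F (cupZ2 κ' χ')).1 hloc)
    exact (cupX_eq_zero_iff κ' χ').1 h1
  · rw [hU₀]
    refine IntermediateField.fixingSubgroup_antitone ?_
    rw [IntermediateField.adjoin_simple_le_iff]
    exact ζ.2
  · exact fun g h j => c.2.2 g h j

end Fermat.Agent.CFT.Global
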