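import Fermat.Agent.CFT.Global.Hasse
import Fermat.Agent.CFT.Bridge.Orbits
import Fermat.Agent.CFT.Bridge.UnramRes
import Fermat.Agent.CFT.Local.Final

/-!
# The image of `H²(G_K, ℤ/p)` in the sum of the local groups, `K ∋ ζ_p`
-/

set_option autoImplicit false

namespace Fermat.Agent.CFT.Global

open Fermat.Agent.PT Fermat.Agent.CFT.Kum Fermat.Agent.CFT.Kum.KumSet Fermat.Agent.CFT.Bridge
open NumberField IsDedekindDomain

variable {p : ℕ} [hp : Fact p.Prime]

theorem locH2 (hp2 : p ≠ 2) : LocH2 p := by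
  intro q _ l _ ξ hξ
  exact CFTLocal.finrank_H2_local hp2 l
    (hξ.map_of_injective (f := algebraMap l (PadicAlgCl q)) (algebraMap l (PadicAlgCl q)).injective)
    ξ.2 _ (fun g x => rfl)

/-- Restriction from `K` to a subfield of its fixing group. -/
noncomputable def incl {F Ω : Type*} [Field F] [Field Ω] [Algebra F Ω]
    {K L : IntermediateField F Ω} (h : K ≤ L) : L.fixingSubgroup →* K.fixingSubgroup :=
  Subgroup.inclusion (IntermediateField.fixingSubgroup_antitone h)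

lemma compat_incl {F Ω : Type*} [Field F] [Field Ω] [Algebra F Ω] [IsGalois F Ω]
    {K L : IntermediateField F Ω} (h : K ≤ L) : (lev K).Compat (incl h) (lev L) :=
  compat_comap_of_comp _ rfl

/-- Restriction `H²(G_K) → H²(G_L)`. -/
noncomputable def resKL {F Ω : Type*} [Field F] [Field Ω] [Algebra F Ω] [IsGalois F Ω]
    {K L : IntermediateField F Ω} (h : K ≤ L) :
    H2 (lev K) (Bridge.triv p K.fixingSubgroup) →ₗ[ZMod p]
      H2 (lev L) (Bridge.triv p L.fixingSubgroup) :=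
  resT (incl h) (compat_incl h)

lemma locField_emb_mono {K L : IntermediateField ℚ (AlgebraicClosure ℚ)} (h : K ≤ L) (q : ℕ)
    [Fact q.Prime] (g : GamQ) : locField (emb K q g) ≤ locField (emb L q g) := by
  rw [locField_le_iff]
  intro x
  exact apply_mem_locField (emb L q g) ⟨x, h x.2⟩

/-- Compatibility of restriction to subfields and to places. -/
lemma resW_resKL {K L : IntermediateField ℚ (AlgebraicClosure ℚ)} (h : K ≤ L) (q : ℕ)
    [Fact q.Prime] (g : GamQ) (x : H2 (lev K) (Bridge.triv p K.fixingSubgroup)) :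
    resW L q g (resKL h x) = resKL (locField_emb_mono h q g) (resW K q g x) := by
  obtain ⟨c, rfl⟩ := H2mk_surjective x
  rfl

lemma primitiveRoot_inclusion {F Ω : Type*} [Field F] [Field Ω] [Algebra F Ω]
    {K L : IntermediateField F Ω} (h : K ≤ L) {ζ : K} (hζ : IsPrimitiveRoot ζ p) :
    IsPrimitiveRoot (IntermediateField.inclusion h ζ) p :=
  hζ.map_of_injective (IntermediateField.inclusion h).toRingHom.injective

/-- The Kummer character of `a` restricts to the Kummer character of `a`. -/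
lemma pull_incl_kumF {F Ω : Type*} [Field F] [Field Ω] [Algebra F Ω] [IsGalois F Ω]
    [IsAlgClosed Ω] {K L : IntermediateField F Ω} (h : K ≤ L) {ζ : K} (hζ : IsPrimitiveRoot ζ p)
    (a : Kˣ) :
    Xp.pull (incl h) (compat_incl h) (kumF (kumOf K hζ) (isFixed_fixingSubgroup K) a).toAdd =
      (kumF (kumOf L (primitiveRoot_inclusion h hζ)) (isFixed_fixingSubgroup L)
        (Units.map (IntermediateField.inclusion h).toRingHom.toMonoidHom a)).toAdd :=
  pull_kumF (kumOf K hζ) (isFixed_fixingSubgroup K) (kumOf L (primitiveRoot_inclusion h hζ))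
    (isFixed_fixingSubgroup L) (incl h) (compat_incl h) (RingHom.id Ω)
    (IntermediateField.inclusion h).toRingHom (fun _ _ => rfl) (fun _ => rfl) rfl a

/-- The Kummer character of `a` is trivial on `G_L` iff `a` is a `p`-th power in `L`. -/
lemma pull_incl_kumF_eq_zero {F Ω : Type*} [Field F] [Field Ω] [Algebra F Ω] [IsGalois F Ω]
    [IsAlgClosed Ω] {K L : IntermediateField F Ω} (h : K ≤ L) {ζ : K} (hζ : IsPrimitiveRoot ζ p)
    (a : Kˣ) {α : Ω} (hα : α ∈ L) (hαa : α ^ p = ((a : K) : Ω)) :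
    Xp.pull (incl h) (compat_incl h) (kumF (kumOf K hζ) (isFixed_fixingSubgroup K) a).toAdd =
      0 := by
  rw [pull_incl_kumF h hζ a]
  have h1 : kumF (kumOf L (primitiveRoot_inclusion h hζ)) (isFixed_fixingSubgroup L)
      (Units.map (IntermediateField.inclusion h).toRingHom.toMonoidHom a) = 1 := by
    rw [kumF_eq_one_iff]
    have hα0 : (⟨α, hα⟩ : L) ≠ 0 := by
      intro h0
      have h1 : α = 0 := congrArg Subtype.val h0
      rw [h1, zero_pow hp.out.ne_zero] at hαa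
      exact a.ne_zero (Subtype.ext hαa.symm)
    refine ⟨Units.mk0 ⟨α, hα⟩ hα0, Units.ext (Subtype.ext ?_)⟩
    exact hαa
  rw [h1, toAdd_one]

/-- `κ_a ∪ κ_x` dies in extensions where `a` is a `p`-th power. -/
lemma resKL_cupX_eq_zero {F Ω : Type*} [Field F] [Field Ω] [Algebra F Ω] [IsGalois F Ω]
    [IsAlgClosed Ω] {K L : IntermediateField F Ω} (h : K ≤ L) {ζ : K} (hζ : IsPrimitiveRoot ζ p)
    (a : Kˣ) {α : Ω} (hα : α ∈ L) (hαa : α ^ p = ((a : K) : Ω)) (ψ : Xp (lev K) p) :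
    resKL h (cupX (kumF (kumOf K hζ) (isFixed_fixingSubgroup K) a).toAdd ψ) = 0 := by
  rw [resKL, resT_cupX, pull_incl_kumF_eq_zero h hζ a hα hαa, map_zero, AddMonoidHom.zero_apply]

/-- **Local**: `H²(G_l, ℤ/p)` dies in `l(a^{1/p})`, `a` not a `p`-th power in `l`. -/
theorem resKL_local_eq_zero (hp2 : p ≠ 2) {q : ℕ} [Fact q.Prime]
    {l l' : IntermediateField ℚ_[q] (PadicAlgCl q)} [FiniteDimensional ℚ_[q] l] (h : l ≤ l')
    {ξ : l} (hξ : IsPrimitiveRoot ξ p) (a : lˣ) (ha : ∀ b : l, b ^ p ≠ (a : l))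
    {α : PadicAlgCl q} (hα : α ∈ l') (hαa : α ^ p = ((a : l) : PadicAlgCl q))
    (y : H2 (lev l) (Bridge.triv p l.fixingSubgroup)) : resKL h y = 0 := by
  obtain ⟨inv, hinv⟩ := (locH2 hp2).exists_inv q l hξ
  let s := locSymOf l hp2 hξ inv hinv.1
  obtain ⟨x, hx⟩ : ∃ x, s.sym a x ≠ 1 := by
    by_contra! hcon
    obtain ⟨b, hb⟩ := (s.mem_pow_iff a).2 hcon
    exact ha b hb
  set c := cupX (kumF (kumOf l hξ) (isFixed_fixingSubgroup l) a).toAdd
    (kumF (kumOf l hξ) (isFixed_fixingSubgroup l) x).toAdd with hc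
  have hc0 : inv c ≠ 0 := fun h0 => hx (by
    change Multiplicative.ofAdd (inv c) = 1
    rw [h0]
    rfl)
  have hy : y = (inv y * (inv c)⁻¹) • c := by
    apply hinv.1
    rw [ZMod.map_smul inv, smul_eq_mul, mul_assoc, inv_mul_cancel₀ hc0, mul_one]
  rw [hy, map_smul, hc, resKL_cupX_eq_zero h hξ a hα hαa, smul_zero]

section Abs

variable {G : Type*} [Group G] {𝓛 : LevelSys G} {Ω : Type*} [Field Ω] [MulSemiringAction G Ω]
  (K : KumSet 𝓛 Ω p) {F : Type*} [Field F] [Algebra F Ω] (hF : IsFixed G (Ω := Ω) F)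

/-- Classes killed by restriction to the kernel of a nonzero character `χ` are `κ_x ∪ χ`. -/
theorem exists_cupX_of_res {χ : Xp 𝓛 p} (hχ : χ ≠ 0) (y : H2 𝓛 (Bridge.triv p G))
    (hy : resT (Xp.toHom χ).ker.subtype (LevelSys.compat_comap _) y = 0) :
    ∃ x : Fˣ, y = cupX (kumF K hF x).toAdd χ := by
  obtain ⟨s, hs⟩ := Xp.exists_eq_one hχ
  obtain ⟨c, rfl⟩ := H2mk_surjective y
  rw [resT_mk, H2mk_triv_eq_zero_iff] at hy
  obtain ⟨e, he, hce⟩ := hy
  have hcc : ∀ g h j, c.1 (g * h, j) + c.1 (g, h) = c.1 (h, j) + c.1 (g, h * j) :=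
    fun g h j => c.2.2 g h j
  obtain ⟨α, hα, hcob⟩ := exists_cup_of_res (χ := Xp.toHom χ) (s := s)
    (by rw [Xp.toHom]; exact congrArg Multiplicative.ofAdd hs) K (Xp.ker_mem χ) c.2.1 hcc he
    (fun u v => hce u v)
  obtain ⟨x, hx⟩ := kumF_surjective K hF (Multiplicative.ofAdd (kumX K α hα))
  refine ⟨x, ?_⟩
  rw [hx, toAdd_ofAdd, cupX_apply, ← sub_eq_zero, ← map_sub, H2mk_triv_eq_zero_iff]
  exact hcob

end Abs

section Main

variable {K : IntermediateField ℚ (AlgebraicClosure ℚ)} [FiniteDimensional ℚ K]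
  (hp2 : p ≠ 2) {ζ : K} (hζ : IsPrimitiveRoot ζ p)

/-- A choice of local invariants at all places of `K`. -/
noncomputable def locI (v : HeightOneSpectrum (𝓞 K)) : LocFunc' p (placeRep K v) :=
  ((locH2 hp2).exists_locFunc hζ (placeRep K v)).some

/-- The invariant map `H²(G_K, ℤ/p) → ℤ/p` at `v`. -/
noncomputable def invAt (v : HeightOneSpectrum (𝓞 K)) :
    H2 (lev K) (Bridge.triv p K.fixingSubgroup) →+ ZMod p :=
  (locI hp2 hζ v).toLocFunc.invK

lemma prime_eq_of_placeOf_eq {q q' : ℕ} [hq : Fact q.Prime] [hq' : Fact q'.Prime] {g g' : GamQ}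
    (h : placeOf (emb K q g) = placeOf (emb K q' g')) : q = q' := by
  by_contra hne
  have h1 : (q : 𝓞 K) ∈ (placeOf (emb K q g)).asIdeal := q_mem_placeOf _
  have h2 : (q' : 𝓞 K) ∈ (placeOf (emb K q g)).asIdeal := h ▸ q_mem_placeOf _
  have hcop : Nat.Coprime q q' := (Nat.coprime_primes hq.out hq'.out).2 hne
  obtain ⟨a, b, hab⟩ := (Nat.isCoprime_iff_coprime.2 hcop : IsCoprime (q : ℤ) (q' : ℤ))
  apply (placeOf (emb K q g)).isPrime.ne_top
  rw [Ideal.eq_top_iff_one]
  have h3 : (1 : 𝓞 K) = (a : 𝓞 K) * (q : 𝓞 K) + (b : 𝓞 K) * (q' : 𝓞 K) := by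
    exact_mod_cast congrArg (Int.cast : ℤ → 𝓞 K) hab.symm
  rw [h3]
  exact add_mem (Ideal.mul_mem_left _ _ h1) (Ideal.mul_mem_left _ _ h2)

lemma resW_placeRep_eq_zero_iff {v : HeightOneSpectrum (𝓞 K)} (P : PlaceRep K v) (q : ℕ)
    [Fact q.Prime] (g : GamQ) (hv : placeOf (emb K q g) = v)
    (x : H2 (lev K) (Bridge.triv p K.fixingSubgroup)) :
    (letI := P.hq; resW K P.q P.g x = 0) ↔ resW K q g x = 0 := by
  rcases P with ⟨q', hq', g', h'⟩
  obtain rfl : q = q' := prime_eq_of_placeOf_eq (hv.trans h'.symm)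
  exact resW_eq_zero_iff K (h'.trans hv.symm) x

/-- The invariant vanishes iff the restriction to the place vanishes. -/
theorem invAt_eq_zero_iff {v : HeightOneSpectrum (𝓞 K)} (q : ℕ) [Fact q.Prime] (g : GamQ)
    (hv : placeOf (emb K q g) = v) (x : H2 (lev K) (Bridge.triv p K.fixingSubgroup)) :
    invAt hp2 hζ v x = 0 ↔ resW K q g x = 0 := by
  rw [← resW_placeRep_eq_zero_iff (placeRep K v) q g hv x]
  let _ := (placeRep K v).hq
  have hinj := (locI hp2 hζ v).toLocFunc.inj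
  change (locI hp2 hζ v).toLocFunc.inv (resW K (placeRep K v).q (placeRep K v).g x) = 0 ↔ _
  rw [map_eq_zero_iff _ hinj]

/-- The local symbols attached to the chosen invariants. -/
noncomputable def symG : LocalSymbols p K :=
  globSymbols hp2 hζ (fun v => placeRep K v) (fun v => (locI hp2 hζ v).toLocFunc)

/-- The Kummer class. -/
noncomputable abbrev kumG (a : Kˣ) : Xp (lev K) p :=
  (kumF (kumOf K hζ) (isFixed_fixingSubgroup K) a).toAdd

lemma symG_sym (v : HeightOneSpectrum (𝓞 K)) (a x : Kˣ) :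
    ((symG hp2 hζ).sym v a x).toAdd = invAt hp2 hζ v (cupX (kumG hζ a) (kumG hζ x)) := by
  rw [symG, globSymbols_sym]
  rfl

lemma finite_invAt (x : H2 (lev K) (Bridge.triv p K.fixingSubgroup)) :
    {v | invAt hp2 hζ v x ≠ 0}.Finite := by
  refine (finite_support K x).subset fun v hv => ?_
  refine ⟨(placeRep K v).q, (placeRep K v).hq, (placeRep K v).g, (placeRep K v).h, ?_⟩
  let _ := (placeRep K v).hq
  rwa [Ne, ← invAt_eq_zero_iff hp2 hζ _ _ (placeRep K v).h]

/-- The vector of local invariants. -/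
noncomputable def invVec : H2 (lev K) (Bridge.triv p K.fixingSubgroup) →+
    (HeightOneSpectrum (𝓞 K) →₀ ZMod p) :=
  AddMonoidHom.mk' (fun x => Finsupp.ofSupportFinite (fun v => invAt hp2 hζ v x)
    (finite_invAt hp2 hζ x)) (by
    intro x y
    ext v
    exact (invAt hp2 hζ v).map_add x y)

@[simp] lemma invVec_apply (x : H2 (lev K) (Bridge.triv p K.fixingSubgroup))
    (v : HeightOneSpectrum (𝓞 K)) : invVec hp2 hζ x v = invAt hp2 hζ v x := rfl

/-- **Injectivity** (Hasse principle). -/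
theorem invVec_injective : Function.Injective (invVec hp2 hζ) := by
  rw [injective_iff_map_eq_zero]
  intro x hx
  refine hasse_principle hp2 (locH2 hp2) K hζ x fun q _ g => ?_
  rw [← invAt_eq_zero_iff hp2 hζ q g rfl, ← invVec_apply hp2 hζ, hx]
  rfl

lemma invVec_cupX (a x : Kˣ) :
    invVec hp2 hζ (cupX (kumG hζ a) (kumG hζ x)) =
      symVec (symG hp2 hζ) hp.out.ne_zero a x := by
  ext v
  rw [invVec_apply, symVec_apply, symG_sym]

/-- The Kummer field of `a`. -/
theorem exists_kummerField (a : Kˣ) :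
    ∃ (L : IntermediateField ℚ (AlgebraicClosure ℚ)) (_ : K ≤ L), FiniteDimensional ℚ L ∧
      (∃ α ∈ L, α ^ p = ((a : K) : AlgebraicClosure ℚ)) ∧
      ∀ g : K.fixingSubgroup, (kumG hζ a).1 g = 0 →
        (g : GamQ) ∈ L.fixingSubgroup := by
  set V : Subgroup GamQ := (Xp.toHom (kumG hζ a)).ker.map K.fixingSubgroup.subtype with hV
  have hVU : V ≤ K.fixingSubgroup := Subgroup.map_subtype_le _
  have hVQ : V ∈ levQ := by
    obtain ⟨W, hW, hWV⟩ := Xp.ker_mem (kumG hζ a)
    refine LevelSys.mono (LevelSys.inf_mem hW (fixingSubgroup_mem_galLevels K)) ?_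
    rintro g ⟨hg1, hg2⟩
    exact ⟨⟨g, hg2⟩, hWV hg1, rfl⟩
  have hL : (IntermediateField.fixedField V).fixingSubgroup = V :=
    fixingSubgroup_fixedField_of_mem hVQ
  refine ⟨IntermediateField.fixedField V, ?_, fixedField_finite_of_mem hVQ, ?_, ?_⟩
  · have h1 := IntermediateField.fixedField_antitone hVU
    rwa [InfiniteGalois.fixedField_fixingSubgroup] at h1
  · have hpow := rootF_pow (kumOf K hζ) a
    refine ⟨(rootF (kumOf K hζ) a : AlgebraicClosure ℚ), ?_, hpow⟩
    rw [IntermediateField.mem_fixedField_iff]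
    rintro _ ⟨g, hg, rfl⟩
    have h1 := smul_eq_kumF (kumOf K hζ) (isFixed_fixingSubgroup K) hpow g
    have h2 : (kumG hζ a).1 g = 0 := hg
    rw [kumG] at h2
    rw [h2, (kumOf K hζ).zp_zero, one_mul] at h1
    exact congrArg Units.val h1
  · intro g hg
    rw [hL]
    exact ⟨g, hg, rfl⟩

lemma kumG_ne_zero {a : Kˣ} (ha : ∀ b : Kˣ, b ^ p ≠ a) : kumG hζ a ≠ 0 := by
  intro h
  obtain ⟨b, hb⟩ := (kumF_eq_one_iff (kumOf K hζ) (isFixed_fixingSubgroup K) a).1
    (Multiplicative.toAdd.injective h)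
  exact ha b hb

/-- Classes which are trivial at all places where `a` is a local `p`-th power are of the form
`κ_a ∪ κ_x`. -/
theorem exists_eq_cupX {a : Kˣ} (ha : ∀ b : Kˣ, b ^ p ≠ a)
    (y : H2 (lev K) (Bridge.triv p K.fixingSubgroup))
    (hy : ∀ v, a ∈ locPow p v → invAt hp2 hζ v y = 0) :
    ∃ x : Kˣ, y = cupX (kumG hζ a) (kumG hζ x) := by
  obtain ⟨L, hKL, hLfin, ⟨α, hαL, hα⟩, hker⟩ := exists_kummerField hζ a
  have h1 : resKL hKL y = 0 := by
    refine hasse_principle hp2 (locH2 hp2) L (primitiveRoot_inclusion hKL hζ) _ fun q _ g => ?_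
    rw [resW_resKL]
    by_cases hav : a ∈ locPow p (placeOf (emb K q g))
    · have h2 := (invAt_eq_zero_iff hp2 hζ q g rfl y).1 (hy _ hav)
      rw [h2, map_zero]
    · rw [mem_locPow_placeOf_iff hp.out.ne_zero] at hav
      push Not at hav
      refine resKL_local_eq_zero hp2 (locField_emb_mono hKL q g)
        (primitiveRoot_toLoc K q g hζ) (toLocU (emb K q g) a) hav
        (α := embBar q g α) (apply_mem_locField (emb L q g) ⟨α, hαL⟩) ?_ _
      rw [← map_pow, hα]
      rfl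
  have h2 : resT (Xp.toHom (kumG hζ a)).ker.subtype (LevelSys.compat_comap _) y = 0 := by
    let u : (Xp.toHom (kumG hζ a)).ker →* L.fixingSubgroup :=
      { toFun := fun g => ⟨g.1.1, hker g.1 g.2⟩
        map_one' := rfl
        map_mul' := fun _ _ => rfl }
    have hu : (lev L).Compat u ((lev K).restrict (Xp.toHom (kumG hζ a)).ker) := by
      rintro W ⟨W', hW', hle⟩
      refine ⟨W'.comap K.fixingSubgroup.subtype, ⟨W', hW', le_rfl⟩, ?_⟩
      intro g hg
      exact hle hg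
    have h3 : resT u hu (resKL hKL y) = 0 := by rw [h1, map_zero]
    obtain ⟨c, rfl⟩ := H2mk_surjective y
    exact h3
  obtain ⟨x, hx⟩ := exists_cupX_of_res (kumOf K hζ) (isFixed_fixingSubgroup K)
    (kumG_ne_zero hζ ha) y h2
  refine ⟨x⁻¹, ?_⟩
  have h3 : kumG hζ x⁻¹ = - kumG hζ x := by
    rw [kumG, map_inv]
    rfl
  have h4 := cupX_skew (kumG hζ x) (kumG hζ a)
  rw [h3, map_neg, hx]
  exact eq_neg_of_add_eq_zero_left h4

/-- **The image of `H²(G_K, ℤ/p)`** (global reciprocity): it is the kernel of a functional all of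
whose coefficients are nonzero. -/
theorem exists_reciprocity : ∃ c : HeightOneSpectrum (𝓞 K) → ZMod p, (∀ v, c v ≠ 0) ∧
    ∀ t : HeightOneSpectrum (𝓞 K) →₀ ZMod p,
      (∃ x, invVec hp2 hζ x = t) ↔ t.sum (fun v n => c v * n) = 0 := by
  obtain ⟨c, hc, hR⟩ := exists_functional (symG hp2 hζ) (inputs_of_locH2 hp2 (locH2 hp2)) hζ
    (invVec hp2 hζ).range (fun a x => ⟨_, invVec_cupX hp2 hζ a x⟩) (by
      rintro a hna t ⟨y, rfl⟩ ht
      obtain ⟨x, hx⟩ := exists_eq_cupX hp2 hζ hna y ht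
      exact ⟨x, by rw [hx, invVec_cupX]⟩)
  exact ⟨c, hc, fun t => by rw [← hR]; rfl⟩

end Main

end Fermat.Agent.CFT.Global
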