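import Fermat.Agent.CFT.Global.Kummer
import Fermat.Agent.CFT.SClass

/-!
# Indices of local `p`-th powers, independence, and selection of places
-/

set_option autoImplicit false

namespace Fermat.Agent.CFT.Global

open IsDedekindDomain NumberField WithZero Polynomial
open Fermat.Agent.CFT.SUnits (ord ord_one ord_mul ord_inv ord_pow ord_div ord_eq_zero_iff
  valuation_eq_exp_neg_ord finite_ord_ne_zero)

universe u

section Group

variable {G ι : Type*} [CommGroup G]

/-- Selection lemma: from a family of subgroups of index dividing `p`, whose intersection has index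
`p ^ r`, one can select exactly `r` independent members with the same intersection. -/
theorem exists_select {p : ℕ} (hp : p.Prime) (I : Set ι) (H : ι → Subgroup G)
    (hH : ∀ i ∈ I, (H i).index ∣ p) (K₀ : Subgroup G) (r : ℕ) (hK : K₀.index = p ^ r)
    (hle : ∀ i ∈ I, K₀ ≤ H i) (hK' : ∀ x, (∀ i ∈ I, x ∈ H i) → x ∈ K₀) :
    ∃ T : Finset ι, ↑T ⊆ I ∧ T.card = r ∧ (⨅ i ∈ T, H i) = K₀ ∧
      (∀ i ∈ T, (H i).index = p) ∧ Indep T H := by
  classical
  have hpr : ∀ j, p ^ j ≠ 0 := fun j => pow_ne_zero _ hp.ne_zero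
  have step : ∀ j ≤ r, ∃ T : Finset ι, ↑T ⊆ I ∧ T.card = j ∧ (⨅ i ∈ T, H i).index = p ^ j ∧
      (∀ i ∈ T, (H i).index = p) := by
    intro j
    induction j with
    | zero => exact fun _ => ⟨∅, by simp, rfl, by simp, by simp⟩
    | succ j ih =>
      intro hj
      obtain ⟨T, hTs, hTc, hTi, hTp⟩ := ih (by omega)
      have hne : ¬ (⨅ i ∈ T, H i) ≤ K₀ := by
        intro h
        have h1 : K₀ ≤ ⨅ i ∈ T, H i := le_iInf₂ fun i hi => hle i (hTs hi)
        have h2 : (⨅ i ∈ T, H i) = K₀ := le_antisymm h h1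
        rw [h2, hK] at hTi
        have := Nat.pow_right_injective hp.two_le hTi
        omega
      obtain ⟨x, hxT, hxK⟩ := SetLike.not_le_iff_exists.mp hne
      obtain ⟨i, hi, hxi⟩ : ∃ i ∈ I, x ∉ H i := by
        by_contra hcon
        push Not at hcon
        exact hxK (hK' x hcon)
      have hiT : i ∉ T := by
        intro h
        rw [Subgroup.mem_iInf] at hxT
        exact hxi (Subgroup.mem_iInf.mp (hxT i) h)
      have hidx : (H i).index = p := by
        rcases (Nat.dvd_prime hp).mp (hH i hi) with h | h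
        · rw [Subgroup.index_eq_one] at h
          rw [h] at hxi
          exact absurd (Subgroup.mem_top x) hxi
        · exact h
      have hrel : (H i).relIndex (⨅ i ∈ T, H i) = p := by
        have h1 := Subgroup.relIndex_dvd_index_of_normal (H i) (⨅ i ∈ T, H i)
        rw [hidx] at h1
        rcases (Nat.dvd_prime hp).mp h1 with h | h
        · rw [Subgroup.relIndex_eq_one] at h
          exact absurd (h hxT) hxi
        · exact h
      refine ⟨insert i T, ?_, ?_, ?_, ?_⟩
      · rw [Finset.coe_insert]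
        exact Set.insert_subset hi hTs
      · rw [Finset.card_insert_of_notMem hiT, hTc]
      · rw [Finset.iInf_insert, pow_succ, mul_comm, ← hTi, ← hrel,
          ← Subgroup.inf_relIndex_right (H i), Subgroup.relIndex_mul_index inf_le_right]
      · intro k hk
        rcases Finset.mem_insert.mp hk with rfl | hk
        · exact hidx
        · exact hTp k hk
  obtain ⟨T, hTs, hTc, hTi, hTp⟩ := step r le_rfl
  refine ⟨T, hTs, hTc, ?_, hTp, indep_of_index_eq ?_ ?_⟩
  · have h1 : K₀ ≤ ⨅ i ∈ T, H i := le_iInf₂ fun i hi => hle i (hTs hi)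
    refine le_antisymm ?_ h1
    rw [← Subgroup.relIndex_eq_one]
    have h2 := Subgroup.relIndex_mul_index h1
    rw [hTi, hK] at h2
    exact Nat.eq_of_mul_eq_mul_right (Nat.pos_of_ne_zero (hpr r)) (by rw [h2, one_mul])
  · rw [hTi, Finset.prod_congr rfl hTp, Finset.prod_const, hTc]
  · intro i hi
    rw [hTp i hi]
    exact hp.ne_zero

end Group

section Base

variable {K : Type u} [Field K] [NumberField K]

/-- The group of elements which are units at `v`. -/
noncomputable def unitsAt (v : HeightOneSpectrum (𝓞 K)) : Subgroup Kˣ where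
  carrier := {x | ord v x = 0}
  one_mem' := ord_one K v
  mul_mem' := by
    intro a b ha hb
    have ha' : ord v a = 0 := ha
    have hb' : ord v b = 0 := hb
    change ord v (a * b) = 0
    rw [ord_mul, ha', hb', add_zero]
  inv_mem' := by
    intro a ha
    have ha' : ord v a = 0 := ha
    change ord v a⁻¹ = 0
    rw [ord_inv, ha', neg_zero]

lemma mem_unitsAt {v : HeightOneSpectrum (𝓞 K)} {x : Kˣ} : x ∈ unitsAt v ↔ ord v x = 0 := Iff.rfl

lemma exists_ord_eq_one (v : HeightOneSpectrum (𝓞 K)) : ∃ π : Kˣ, ord v π = 1 := by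
  obtain ⟨π, hπ⟩ := v.valuation_exists_uniformizer K
  have h0 : π ≠ 0 := by
    rintro rfl
    rw [map_zero] at hπ
    exact exp_ne_zero hπ.symm
  refine ⟨Units.mk0 π h0, ?_⟩
  have := valuation_eq_exp_neg_ord K (R := 𝓞 K) v (Units.mk0 π h0)
  rw [Units.val_mk0, hπ, exp_inj] at this
  omega

lemma dvd_ord_of_mem_locPow {p : ℕ} {v : HeightOneSpectrum (𝓞 K)} {x : Kˣ}
    (hx : x ∈ locPow p v) : (p : ℤ) ∣ ord v x := by
  rw [locPow, Subgroup.mem_iInf] at hx
  obtain ⟨_, ⟨y, rfl⟩, z, hz, rfl⟩ := Subgroup.mem_sup.mp (hx 0)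
  rw [powMonoidHom_apply, ord_mul, ord_pow, ord_eq_zero_of_mem_cong hz, add_zero]
  exact Dvd.intro _ rfl

/-- `ord` modulo `p`. -/
noncomputable def ordMod (p : ℕ) (v : HeightOneSpectrum (𝓞 K)) : Kˣ →* Multiplicative (ZMod p) where
  toFun x := Multiplicative.ofAdd ((ord v x : ℤ) : ZMod p)
  map_one' := by rw [ord_one]; simp
  map_mul' x y := by rw [ord_mul]; simp

lemma mem_ker_ordMod {p : ℕ} {v : HeightOneSpectrum (𝓞 K)} {x : Kˣ} :
    x ∈ (ordMod p v).ker ↔ (p : ℤ) ∣ ord v x := by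
  rw [MonoidHom.mem_ker, ← ZMod.intCast_zmod_eq_zero_iff_dvd]
  rfl

lemma ker_ordMod (p : ℕ) (v : HeightOneSpectrum (𝓞 K)) :
    (ordMod p v).ker = locPow p v ⊔ unitsAt v := by
  obtain ⟨π, hπ⟩ := exists_ord_eq_one v
  apply le_antisymm
  · intro x hx
    obtain ⟨k, hk⟩ := mem_ker_ordMod.mp hx
    refine Subgroup.mem_sup.mpr ⟨(π ^ k) ^ p, pow_mem_locPow p v _, x / (π ^ k) ^ p, ?_, ?_⟩
    · have hzpow : ord v (π ^ k) = k := by
        rcases k.eq_nat_or_neg with ⟨m, rfl | rfl⟩
        · rw [zpow_natCast, ord_pow, hπ, mul_one]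
        · rw [zpow_neg, zpow_natCast, ord_inv, ord_pow, hπ, mul_one]
      rw [mem_unitsAt, ord_div, ord_pow, hzpow, hk, sub_self]
    · rw [mul_div_cancel]
  · refine sup_le ?_ ?_
    · intro x hx
      rw [mem_ker_ordMod]
      exact dvd_ord_of_mem_locPow hx
    · intro x hx
      rw [mem_ker_ordMod, mem_unitsAt.mp hx]
      exact dvd_zero _

lemma index_ker_ordMod {p : ℕ} (hp : p.Prime) (v : HeightOneSpectrum (𝓞 K)) :
    (locPow p v ⊔ unitsAt v).index = p := by
  have : NeZero p := ⟨hp.ne_zero⟩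
  rw [← ker_ordMod, Subgroup.index_ker]
  have : (ordMod p v).range = ⊤ := by
    rw [MonoidHom.range_eq_top]
    intro y
    obtain ⟨π, hπ⟩ := exists_ord_eq_one v
    refine ⟨π ^ y.toAdd.val, ?_⟩
    rw [map_pow]
    change (Multiplicative.ofAdd ((ord v π : ℤ) : ZMod p)) ^ y.toAdd.val = y
    rw [hπ, ← ofAdd_nsmul]
    simp
  rw [this, Subgroup.card_top]
  exact Nat.card_zmod p

lemma finite_aboveP (p : ℕ) (hp : p ≠ 0) :
    {v : HeightOneSpectrum (𝓞 K) | (p : 𝓞 K) ∈ v.asIdeal}.Finite := by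
  have hp0 : (p : K) ≠ 0 := by exact_mod_cast hp
  refine (finite_ord_ne_zero K (Units.mk0 _ hp0)).subset ?_
  intro v hv
  have hv' : (p : 𝓞 K) ∈ v.asIdeal := hv
  have h1 := (v.valuation_lt_one_iff_mem (K := K) (p : 𝓞 K)).mpr hv'
  change ord v (Units.mk0 _ hp0) ≠ 0
  rw [Ne, ord_eq_zero_iff, Units.val_mk0]
  intro h
  have h2 : v.valuation K (p : K) < 1 := by simpa using h1
  rw [h] at h2
  exact lt_irrefl _ h2

/-- There are arbitrarily large good sets of places. -/
theorem exists_good (p : ℕ) (hp : p ≠ 0) (S₀ : Finset (HeightOneSpectrum (𝓞 K)))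
    (F : Finset Kˣ) :
    ∃ S : Finset (HeightOneSpectrum (𝓞 K)), S₀ ⊆ S ∧ AboveP p S ∧ ClTrivial S ∧ ∀ x ∈ F, x ∈ E S := by
  classical
  obtain ⟨S, hS, hcl⟩ := SUnits.exists_clTrivial
    (S₀ ∪ (finite_aboveP (K := K) p hp).toFinset ∪
      F.biUnion fun x => (finite_ord_ne_zero K x (R := 𝓞 K)).toFinset)
  refine ⟨S, ?_, ?_, ?_, ?_⟩
  · intro v hv
    apply hS
    simp [hv]
  · intro v hv
    apply hS
    simp [hv]
  · intro D
    exact hcl.exists_ord D
  · intro x hx
    rw [mem_E]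
    intro v hv
    by_contra hne
    apply hv
    apply hS
    rw [Finset.mem_union, Finset.mem_biUnion]
    exact Or.inr ⟨x, hx, by simpa using hne⟩

/-- Local count away from `p`. -/
theorem index_locPow {p : ℕ} (hp : p.Prime) (hLC : LocalCount.{u} p) {ζ : K}
    (hζ : IsPrimitiveRoot ζ p) (v : HeightOneSpectrum (𝓞 K)) (hv : (p : 𝓞 K) ∉ v.asIdeal) :
    (locPow p v).index = p ^ 2 := by
  classical
  set S := (finite_aboveP (K := K) p hp.ne_zero).toFinset with hS
  have hSp : AboveP p S := by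
    intro w hw
    simpa [hS] using hw
  have hvS : v ∉ S := by simpa [hS] using hv
  have hSp' : AboveP p (insert v S) := fun w hw => Finset.mem_insert_of_mem (hSp w hw)
  have h1 := hLC K ζ hζ S hSp
  have h2 := hLC K ζ hζ _ hSp'
  rw [(indep_locPow p hp.ne_zero _).index_eq] at h1 h2
  rw [Finset.prod_insert hvS, h1, Finset.card_insert_of_notMem hvS] at h2
  have h3 : p ^ (2 * S.card + Module.finrank ℚ K) ≠ 0 := pow_ne_zero _ hp.ne_zero
  refine Nat.eq_of_mul_eq_mul_right (Nat.pos_of_ne_zero h3) ?_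
  rw [h2]
  ring

/-- `[U_v : U_v ∩ K_v^{*p}] = p` for `v ∤ p`. -/
theorem relIndex_locPow_unitsAt {p : ℕ} (hp : p.Prime) (hLC : LocalCount.{u} p) {ζ : K}
    (hζ : IsPrimitiveRoot ζ p) (v : HeightOneSpectrum (𝓞 K)) (hv : (p : 𝓞 K) ∉ v.asIdeal) :
    (locPow p v).relIndex (unitsAt v) = p := by
  have h1 := Subgroup.relIndex_mul_index (le_sup_left : locPow p v ≤ locPow p v ⊔ unitsAt v)
  rw [index_ker_ordMod hp, index_locPow hp hLC hζ v hv, Subgroup.relIndex_sup_left, sq] at h1
  exact Nat.eq_of_mul_eq_mul_right hp.pos h1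

/-- If `a` is a unit at `v ∤ p` and not a local `p`-th power, then it generates the units
modulo local `p`-th powers. -/
theorem unitsAt_le {p : ℕ} (hp : p.Prime) (hLC : LocalCount.{u} p) {ζ : K}
    (hζ : IsPrimitiveRoot ζ p) (v : HeightOneSpectrum (𝓞 K)) (hv : (p : 𝓞 K) ∉ v.asIdeal)
    (B : Subgroup Kˣ) (hB : B ≤ unitsAt v) (hB' : ¬ B ≤ locPow p v) :
    unitsAt v ≤ locPow p v ⊔ B := by
  have h0 := relIndex_locPow_unitsAt hp hLC hζ v hv
  have h1 : (locPow p v ⊓ unitsAt v).relIndex ((locPow p v ⊓ unitsAt v) ⊔ B) *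
      ((locPow p v ⊓ unitsAt v) ⊔ B).relIndex (unitsAt v) = p := by
    rw [Subgroup.relIndex_mul_relIndex _ _ _ le_sup_left (sup_le inf_le_right hB),
      Subgroup.inf_relIndex_right, h0]
  have h2 : (locPow p v ⊓ unitsAt v).relIndex ((locPow p v ⊓ unitsAt v) ⊔ B) ≠ 1 := by
    rw [Ne, Subgroup.relIndex_eq_one]
    intro h
    exact hB' ((le_sup_right.trans h).trans inf_le_left)
  have h3 : ((locPow p v ⊓ unitsAt v) ⊔ B).relIndex (unitsAt v) = 1 := by
    rcases (Nat.dvd_prime hp).mp (Dvd.intro _ h1) with h | h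
    · exact absurd h h2
    · rw [h] at h1
      exact Nat.eq_of_mul_eq_mul_left hp.pos (by rw [h1, mul_one])
  rw [Subgroup.relIndex_eq_one] at h3
  exact h3.trans (sup_le_sup_right inf_le_left _)

end Base

end Fermat.Agent.CFT.Global
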