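import Mathlib.NumberTheory.RamificationInertia.Valuation
import Mathlib.NumberTheory.NumberField.Basic
import Mathlib.NumberTheory.NumberField.Units.DirichletTheorem
import Mathlib.FieldTheory.Galois.Basic
import Mathlib.RingTheory.Ideal.GoingUp
import Mathlib.Tactic
import Fermat.Agent.CFT.Global.Defs

/-!
# Finite places of a number field extension: restriction and Galois action
-/

set_option autoImplicit false
set_option linter.unusedSectionVars false

namespace Fermat.Agent.CFT.Places

open IsDedekindDomain NumberField WithZero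
open scoped nonZeroDivisors

section Val

variable {R : Type*} [CommRing R] [IsDedekindDomain R]

/-- two elements of `ℤᵐ⁰` of the form `exp (-n)` or `0` which are `≤` the same `exp (-n)` agree. -/
lemma eq_of_forall_le_exp {x y : ℤᵐ⁰} (hx : x ≤ 1) (hy : y ≤ 1)
    (h : ∀ n : ℕ, x ≤ exp (-(n : ℤ)) ↔ y ≤ exp (-(n : ℤ))) : x = y := by
  have key : ∀ {x y : ℤᵐ⁰}, x ≤ 1 → y ≤ 1 →
      (∀ n : ℕ, x ≤ exp (-(n : ℤ)) ↔ y ≤ exp (-(n : ℤ))) → x ≤ y := by
    intro x y hx hy h
    by_cases hy0 : y = 0
    · subst hy0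
      by_contra hx0
      rw [le_zero_iff] at hx0
      obtain ⟨k, hk⟩ : ∃ k : ℤ, x = exp k := ⟨log x, (exp_log hx0).symm⟩
      have h1 := (h (k.natAbs + 1)).mpr zero_le
      rw [hk, exp_le_exp] at h1
      have := hx
      rw [hk, ← exp_zero, exp_le_exp] at this
      omega
    · obtain ⟨k, hk⟩ : ∃ k : ℤ, y = exp k := ⟨log y, (exp_log hy0).symm⟩
      have hk0 : k ≤ 0 := by
        rw [hk, ← exp_zero, exp_le_exp] at hy
        exact hy
      have h1 := (h (k.natAbs)).mpr (by rw [hk, exp_le_exp]; omega)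
      rw [hk]
      refine h1.trans ?_
      rw [exp_le_exp]
      omega
  exact le_antisymm (key hx hy h) (key hy hx fun n => (h n).symm)

variable {S : Type*} [CommRing S] [IsDedekindDomain S]

lemma intValuation_equivOfRingEquiv (e : R ≃+* S) (w : HeightOneSpectrum R) (x : R) :
    (HeightOneSpectrum.equivOfRingEquiv e w).intValuation (e x) = w.intValuation x := by
  apply eq_of_forall_le_exp (HeightOneSpectrum.intValuation_le_one _ _)
    (HeightOneSpectrum.intValuation_le_one _ _)
  intro n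
  rw [HeightOneSpectrum.intValuation_le_pow_iff_mem, HeightOneSpectrum.intValuation_le_pow_iff_mem]
  have h1 : (HeightOneSpectrum.equivOfRingEquiv e w).asIdeal = w.asIdeal.map e := by
    rw [← Ideal.comap_symm]
    rfl
  rw [h1, ← Ideal.map_pow, ← Ideal.comap_symm, Ideal.mem_comap, e.symm_apply_apply]

variable {K : Type*} [Field K] [Algebra R K] [IsFractionRing R K]
  {L : Type*} [Field L] [Algebra S L] [IsFractionRing S L]

lemma valuation_equivOfRingEquiv (e : R ≃+* S) (f : K ≃+* L)
    (hf : ∀ x : R, f (algebraMap R K x) = algebraMap S L (e x))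
    (w : HeightOneSpectrum R) (x : K) :
    (HeightOneSpectrum.equivOfRingEquiv e w).valuation L (f x) = w.valuation K x := by
  obtain ⟨x, y, hy, rfl⟩ := IsFractionRing.div_surjective (A := R) x
  rw [map_div₀, map_div₀, map_div₀, hf, hf, HeightOneSpectrum.valuation_of_algebraMap,
    HeightOneSpectrum.valuation_of_algebraMap, HeightOneSpectrum.valuation_of_algebraMap,
    HeightOneSpectrum.valuation_of_algebraMap, intValuation_equivOfRingEquiv,
    intValuation_equivOfRingEquiv]

end Val

section NF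

variable {K : Type*} [Field K] [NumberField K] {L : Type*} [Field L] [NumberField L] [Algebra K L]

instance liesOver_below (w : HeightOneSpectrum (𝓞 L)) :
    w.asIdeal.LiesOver (w.under (𝓞 K)).asIdeal := ⟨rfl⟩

lemma below_eq_iff (w : HeightOneSpectrum (𝓞 L)) (v : HeightOneSpectrum (𝓞 K)) :
    w.under (𝓞 K) = v ↔ w.asIdeal.LiesOver v.asIdeal := by
  constructor
  · rintro rfl; exact liesOver_below w
  · intro h
    ext1
    exact h.over.symm

/-- valuation upstairs of an element of `K`. -/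
lemma valuation_algebraMap (w : HeightOneSpectrum (𝓞 L)) (x : K) :
    w.valuation L (algebraMap K L x) =
      (w.under (𝓞 K)).valuation K x ^
        ((w.under (𝓞 K)).asIdeal.ramificationIdx' w.asIdeal) :=
  (HeightOneSpectrum.valuation_liesOver L (w.under (𝓞 K)) w x).symm

lemma ramificationIdx'_ne_zero (w : HeightOneSpectrum (𝓞 L)) :
    (w.under (𝓞 K)).asIdeal.ramificationIdx' w.asIdeal ≠ 0 :=
  Ideal.IsDedekindDomain.ramificationIdx'_ne_zero_of_liesOver w.asIdeal (w.under (𝓞 K)).ne_bot

lemma valuation_algebraMap_eq_one_iff (w : HeightOneSpectrum (𝓞 L)) (x : K) :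
    w.valuation L (algebraMap K L x) = 1 ↔ (w.under (𝓞 K)).valuation K x = 1 := by
  rw [valuation_algebraMap, pow_eq_one_iff_of_nonneg zero_le (ramificationIdx'_ne_zero w)]

lemma valuation_algebraMap_lt_iff (w : HeightOneSpectrum (𝓞 L)) (x y : K) :
    w.valuation L (algebraMap K L x) < w.valuation L (algebraMap K L y) ↔
      (w.under (𝓞 K)).valuation K x < (w.under (𝓞 K)).valuation K y := by
  rw [valuation_algebraMap, valuation_algebraMap,
    pow_lt_pow_iff_left₀ zero_le zero_le (ramificationIdx'_ne_zero w)]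

lemma valuation_algebraMap_le_iff (w : HeightOneSpectrum (𝓞 L)) (x y : K) :
    w.valuation L (algebraMap K L x) ≤ w.valuation L (algebraMap K L y) ↔
      (w.under (𝓞 K)).valuation K x ≤ (w.under (𝓞 K)).valuation K y := by
  rw [← not_lt, ← not_lt, valuation_algebraMap_lt_iff]

lemma valuation_algebraMap_le_one_iff (w : HeightOneSpectrum (𝓞 L)) (x : K) :
    w.valuation L (algebraMap K L x) ≤ 1 ↔ (w.under (𝓞 K)).valuation K x ≤ 1 := by
  have := valuation_algebraMap_le_iff (K := K) w x 1
  simpa using this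

lemma valuation_algebraMap_lt_one_iff (w : HeightOneSpectrum (𝓞 L)) (x : K) :
    w.valuation L (algebraMap K L x) < 1 ↔ (w.under (𝓞 K)).valuation K x < 1 := by
  have := valuation_algebraMap_lt_iff (K := K) w x 1
  simpa using this

variable (L) in
lemma exists_below_eq (v : HeightOneSpectrum (𝓞 K)) :
    ∃ w : HeightOneSpectrum (𝓞 L), w.under (𝓞 K) = v := by
  obtain ⟨P, hP1, hP2⟩ := Ideal.exists_maximal_ideal_liesOver_of_isIntegral (S := 𝓞 L) v.asIdeal
  refine ⟨⟨P, inferInstance, ?_⟩, ?_⟩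
  · rintro rfl
    apply v.ne_bot
    have := hP2.over
    rw [this, Ideal.under, Ideal.comap_bot_of_injective]
    exact FaithfulSMul.algebraMap_injective (𝓞 K) (𝓞 L)
  · rw [below_eq_iff]; exact hP2

/-- The Galois action on places. -/
noncomputable def conj (σ : L ≃ₐ[K] L) (w : HeightOneSpectrum (𝓞 L)) : HeightOneSpectrum (𝓞 L) :=
  HeightOneSpectrum.equivOfRingEquiv (RingOfIntegers.mapRingEquiv (σ : L ≃+* L)) w

lemma mem_conj (σ : L ≃ₐ[K] L) (w : HeightOneSpectrum (𝓞 L)) (x : 𝓞 L) :
    x ∈ (conj σ w).asIdeal ↔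
      (RingOfIntegers.mapRingEquiv (σ : L ≃+* L)).symm x ∈ w.asIdeal := Iff.rfl

@[simp] lemma valuation_conj (σ : L ≃ₐ[K] L) (w : HeightOneSpectrum (𝓞 L)) (x : L) :
    (conj σ w).valuation L (σ x) = w.valuation L x :=
  valuation_equivOfRingEquiv (RingOfIntegers.mapRingEquiv (σ : L ≃+* L)) (σ : L ≃+* L)
    (fun _ => rfl) w x

lemma conj_one (w : HeightOneSpectrum (𝓞 L)) : conj (1 : L ≃ₐ[K] L) w = w := by
  ext x
  rw [mem_conj]
  exact Iff.rfl

lemma conj_mul (σ τ : L ≃ₐ[K] L) (w : HeightOneSpectrum (𝓞 L)) :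
    conj (σ * τ) w = conj σ (conj τ w) := by
  ext x
  rw [mem_conj, mem_conj, mem_conj]
  exact Iff.rfl

/-- The Galois action as a `MulAction`. -/
@[reducible] noncomputable def conjAction : MulAction (L ≃ₐ[K] L) (HeightOneSpectrum (𝓞 L)) where
  smul := conj
  one_smul := conj_one
  mul_smul := conj_mul

@[simp] lemma below_conj (σ : L ≃ₐ[K] L) (w : HeightOneSpectrum (𝓞 L)) :
    (conj σ w).under (𝓞 K) = w.under (𝓞 K) := by
  ext x
  change algebraMap (𝓞 K) (𝓞 L) x ∈ (conj σ w).asIdeal ↔ algebraMap (𝓞 K) (𝓞 L) x ∈ w.asIdeal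
  rw [mem_conj]
  have : (RingOfIntegers.mapRingEquiv (σ : L ≃+* L)).symm (algebraMap (𝓞 K) (𝓞 L) x) =
      algebraMap (𝓞 K) (𝓞 L) x := by
    apply RingOfIntegers.ext
    exact σ.symm.commutes (x : K)
  rw [this]

/-- a place is determined by its valuation -/
lemma valuation_apply_of_conj_eq (σ : L ≃ₐ[K] L) (w : HeightOneSpectrum (𝓞 L))
    (h : conj σ w = w) (x : L) : w.valuation L (σ x) = w.valuation L x := by
  conv_lhs => rw [← h]
  exact valuation_conj σ w x

end NF

end Fermat.Agent.CFT.Places
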