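import Fermat.Agent.CFT.Global.Twist

/-!
# Reciprocity over `ℚ` for `H²(Γ, μ_p)`
-/

set_option autoImplicit false

namespace Fermat.Agent.CFT.Global

open Fermat.Agent.PT Fermat.Agent.CFT.Kum Fermat.Agent.CFT.Kum.KumSet Fermat.Agent.CFT.Bridge
open NumberField IsDedekindDomain

section LinAlg

variable {k V W : Type*} [Field k] [AddCommGroup V] [Module k V] [AddCommGroup W] [Module k W]

lemma exists_smul_of_ker_le {f f' : V →ₗ[k] k} (h : ∀ x, f' x = 0 → f x = 0) :
    ∃ b : k, ∀ x, f x = b * f' x := by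
  by_cases h0 : ∃ x, f' x ≠ 0
  · obtain ⟨x₀, hx₀⟩ := h0
    refine ⟨f x₀ * (f' x₀)⁻¹, fun x => ?_⟩
    have h1 := h (x - (f' x * (f' x₀)⁻¹) • x₀) (by
      rw [map_sub, map_smul, smul_eq_mul, mul_assoc, inv_mul_cancel₀ hx₀, mul_one, sub_self])
    rw [map_sub, map_smul, smul_eq_mul, sub_eq_zero] at h1
    rw [h1]
    ring
  · push Not at h0
    exact ⟨0, fun x => by rw [h x (h0 x), zero_mul]⟩

lemma exists_factor {f : V →ₗ[k] W} (hf : Function.Surjective f) {φ : V →ₗ[k] k}
    (h : ∀ x, f x = 0 → φ x = 0) : ∃ J : W →ₗ[k] k, ∀ x, J (f x) = φ x := by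
  obtain ⟨s, hs⟩ := f.exists_rightInverse_of_surjective (LinearMap.range_eq_top.2 hf)
  refine ⟨φ ∘ₗ s, fun x => ?_⟩
  have h1 : f (s (f x) - x) = 0 := by
    rw [map_sub, sub_eq_zero]
    exact LinearMap.congr_fun hs (f x)
  have h2 := h _ h1
  rw [map_sub, sub_eq_zero] at h2
  exact h2

end LinAlg

section Places

variable {K : IntermediateField ℚ (AlgebraicClosure ℚ)} [FiniteDimensional ℚ K]
  (hn : K.fixingSubgroup.Normal)

include hn in
lemma placeOf_mul_of_eq {q : ℕ} [Fact q.Prime] {g g' : GamQ} (δ : GamQ)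
    (h : placeOf (emb K q g) = placeOf (emb K q g')) :
    placeOf (emb K q (g * δ)) = placeOf (emb K q (g' * δ)) := by
  rw [placeOf_emb_eq_iff] at h ⊢
  obtain ⟨σ, u, hu, rfl⟩ := h
  refine ⟨σ, δ⁻¹ * u * δ, by simpa using hn.conj_mem u hu δ⁻¹, ?_⟩
  group

/-- Right multiplication by `δ` on places. -/
noncomputable def mulP (δ : GamQ) (v : HeightOneSpectrum (𝓞 K)) : HeightOneSpectrum (𝓞 K) :=
  letI := (placeRep K v).hq
  placeOf (emb K (placeRep K v).q ((placeRep K v).g * δ))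

include hn in
lemma mulP_placeOf (δ : GamQ) (q : ℕ) [Fact q.Prime] (g : GamQ) :
    mulP δ (placeOf (emb K q g)) = placeOf (emb K q (g * δ)) := by
  have key : ∀ (v : HeightOneSpectrum (𝓞 K)) (P : PlaceRep K v), placeOf (emb K q g) = v →
      (letI := P.hq; placeOf (emb K P.q (P.g * δ))) = placeOf (emb K q (g * δ)) := by
    rintro v ⟨q', hq', g', h'⟩ hv
    obtain rfl : q = q' := prime_eq_of_placeOf_eq (hv.trans h'.symm)
    exact placeOf_mul_of_eq hn δ (h'.trans hv.symm)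
  exact key _ _ rfl

lemma exists_placeOf_emb (v : HeightOneSpectrum (𝓞 K)) :
    ∃ (q : ℕ) (_ : Fact q.Prime) (g : GamQ), placeOf (emb K q g) = v :=
  ⟨(placeRep K v).q, (placeRep K v).hq, (placeRep K v).g, (placeRep K v).h⟩

include hn in
lemma mulP_mulP_inv (δ : GamQ) (v : HeightOneSpectrum (𝓞 K)) : mulP δ⁻¹ (mulP δ v) = v := by
  obtain ⟨q, hq, g, rfl⟩ := exists_placeOf_emb v
  rw [mulP_placeOf hn, mulP_placeOf hn, mul_inv_cancel_right]

include hn in
lemma mulP_injective (δ : GamQ) : Function.Injective (mulP (K := K) δ) :=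
  Function.LeftInverse.injective (mulP_mulP_inv hn δ)

end Places

section J

variable {p : ℕ} [hp : Fact p.Prime] {K : IntermediateField ℚ (AlgebraicClosure ℚ)}
  [FiniteDimensional ℚ K]

/-- Reciprocity functionals, normalised with sum zero. -/
structure RecJ (p : ℕ) [Fact p.Prime] (K : IntermediateField ℚ (AlgebraicClosure ℚ))
    [FiniteDimensional ℚ K] where
  /-- the functionals -/
  J : HeightOneSpectrum (𝓞 K) → (H2 (lev K) (Bridge.triv p K.fixingSubgroup) →ₗ[ZMod p] ZMod p)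
  /-- they vanish iff the restriction vanishes -/
  iff_zero : ∀ (q : ℕ) [Fact q.Prime] (g : GamQ) (x), J (placeOf (emb K q g)) x = 0 ↔
    resW K q g x = 0
  /-- finite support -/
  fin : ∀ x, ∃ t : HeightOneSpectrum (𝓞 K) →₀ ZMod p, ∀ v, t v = J v x
  /-- the image is the kernel of the sum -/
  image : ∀ t : HeightOneSpectrum (𝓞 K) →₀ ZMod p, (∃ x, ∀ v, t v = J v x) ↔
    t.sum (fun _ n => n) = 0

/-- scaling of a finitely supported function -/
noncomputable def scaleF {ι : Type*} (c : ι → ZMod p) (t : ι →₀ ZMod p) : ι →₀ ZMod p :=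
  Finsupp.onFinset t.support (fun v => c v * t v) (fun v hv => by
    rw [Finsupp.mem_support_iff]
    exact right_ne_zero_of_mul hv)

lemma scaleF_apply {ι : Type*} (c : ι → ZMod p) (t : ι →₀ ZMod p) (v : ι) :
    scaleF c t v = c v * t v := rfl

lemma scaleF_sum {ι : Type*} (c : ι → ZMod p) (t : ι →₀ ZMod p) :
    (scaleF c t).sum (fun _ n => n) = t.sum (fun v n => c v * n) := by
  rw [scaleF, Finsupp.onFinset_sum _ (fun _ => rfl)]
  rfl

theorem nonempty_recJ (hp2 : p ≠ 2) {ζ : K} (hζ : IsPrimitiveRoot ζ p) : Nonempty (RecJ p K) := by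
  obtain ⟨c, hc, hR⟩ := exists_reciprocity hp2 hζ
  have hfin : ∀ x, ∃ t : HeightOneSpectrum (𝓞 K) →₀ ZMod p, ∀ v, t v =
      (c v • (invAt hp2 hζ v).toZModLinearMap p) x := fun x =>
    ⟨scaleF c (invVec hp2 hζ x), fun v => rfl⟩
  refine ⟨⟨fun v => c v • (invAt hp2 hζ v).toZModLinearMap p, ?_, hfin, ?_⟩⟩
  · intro q _ g x
    rw [← invAt_eq_zero_iff hp2 hζ q g rfl, LinearMap.smul_apply, smul_eq_mul, mul_eq_zero,
      or_iff_right (hc _)]
    rfl
  · intro t
    have h1 : t.sum (fun _ n => n) = (scaleF (fun v => (c v)⁻¹) t).sum (fun v n => c v * n) := by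
      rw [← scaleF_sum]
      congr 1
      ext v
      rw [scaleF_apply, scaleF_apply, mul_inv_cancel_left₀ (hc v)]
    rw [h1, ← hR]
    refine exists_congr fun x => ?_
    constructor
    · intro h
      ext v
      rw [scaleF_apply, h v, invVec_apply, LinearMap.smul_apply, smul_eq_mul]
      exact (inv_mul_cancel_left₀ (hc v) _).symm
    · intro h v
      have h2 : invAt hp2 hζ v x = (c v)⁻¹ * t v := DFunLike.congr_fun h v
      rw [LinearMap.smul_apply, smul_eq_mul]
      change t v = c v * invAt hp2 hζ v x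
      rw [h2, mul_inv_cancel_left₀ (hc v)]

variable (R : RecJ p K)

/-- There are at least two places (in fact infinitely many). -/
lemma exists_ne_place (v : HeightOneSpectrum (𝓞 K)) : ∃ w : HeightOneSpectrum (𝓞 K), w ≠ v := by
  obtain ⟨q, hq, g, hv⟩ := exists_placeOf_emb v
  obtain ⟨q', hqq, hq'⟩ := Nat.exists_infinite_primes (q + 1)
  have : Fact q'.Prime := ⟨hq'⟩
  refine ⟨placeOf (emb K q' 1), fun h => ?_⟩
  have := prime_eq_of_placeOf_eq (h.trans hv.symm)
  omega

include R in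
lemma RecJ.resW_surjective (hp2 : p ≠ 2) {ζ : K} (hζ : IsPrimitiveRoot ζ p) (q : ℕ) [Fact q.Prime]
    (g : GamQ) : Function.Surjective (resW (p := p) K q g) := by
  classical
  obtain ⟨w, hw⟩ := exists_ne_place (placeOf (emb K q g))
  obtain ⟨x, hx⟩ := (R.image (Finsupp.single (placeOf (emb K q g)) 1 - Finsupp.single w 1)).2 (by
    rw [Finsupp.sum_sub_index (fun _ _ _ => rfl), Finsupp.sum_single_index rfl,
      Finsupp.sum_single_index rfl, sub_self])
  have h1 := hx (placeOf (emb K q g))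
  rw [Finsupp.sub_apply, Finsupp.single_eq_same, Finsupp.single_eq_of_ne hw.symm, sub_zero] at h1
  have h2 : resW K q g x ≠ 0 := by
    rw [Ne, ← R.iff_zero, ← h1]
    exact one_ne_zero
  have h3 := locH2 hp2 q (locField (emb K q g)) _ (primitiveRoot_toLoc K q g hζ)
  intro y
  obtain ⟨a, ha⟩ := (finrank_eq_one_iff_of_nonzero' _ h2).1 h3 y
  exact ⟨a • x, by rw [map_smul, ha]⟩

variable (hn : K.fixingSubgroup.Normal)

theorem RecJ.exists_b (δ : GamQ) :
    ∃ b : ZMod p, ∀ v x, R.J v (dAct hn δ x) = b * R.J (mulP δ v) x := by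
  classical
  have h1 : ∀ v, ∃ b : ZMod p, ∀ x, (R.J v ∘ₗ dAct hn δ) x = b * R.J (mulP δ v) x := by
    intro v
    apply exists_smul_of_ker_le
    intro x hx
    obtain ⟨q, hq, g, rfl⟩ := exists_placeOf_emb v
    rw [mulP_placeOf hn, R.iff_zero] at hx
    rw [LinearMap.comp_apply, R.iff_zero, resW_dAct, hx, map_zero]
  choose b hb using h1
  obtain ⟨v₀⟩ := nonempty_places (K := K)
  refine ⟨b v₀, fun v x => ?_⟩
  by_cases hv : v = v₀
  · subst hv
    exact hb v x
  have hbb : b v = b v₀ := by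
    obtain ⟨y, hy⟩ := (R.image (Finsupp.single (mulP δ v) 1 - Finsupp.single (mulP δ v₀) 1)).2 (by
      rw [Finsupp.sum_sub_index (fun _ _ _ => rfl), Finsupp.sum_single_index rfl,
        Finsupp.sum_single_index rfl, sub_self])
    have h2 := (R.image (Finsupp.single v (b v) - Finsupp.single v₀ (b v₀))).1 ⟨dAct hn δ y,
      fun w => by
        have h3 := hb w y
        rw [LinearMap.comp_apply] at h3
        rw [h3, ← hy (mulP δ w), Finsupp.sub_apply, Finsupp.sub_apply, Finsupp.single_apply,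
          Finsupp.single_apply, Finsupp.single_apply, Finsupp.single_apply]
        have e1 : (mulP δ v = mulP δ w) ↔ v = w := (mulP_injective hn δ).eq_iff
        have e2 : (mulP δ v₀ = mulP δ w) ↔ v₀ = w := (mulP_injective hn δ).eq_iff
        simp only [e1, e2]
        split_ifs with h4 h5 h5
        · exact absurd (h4.trans h5.symm) hv
        · rw [h4]; ring
        · rw [h5]; ring
        · ring⟩
    rw [Finsupp.sum_sub_index (fun _ _ _ => rfl), Finsupp.sum_single_index rfl,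
      Finsupp.sum_single_index rfl, sub_eq_zero] at h2
    exact h2
  rw [← hbb]
  exact hb v x

end J

section T

variable {p : ℕ} [hp : Fact p.Prime] {K : IntermediateField ℚ (AlgebraicClosure ℚ)}
  [FiniteDimensional ℚ K] (R : RecJ p K) (hp2 : p ≠ 2) {ζ : K} (hζ : IsPrimitiveRoot ζ p)

/-- The local functional at `(q, g)`. -/
noncomputable def RecJ.Jl (q : ℕ) [Fact q.Prime] (g : GamQ) :
    H2 (lev (locField (emb K q g))) (Bridge.triv p (locField (emb K q g)).fixingSubgroup)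
      →ₗ[ZMod p] ZMod p :=
  (exists_factor (R.resW_surjective hp2 hζ q g) (φ := R.J (placeOf (emb K q g)))
    (fun x hx => (R.iff_zero q g x).2 hx)).choose

lemma RecJ.Jl_resW (q : ℕ) [Fact q.Prime] (g : GamQ)
    (x : H2 (lev K) (Bridge.triv p K.fixingSubgroup)) :
    R.Jl hp2 hζ q g (resW K q g x) = R.J (placeOf (emb K q g)) x :=
  (exists_factor (R.resW_surjective hp2 hζ q g) (φ := R.J (placeOf (emb K q g)))
    (fun x hx => (R.iff_zero q g x).2 hx)).choose_spec x

lemma RecJ.Jl_injective (q : ℕ) [Fact q.Prime] (g : GamQ) :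
    Function.Injective (R.Jl hp2 hζ q g) := by
  rw [injective_iff_map_eq_zero]
  intro y hy
  obtain ⟨x, rfl⟩ := R.resW_surjective hp2 hζ q g y
  rw [R.Jl_resW, R.iff_zero] at hy
  exact hy

variable {χ : GamQ →* (ZMod p)ˣ} (hK : K.fixingSubgroup = χ.ker)

/-- The functional on `H²(G_q, μ)` deduced from the place `(q, g)`. -/
noncomputable def RecJ.T (q : ℕ) [Fact q.Prime] (g : GamQ) :
    H2 (levLoc q) (chiLoc χ q) →ₗ[ZMod p] ZMod p :=
  ((χ g)⁻¹ : (ZMod p)ˣ).val • (R.Jl hp2 hζ q g ∘ₗ resL hK q g)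

lemma RecJ.T_eq (q : ℕ) [Fact q.Prime] (g : GamQ) {y : H2 (levLoc q) (chiLoc χ q)}
    {x : H2 (lev K) (Bridge.triv p K.fixingSubgroup)} (h : resW K q g x = resL hK q g y) :
    R.T hp2 hζ hK q g y = ((χ g)⁻¹ : (ZMod p)ˣ).val * R.J (placeOf (emb K q g)) x := by
  rw [RecJ.T, LinearMap.smul_apply, LinearMap.comp_apply, ← h, R.Jl_resW, smul_eq_mul]

lemma units_val_mul_inv (a : (ZMod p)ˣ) : (a : ZMod p) * (a⁻¹ : (ZMod p)ˣ).val = 1 := by
  rw [← Units.val_mul, mul_inv_cancel, Units.val_one]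

/-- Independence of the representative of the place. -/
lemma RecJ.T_mul (q : ℕ) [Fact q.Prime] (g : GamQ) (σ : LocG q) (u : GamQ)
    (hu : u ∈ K.fixingSubgroup) :
    R.T hp2 hζ hK q (localGaloisToGlobal q σ * g * u) = R.T hp2 hζ hK q g := by
  refine LinearMap.ext fun y => ?_
  obtain ⟨x, hx⟩ := R.resW_surjective hp2 hζ q g (resL hK q g y)
  have h1 : resW K q (localGaloisToGlobal q σ * g * u)
      ((χ (localGaloisToGlobal q σ) : ZMod p) • x) =
      resL hK q (localGaloisToGlobal q σ * g * u) y := by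
    rw [map_smul, ← resW_mul K g σ u hu, hx, resT_conjW_resL hK q g σ u hu, smul_smul,
      units_val_mul_inv, one_smul]
  have hplace : placeOf (emb K q (localGaloisToGlobal q σ * g * u)) = placeOf (emb K q g) :=
    ((placeOf_emb_eq_iff K _ _).2 ⟨σ, u, hu, rfl⟩).symm
  have hχu : χ u = 1 := MonoidHom.mem_ker.1 (hK ▸ hu)
  rw [R.T_eq hp2 hζ hK q _ h1, R.T_eq hp2 hζ hK q g hx, hplace, map_smul, smul_eq_mul,
    ← mul_assoc]
  congr 1
  rw [← Units.val_mul, map_mul, map_mul, hχu]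
  congr 1
  rw [mul_one, mul_inv_rev, inv_mul_cancel_right]

include hK in
omit [FiniteDimensional ℚ K] in
lemma normal_of_eq_ker : K.fixingSubgroup.Normal := by
  rw [hK]
  infer_instance

/-- The change of `g` by `δ`. -/
lemma RecJ.exists_T_mul (δ : GamQ) : ∃ b : ZMod p, ∀ (q : ℕ) [Fact q.Prime] (g : GamQ),
    R.T hp2 hζ hK q g = (b * (χ δ : (ZMod p)ˣ).val) • R.T hp2 hζ hK q (g * δ) := by
  have hn := normal_of_eq_ker hK
  obtain ⟨b, hb⟩ := R.exists_b hn δ
  refine ⟨b, fun q _ g => ?_⟩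
  refine LinearMap.ext fun y => ?_
  obtain ⟨x, hx⟩ := R.resW_surjective hp2 hζ q (g * δ) (resL hK q (g * δ) y)
  have h1 : resW K q g (dAct hn δ x) = resL hK q g y := by
    rw [resW_dAct, hx, resT_idW_resL]
  rw [LinearMap.smul_apply, R.T_eq hp2 hζ hK q g h1, R.T_eq hp2 hζ hK q (g * δ) hx, hb,
    mulP_placeOf hn, smul_eq_mul, map_mul, mul_inv, Units.val_mul]
  have h2 := units_val_mul_inv (χ δ)
  linear_combination (-(((χ g)⁻¹ : (ZMod p)ˣ).val * b *
    R.J (placeOf (emb K q (g * δ))) x)) * h2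

variable (hone : ∀ g : GamQ, placeOf (emb K p g) = placeOf (emb K p 1))
  (hne : ∃ y : H2 (levLoc p) (chiLoc χ p), resL hK p 1 y ≠ 0)

include hone hne in
/-- **Independence of `g`.** -/
theorem RecJ.T_eq_T (q : ℕ) [Fact q.Prime] (g : GamQ) :
    R.T hp2 hζ hK q g = R.T hp2 hζ hK q 1 := by
  obtain ⟨b, hb⟩ := R.exists_T_mul hp2 hζ hK g
  obtain ⟨y, hy⟩ := hne
  have h1 : R.T hp2 hζ hK p 1 y ≠ 0 := by
    rw [RecJ.T, LinearMap.smul_apply, LinearMap.comp_apply, smul_eq_mul, map_one, inv_one,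
      Units.val_one, one_mul, Ne, map_eq_zero_iff _ (R.Jl_injective hp2 hζ p 1)]
    exact hy
  have h2 : b * (χ g : (ZMod p)ˣ).val = 1 := by
    have h3 := LinearMap.congr_fun (hb p 1) y
    obtain ⟨σ, u, hu, hg⟩ := (placeOf_emb_eq_iff K _ _).1 (hone g).symm
    rw [one_mul, hg, LinearMap.smul_apply, R.T_mul hp2 hζ hK p 1 σ u hu, ← hg, smul_eq_mul] at h3
    exact (mul_right_cancel₀ h1 (by rw [one_mul]; exact h3)).symm
  have h4 := hb q 1
  rw [h2, one_smul, one_mul] at h4
  exact h4.symm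

include hone hne in
/-- The global invariant in terms of the local functionals. -/
theorem RecJ.J_resK (q : ℕ) [Fact q.Prime] (g : GamQ) (x : H2 levQ (chiRep χ)) :
    R.J (placeOf (emb K q g)) (resK hK x) = R.T hp2 hζ hK q 1 (resQ χ q x) := by
  rw [← R.T_eq_T hp2 hζ hK hone hne q g]
  have h1 : resW K q g ((χ g : (ZMod p)ˣ).val • resK hK x) = resL hK q g (resQ χ q x) := by
    rw [map_smul, resW_resK, smul_smul, units_val_mul_inv, one_smul]
  rw [R.T_eq hp2 hζ hK q g h1, map_smul, smul_eq_mul, ← mul_assoc, mul_comm _ (χ g).val,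
    units_val_mul_inv, one_mul]

end T

end Fermat.Agent.CFT.Global
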