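import Fermat.Agent.CFT.Global.Recip
import Fermat.Agent.CFT.Global.CountP
import Fermat.Agent.CFT.Local.Frozen
import Fermat.Agent.PT.GlobalData

/-!
# Reciprocity over `ℚ`: `Σ_q inv_q(res_q x) = 0` for `x ∈ H²(Γ, μ_p)`, `inv_q ≠ 0`
-/

set_option autoImplicit false

namespace Fermat.Agent.CFT.Global

open Fermat.Agent.PT Fermat.Agent.PT.Frozen Fermat.Agent.CFT.Kum Fermat.Agent.CFT.Kum.KumSet
  Fermat.Agent.CFT.Bridge ExtCitation
open NumberField IsDedekindDomain

local instance (q : Nat.Primes) : Fact (q : ℕ).Prime := ⟨q.2⟩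

variable {p : ℕ} [hp : Fact p.Prime] {K : IntermediateField ℚ (AlgebraicClosure ℚ)}

section Local

variable {χ : GamQ →* (ZMod p)ˣ} (hK : K.fixingSubgroup = χ.ker)

include hK in
lemma fixing_locField_eq_ker (q : ℕ) [Fact q.Prime] (g : GamQ) :
    (locField (emb K q g)).fixingSubgroup = (χ.comp (localGaloisToGlobal q)).ker := by
  ext h
  rw [mem_fixing_locField_emb_iff K q, hK, MonoidHom.mem_ker, MonoidHom.mem_ker,
    MonoidHom.comp_apply, map_mul, map_mul, map_inv, mul_assoc, mul_comm, mul_assoc,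
    mul_inv_cancel, mul_one]

include hK in
lemma coprime_index_locField (q : ℕ) [Fact q.Prime] (g : GamQ) :
    Nat.Coprime (locField (emb K q g)).fixingSubgroup.index p := by
  rw [fixing_locField_eq_ker hK, Nat.coprime_comm, hp.out.coprime_iff_not_dvd]
  have h1 : (χ.comp (localGaloisToGlobal q)).ker.index ∣ p - 1 := by
    rw [Subgroup.index_ker, ← ZMod.card_units p, ← Nat.card_eq_fintype_card]
    exact Subgroup.card_subgroup_dvd_card _
  intro h
  have h2 := Nat.le_of_dvd (Nat.sub_pos_of_lt hp.out.one_lt) (h.trans h1)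
  have := hp.out.one_lt
  omega

theorem resL_injective [FiniteDimensional ℚ K] (q : ℕ) [Fact q.Prime] (g : GamQ) :
    Function.Injective (resL hK q g) := by
  rw [injective_iff_map_eq_zero]
  intro y hy
  have hU : (locField (emb K q g)).fixingSubgroup ∈ levLoc q := fixingSubgroup_mem_galLevels _
  apply CFTLocal.res2_injective_of_coprime (chiLoc χ q) hU (coprime_index_locField hK q g)
  rw [map_zero]
  obtain ⟨c, rfl⟩ := H2mk_surjective y
  have h1 : ∃ z : ↥(Z2 (lev (locField (emb K q g)))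
      (Bridge.triv p (locField (emb K q g)).fixingSubgroup)),
      resL hK q g (H2mk (levLoc q) (chiLoc χ q) c) = mkT p (locField (emb K q g)) z ∧
        ∀ h h', z.1 (h, h') = c.1 (h, h') := ⟨_, rfl, fun _ _ => rfl⟩
  obtain ⟨z, hz, hzc⟩ := h1
  rw [hz, H2mk_triv_eq_zero_iff] at hy
  obtain ⟨e, he, hce⟩ := hy
  rw [res2, H2map_mk, H2mk_eq_zero]
  refine ⟨e, he, fun h h' => ?_⟩
  have h2 := chi_localGaloisToGlobal hK q g h
  have h3 : ((chiLoc χ q).comp (locField (emb K q g)).fixingSubgroup.subtype) h (e h') = e h' := by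
    change (χ (localGaloisToGlobal q h) : ZMod p) * e h' = e h'
    rw [h2, Units.val_one, one_mul]
  rw [h3, ← hce, hzc]
  rfl

end Local

/-- `H²(G_q, μ_p) ≠ 0`. -/
lemma exists_ne_zero_loc (hp2 : p ≠ 2) (q : ℕ) [Fact q.Prime] :
    ∃ y : H2 (levLoc q) (chiLoc (cycloChar p) q), y ≠ 0 := by
  obtain ⟨ζ, hζ⟩ := exists_primitive p
  have h0 := CFTLocal.finrank_H2_omega (q := q) (CFTLocal.prim_padicEmbedding hζ)
      (CFTLocal.omegaLoc_spec hζ) hp2
  have h : Module.finrank (ZMod p) (H2 (levLoc q) (chiLoc (cycloChar p) q)) = 1 := h0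
  have : Nontrivial (H2 (levLoc q) (chiLoc (cycloChar p) q)) :=
    Module.nontrivial_of_finrank_pos (R := ZMod p) (by rw [h]; exact one_pos)
  exact exists_ne 0

section Sum

variable [FiniteDimensional ℚ K]

lemma finite_places (q : ℕ) [hq : Fact q.Prime] :
    {v : HeightOneSpectrum (𝓞 K) | (q : 𝓞 K) ∈ v.asIdeal}.Finite := by
  have h1 : Ideal.span {((q : ℕ) : 𝓞 K)} ≠ ⊥ := by
    rw [Ne, Ideal.span_singleton_eq_bot]
    exact Nat.cast_ne_zero.mpr hq.out.ne_zero
  refine (Ideal.finite_factors h1).subset ?_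
  intro v hv
  rw [Set.mem_ofPred_eq, Ideal.dvd_iff_le, Ideal.span_singleton_le_iff_mem]
  exact hv

/-- The places above `q`. -/
noncomputable def aboveQ (K : IntermediateField ℚ (AlgebraicClosure ℚ)) [FiniteDimensional ℚ K]
    (q : ℕ) [Fact q.Prime] : Finset (HeightOneSpectrum (𝓞 K)) := (finite_places (K := K) q).toFinset

lemma mem_aboveQ {q : ℕ} [Fact q.Prime] {v : HeightOneSpectrum (𝓞 K)} :
    v ∈ aboveQ K q ↔ (q : 𝓞 K) ∈ v.asIdeal := by
  rw [aboveQ, Set.Finite.mem_toFinset]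
  rfl

lemma aboveQ_disjoint {q q' : Nat.Primes} (h : q ≠ q') :
    Disjoint (aboveQ K (q : ℕ)) (aboveQ K (q' : ℕ)) := by
  rw [Finset.disjoint_left]
  intro v hv hv'
  rw [mem_aboveQ] at hv hv'
  obtain ⟨g, hg⟩ := exists_emb (q := (q : ℕ)) K v hv
  obtain ⟨g', hg'⟩ := exists_emb (q := (q' : ℕ)) K v hv'
  exact h (Subtype.ext (prime_eq_of_placeOf_eq (hg.trans hg'.symm)))

variable (R : RecJ p K) (hp2 : p ≠ 2) {ζ : K} (hζ : IsPrimitiveRoot ζ p)
  {χ : GamQ →* (ZMod p)ˣ} (hK : K.fixingSubgroup = χ.ker)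
  (hone : ∀ g : GamQ, placeOf (emb K p g) = placeOf (emb K p 1))
  (hne : ∃ y : H2 (levLoc p) (chiLoc χ p), resL hK p 1 y ≠ 0)

/-- The normalised local invariant. -/
noncomputable def RecJ.inv (q : ℕ) [Fact q.Prime] : H2 (levLoc q) (chiLoc χ q) →ₗ[ZMod p] ZMod p :=
  ((aboveQ K q).card : ZMod p) • R.T hp2 hζ hK q 1

include hone hne in
theorem RecJ.sum_inv (S : Finset Nat.Primes) (x : H2 levQ (chiRep χ))
    (hx : ∀ q : Nat.Primes, q ∉ S → ∀ g : GamQ, resW K (q : ℕ) g (resK hK x) = 0) :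
    ∑ q ∈ S, R.inv hp2 hζ hK (q : ℕ) (resQ χ (q : ℕ) x) = 0 := by
  classical
  obtain ⟨t, ht⟩ := R.fin (resK hK x)
  have h0 := (R.image t).1 ⟨_, ht⟩
  have hsupp : t.support ⊆ S.biUnion (fun q => aboveQ K (q : ℕ)) := by
    intro v hv
    rw [Finsupp.mem_support_iff, ht] at hv
    obtain ⟨q, hq, g, rfl⟩ := exists_placeOf_emb v
    rw [Ne, R.iff_zero] at hv
    rw [Finset.mem_biUnion]
    refine ⟨⟨q, hq.out⟩, ?_, mem_aboveQ.2 (q_mem_placeOf _)⟩
    by_contra hcon
    exact hv (hx ⟨q, hq.out⟩ hcon g)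
  rw [Finsupp.sum_of_support_subset _ hsupp _ (fun _ _ => rfl),
    Finset.sum_biUnion (fun q _ q' _ h => aboveQ_disjoint h)] at h0
  rw [← h0]
  refine Finset.sum_congr rfl fun q _ => ?_
  rw [RecJ.inv, LinearMap.smul_apply, smul_eq_mul, ← nsmul_eq_mul, ← Finset.sum_const]
  refine Finset.sum_congr rfl fun v hv => ?_
  rw [mem_aboveQ] at hv
  obtain ⟨g, rfl⟩ := exists_emb (q := (q : ℕ)) K v hv
  rw [ht, R.J_resK hp2 hζ hK hone hne]

end Sum

theorem exists_recip_aux [FiniteDimensional ℚ K] (hp2 : p ≠ 2) (hK : K.fixingSubgroup = (cycloChar p).ker)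
    (hcyc : IsCyclotomicExtension {p} ℚ K) {ζ : K} (hζ : IsPrimitiveRoot ζ p) :
    ∃ (inv : ∀ (q : ℕ) [Fact q.Prime],
      H2 (levLoc q) (chiLoc (cycloChar p) q) →ₗ[ZMod p] ZMod p),
    (∀ (q : ℕ) [Fact q.Prime], inv q ≠ 0) ∧
    ∀ (S : Finset Nat.Primes) (x : H2 levQ (chiRep (cycloChar p))),
      (∀ q : Nat.Primes, q ∉ S → ∀ g : GamQ, resW K (q : ℕ) g (resK hK x) = 0) →
      ∑ q ∈ S, inv (q : ℕ) (resQ (cycloChar p) (q : ℕ) x) = 0 := by
  obtain ⟨R⟩ := nonempty_recJ hp2 hζ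
  have hone : ∀ g : GamQ, placeOf (emb K p g) = placeOf (emb K p 1) := fun g =>
    place_unique K p (q_mem_placeOf _) (q_mem_placeOf _)
  have hne' : ∀ (q : ℕ) [Fact q.Prime], ∃ y : H2 (levLoc q) (chiLoc (cycloChar p) q),
      resL hK q 1 y ≠ 0 := by
    intro q _
    obtain ⟨y, hy⟩ := exists_ne_zero_loc hp2 q
    exact ⟨y, fun h => hy (resL_injective hK q 1 (h.trans (map_zero _).symm))⟩
  refine ⟨fun q _ => R.inv hp2 hζ hK q, ?_, fun S x hx =>
    R.sum_inv hp2 hζ hK hone (hne' p) S x hx⟩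
  intro q hq h0
  obtain ⟨y, hy⟩ := hne' q
  have h1 := LinearMap.congr_fun h0 y
  change ((aboveQ K q).card : ZMod p) * ((((cycloChar p) 1)⁻¹ : (ZMod p)ˣ).val *
    R.Jl hp2 hζ q 1 (resL hK q 1 y)) = 0 at h1
  rw [map_one, inv_one, Units.val_one, one_mul,
    mul_eq_zero, map_eq_zero_iff _ (R.Jl_injective hp2 hζ q 1)] at h1
  rcases h1 with h1 | h1
  · rw [ZMod.natCast_eq_zero_iff] at h1
    have h2 : (aboveQ K q).card ∣ Module.finrank ℚ K := by
      have : IsGalois ℚ K := IsCyclotomicExtension.isGalois {p} ℚ K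
      have h3 := ncard_places_dvd K hq.out
      have h4 : {v : HeightOneSpectrum (𝓞 K) | (q : 𝓞 K) ∈ v.asIdeal}.ncard =
          (aboveQ K q).card := by
        rw [aboveQ, Set.ncard_eq_toFinset_card _ (finite_places (K := K) q)]
      rwa [h4] at h3
    rw [IsCyclotomicExtension.Rat.finrank p K, Nat.totient_prime hp.out] at h2
    have h5 := Nat.le_of_dvd (Nat.sub_pos_of_lt hp.out.one_lt) (h1.trans h2)
    have := hp.out.one_lt
    omega
  · exact hy h1

/-- **Reciprocity over `ℚ`.** -/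
theorem exists_recip (hp2 : p ≠ 2) : ∃ (K : IntermediateField ℚ (AlgebraicClosure ℚ))
    (_ : FiniteDimensional ℚ K) (hK : K.fixingSubgroup = (cycloChar p).ker)
    (inv : ∀ (q : ℕ) [Fact q.Prime],
      H2 (levLoc q) (chiLoc (cycloChar p) q) →ₗ[ZMod p] ZMod p),
    (∀ (q : ℕ) [Fact q.Prime], inv q ≠ 0) ∧
    ∀ (S : Finset Nat.Primes) (x : H2 levQ (chiRep (cycloChar p))),
      (∀ q : Nat.Primes, q ∉ S → ∀ g : GamQ, resW K (q : ℕ) g (resK hK x) = 0) →
      ∑ q ∈ S, inv (q : ℕ) (resQ (cycloChar p) (q : ℕ) x) = 0 := by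
  obtain ⟨ζ, hζ⟩ := exists_primitive p
  have hfd := finiteDimensional_adjoin_root ζ
  have hK := (ker_cycloChar hζ).symm
  have : NeZero p := ⟨hp.out.ne_zero⟩
  have hcyc := hζ.intermediateField_adjoin_isCyclotomicExtension (K := ℚ)
  have hζ' : IsPrimitiveRoot (⟨ζ, IntermediateField.mem_adjoin_simple_self ℚ ζ⟩ :
      IntermediateField.adjoin ℚ {ζ}) p :=
    IsPrimitiveRoot.of_map_of_injective
      (f := algebraMap (IntermediateField.adjoin ℚ {ζ}) (AlgebraicClosure ℚ)) hζ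
      (algebraMap (IntermediateField.adjoin ℚ {ζ}) (AlgebraicClosure ℚ)).injective
  obtain ⟨inv, h1, h2⟩ := exists_recip_aux hp2 hK hcyc hζ'
  exact ⟨_, hfd, hK, inv, h1, h2⟩

section PD

lemma rLevels_prime (v : Nat.Primes) :
    rLevels (primeLocalToGlobal v) = levLoc (v : ℕ) :=
  CFTLocal.rLevels_localGaloisToGlobal (q := (v : ℕ))

lemma compat_id_of_le {G : Type*} [Group G] {𝓛 𝓛' : LevelSys G} (h : ∀ V ∈ 𝓛, V ∈ 𝓛') :
    𝓛.Compat (MonoidHom.id G) 𝓛' := fun W hW => by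
  rw [Subgroup.comap_id]
  exact h W hW

lemma compat_rLevels (v : Nat.Primes) :
    (rLevels (primeLocalToGlobal v)).Compat (MonoidHom.id (LocG (v : ℕ))) (levLoc (v : ℕ)) :=
  compat_id_of_le fun W hW => by
    rw [rLevels_prime] at hW
    exact hW

/-- comparison of the two descriptions of the local levels -/
noncomputable def toLocLev (p : ℕ) [Fact p.Prime] (v : Nat.Primes) :
    PT.H2 (rLevels (primeLocalToGlobal v)) ((chiRep (cycloChar p)).comp (primeLocalToGlobal v))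
      →ₗ[ZMod p] PT.H2 (levLoc (v : ℕ)) (chiLoc (cycloChar p) (v : ℕ)) :=
  H2map (MonoidHom.id (LocG (v : ℕ))) (compat_rLevels v) LinearMap.id (fun _ _ => rfl)

lemma toLocLev_surjective (v : Nat.Primes) : Function.Surjective (toLocLev p v) := by
  intro y
  obtain ⟨c, rfl⟩ := H2mk_surjective y
  refine ⟨H2mk (rLevels (primeLocalToGlobal v))
    ((chiRep (cycloChar p)).comp (primeLocalToGlobal v)) ⟨c.1, ?_, c.2.2⟩, rfl⟩
  rw [rLevels_prime]
  exact c.2.1

/-- Inflation from the `S`-levels. -/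
noncomputable def inflS (p : ℕ) [Fact p.Prime] (S : Finset Nat.Primes) :
    PT.H2 (SKummer.sLevels S) (chiRep (cycloChar p)) →ₗ[ZMod p] PT.H2 levQ (chiRep (cycloChar p)) :=
  H2map (MonoidHom.id GamQ) (compat_id_of_le fun _ hW => SKummer.sLevels_le hW) LinearMap.id
    (fun _ _ => rfl)

/-- Restriction to `K` for the `S`-levels. -/
noncomputable def resKS (S : Finset Nat.Primes) (hK : K.fixingSubgroup = (cycloChar p).ker) :
    PT.H2 (SKummer.sLevels S) (chiRep (cycloChar p)) →ₗ[ZMod p]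
      PT.H2 (SKummer.levS S K) (Bridge.triv p K.fixingSubgroup) :=
  H2map K.fixingSubgroup.subtype (LevelSys.compat_comap _) LinearMap.id (fun h x => by
    have h1 : cycloChar p (h : GamQ) = 1 := MonoidHom.mem_ker.1 (hK ▸ h.2)
    simp [chiRep_apply, h1])

lemma resW_resK_inflS [FiniteDimensional ℚ K] {S : Finset Nat.Primes}
    (hK : K.fixingSubgroup = (cycloChar p).ker)
    (x : PT.H2 (SKummer.sLevels S) (chiRep (cycloChar p))) (q : Nat.Primes) (hq : q ∉ S)
    (g : GamQ) : resW K (q : ℕ) g (resK hK (inflS p S x)) = 0 := by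
  have h1 : resK hK (inflS p S x) =
      SKummer.Formal.infl2 (SKummer.levS_le_lev (S := S) (K := K))
        (Bridge.triv p K.fixingSubgroup) (resKS S hK x) := by
    obtain ⟨c, rfl⟩ := H2mk_surjective x
    rfl
  rw [h1]
  exact resW_infl2 (resKS S hK x) (q : ℕ) hq g

/-- **Reciprocity in the language of `PlaceData`.** -/
theorem exists_inv_recip (hp2 : p ≠ 2) : ∃ inv : ∀ v : Nat.Primes,
    PT.H2 (rLevels (primeLocalToGlobal v))
      ((chiRep (cycloChar p)).comp (primeLocalToGlobal v)) →ₗ[ZMod p] ZMod p,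
    (∀ v, inv v ≠ 0) ∧ ∀ (S : Finset Nat.Primes) (hpS : pPrime p ∈ S),
      (placeData S hpS (fun v => inv v.1)).Recip := by
  obtain ⟨K, hfd, hK, inv, hinv, hsum⟩ := exists_recip (p := p) hp2
  refine ⟨fun v => inv (v : ℕ) ∘ₗ toLocLev p v, fun v h0 => hinv (v : ℕ) ?_, ?_⟩
  · refine LinearMap.ext fun y => ?_
    obtain ⟨x, rfl⟩ := toLocLev_surjective (p := p) v y
    exact LinearMap.congr_fun h0 x
  · intro S hpS x
    have h1 := hsum S (inflS p S x) (fun q hq g => resW_resK_inflS hK x q hq g)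
    rw [← h1, ← Finset.sum_coe_sort S
      (fun q => inv (q : ℕ) (resQ (cycloChar p) (q : ℕ) (inflS p S x)))]
    refine Finset.sum_congr rfl fun v _ => ?_
    obtain ⟨c, rfl⟩ := H2mk_surjective x
    rfl

end PD

end Fermat.Agent.CFT.Global
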