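import Fermat.Agent.CFT.Global.Functional

/-!
# The reciprocity functional (2): existence and nonvanishing of all components
-/

set_option autoImplicit false

namespace Fermat.Agent.CFT.Global

open IsDedekindDomain NumberField WithZero Polynomial
open Fermat.Agent.CFT.SUnits (ord ord_one ord_mul ord_inv ord_pow ord_div ord_eq_zero_iff
  valuation_eq_exp_neg_ord finite_ord_ne_zero div div_apply)

universe u

section Main

variable {K : Type u} [Field K] [NumberField K] {p : ℕ} (LS : LocalSymbols p K)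

lemma exists_notMem_locPow_at (hp : p.Prime) (v : HeightOneSpectrum (𝓞 K)) :
    ∃ y : Kˣ, y ∉ locPow p v := by
  obtain ⟨π, hπ⟩ := exists_ord_eq_one v
  refine ⟨π, fun h => ?_⟩
  have h1 := dvd_ord_of_mem_locPow h
  rw [hπ] at h1
  have h2 : (p : ℤ) ≤ 1 := Int.le_of_dvd one_pos h1
  have := hp.two_le
  omega

/-- There is an element which is not a local `p`-th power at any of finitely many given places. -/
lemma exists_nonPow (hp : p.Prime) (Z : Finset (HeightOneSpectrum (𝓞 K))) :
    ∃ a : Kˣ, ∀ v ∈ Z, a ∉ locPow p v := by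
  choose f hf using exists_notMem_locPow_at (K := K) hp
  obtain ⟨a, ha⟩ := indep_locPow p hp.ne_zero Z f
  refine ⟨a, fun v hv h => hf v ?_⟩
  have h1 := div_mem h (ha v hv)
  rwa [div_div_cancel] at h1

lemma not_pow_of_notMem_locPow {v : HeightOneSpectrum (𝓞 K)} {a : Kˣ} (h : a ∉ locPow p v) :
    ∀ b : Kˣ, b ^ p ≠ a := by
  rintro b rfl
  exact h (pow_mem_locPow p v b)

lemma nonempty_places : Nonempty (HeightOneSpectrum (𝓞 K)) := by
  obtain ⟨P, hP⟩ := Ideal.exists_maximal (𝓞 K)
  exact ⟨⟨P, hP.isPrime, Ring.ne_bot_of_isMaximal_of_not_isField hP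
    (RingOfIntegers.not_isField K)⟩⟩

/-- **Existence of the functional.** -/
theorem exists_functional_aux (In : Inputs.{u} p) {ζ : K} (hζ : IsPrimitiveRoot ζ p)
    (R : AddSubgroup (HeightOneSpectrum (𝓞 K) →₀ ZMod p))
    (h1 : ∀ a x, symVec LS In.prime.ne_zero a x ∈ R)
    (h2 : ∀ a, (∀ b : Kˣ, b ^ p ≠ a) → ∀ t ∈ R, (∀ v, a ∈ locPow p v → t v = 0) →
      ∃ x, t = symVec LS In.prime.ne_zero a x) :
    ∃ c : HeightOneSpectrum (𝓞 K) → ZMod p,
      ∀ t : HeightOneSpectrum (𝓞 K) →₀ ZMod p, t ∈ R ↔ t.sum (fun v n => c v * n) = 0 := by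
  classical
  have hp := In.prime
  have : Fact p.Prime := ⟨hp⟩
  obtain ⟨v₀⟩ := nonempty_places (K := K)
  obtain ⟨a₀, ha₀⟩ := exists_nonPow (K := K) hp {v₀}
  have hna₀ := not_pow_of_notMem_locPow (ha₀ v₀ (Finset.mem_singleton_self _))
  obtain ⟨u, hu, huW⟩ := exists_ne_symVec LS In hζ hna₀
  have huR : u ∉ R := by
    intro h
    obtain ⟨x, hx⟩ := h2 a₀ hna₀ u h hu
    exact huW x hx
  -- every `t` is `k • u` modulo `R`
  have key : ∀ t : HeightOneSpectrum (𝓞 K) →₀ ZMod p, ∃ k : ℕ, t - k • u ∈ R := by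
    intro t
    obtain ⟨a, ha⟩ := exists_nonPow (K := K) hp (insert v₀ (u.support ∪ t.support))
    have hna := not_pow_of_notMem_locPow (ha v₀ (Finset.mem_insert_self _ _))
    obtain ⟨k, x, hkx⟩ := exists_eq_nsmul_add LS In hζ hna u t
      (fun v hv => by
        by_contra h
        exact ha v (Finset.mem_insert_of_mem (Finset.mem_union_left _
          (Finsupp.mem_support_iff.mpr h))) hv)
      (fun v hv => by
        by_contra h
        exact ha v (Finset.mem_insert_of_mem (Finset.mem_union_right _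
          (Finsupp.mem_support_iff.mpr h))) hv)
      (fun x hx => huR (hx ▸ h1 a x))
    refine ⟨k, ?_⟩
    rw [hkx, add_sub_cancel_left]
    exact h1 a x
  let Rm : Submodule (ZMod p) (HeightOneSpectrum (𝓞 K) →₀ ZMod p) :=
    AddSubgroup.toZModSubmodule p R
  have hRm : ∀ t, t ∈ Rm ↔ t ∈ R := fun t => Iff.rfl
  have hlt : Rm < ⊤ := by
    rw [lt_top_iff_ne_top]
    intro h
    exact huR ((hRm u).mp (h ▸ Submodule.mem_top))
  obtain ⟨f, hf0, hf⟩ := Submodule.exists_le_ker_of_lt_top Rm hlt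
  have hfu : f u ≠ 0 := by
    intro h
    apply hf0
    refine LinearMap.ext fun t => ?_
    obtain ⟨k, hk⟩ := key t
    have h3 : f (t - k • u) = 0 := hf ((hRm _).mpr hk)
    rw [map_sub, map_nsmul, h, smul_zero, sub_zero] at h3
    exact h3
  have hker : ∀ t, t ∈ R ↔ f t = 0 := by
    intro t
    constructor
    · intro h
      exact hf ((hRm t).mpr h)
    · intro h
      obtain ⟨k, hk⟩ := key t
      have h3 : f (t - k • u) = 0 := hf ((hRm _).mpr hk)
      rw [map_sub, map_nsmul, h, zero_sub, neg_eq_zero, nsmul_eq_mul] at h3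
      rcases mul_eq_zero.mp h3 with h4 | h4
      · have h5 : k • u = 0 := by
          rw [← Nat.cast_smul_eq_nsmul (ZMod p), h4, zero_smul]
        rwa [h5, sub_zero] at hk
      · exact absurd h4 hfu
  refine ⟨fun v => f (Finsupp.single v 1), fun t => ?_⟩
  rw [hker]
  have h3 : f t = t.sum (fun v n => f (Finsupp.single v 1) * n) := by
    conv_lhs => rw [← Finsupp.sum_single t]
    rw [map_finsuppSum]
    refine Finsupp.sum_congr fun v _ => ?_
    have : Finsupp.single v (t v) = (t v) • Finsupp.single v (1 : ZMod p) := by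
      rw [Finsupp.smul_single, smul_eq_mul, mul_one]
    rw [this, map_smul, smul_eq_mul, mul_comm]
  rw [h3]

/-- For suitable large `S`, `S`-units which are `p`-th powers at `S` are `p`-th powers. -/
theorem exists_inj (In : Inputs.{u} p) {ζ : K} (hζ : IsPrimitiveRoot ζ p)
    (S₀ : Finset (HeightOneSpectrum (𝓞 K))) :
    ∃ S : Finset (HeightOneSpectrum (𝓞 K)), S₀ ⊆ S ∧ AboveP p S ∧ ClTrivial S ∧
      ∀ y ∈ E S, (∀ v ∈ S, y ∈ locPow p v) → ∃ b : Kˣ, b ^ p = y := by
  classical
  have hp := In.prime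
  obtain ⟨S₁, hS₀, hS₁p, hcl, -⟩ := exists_good (K := K) p hp.ne_zero S₀ ∅
  have hfin : Finite (E S₁ ⧸ powE p S₁) := by
    apply Nat.finite_of_card_ne_zero
    change (powE p S₁).index ≠ 0
    rw [index_powE hp hζ]
    exact pow_ne_zero _ hp.ne_zero
  have := Fintype.ofFinite (E S₁ ⧸ powE p S₁)
  choose g hg using QuotientGroup.mk_surjective (s := powE p S₁)
  have hv : ∀ e : E S₁ ⧸ powE p S₁, ∃ v : HeightOneSpectrum (𝓞 K),
      (∀ b : Kˣ, b ^ p ≠ g e) → (g e : Kˣ) ∉ locPow p v := by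
    intro e
    by_cases h : ∀ b : Kˣ, b ^ p ≠ g e
    · obtain ⟨v, -, hv⟩ := exists_notMem_locPow In hζ ∅ h
      exact ⟨v, fun _ => hv⟩
    · obtain ⟨v⟩ := nonempty_places (K := K)
      exact ⟨v, fun h' => absurd h' h⟩
  choose w hw using hv
  refine ⟨S₁ ∪ Finset.univ.image w, hS₀.trans Finset.subset_union_left,
    fun v hv => Finset.mem_union_left _ (hS₁p v hv), hcl.mono Finset.subset_union_left, ?_⟩
  intro y hy hyS
  -- divide the divisor by `p`
  have hdvd : ∀ v ∉ S₁, (p : ℤ) ∣ ord v y := by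
    intro v hv
    by_cases h : v ∈ S₁ ∪ Finset.univ.image w
    · exact dvd_ord_of_mem_locPow (hyS v h)
    · rw [mem_E.mp hy v h]
      exact dvd_zero _
  obtain ⟨b, hb⟩ := hcl ((div y).mapRange (fun n => n / (p : ℤ)) (by simp))
  have he : y / b ^ p ∈ E S₁ := by
    rw [mem_E]
    intro v hv
    rw [ord_div, ord_pow, hb v hv, Finsupp.mapRange_apply, div_apply,
      Int.mul_ediv_cancel' (hdvd v hv), sub_self]
  set e : E S₁ := ⟨y / b ^ p, he⟩ with hedef
  have hge : ((e : E S₁ ⧸ powE p S₁)) = (g (e : E S₁ ⧸ powE p S₁)) := (hg _).symm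
  obtain ⟨z, hz⟩ := (QuotientGroup.eq.mp hge)
  have hz' : (g (e : E S₁ ⧸ powE p S₁) : Kˣ) = y / b ^ p * (z : Kˣ) ^ p := by
    have h1 : ((e⁻¹ * g (e : E S₁ ⧸ powE p S₁) : E S₁) : Kˣ) = (z : Kˣ) ^ p := by
      rw [← hz]
      rfl
    have h2 : (e : Kˣ) = y / b ^ p := rfl
    rw [← h1, ← h2]
    push_cast
    rw [mul_inv_cancel_left]
  by_contra hcon
  push Not at hcon
  have h3 : ∀ c : Kˣ, c ^ p ≠ g (e : E S₁ ⧸ powE p S₁) := by
    intro c hc
    apply hcon (c * b / z)
    rw [hz'] at hc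
    rw [_root_.div_pow, mul_pow, hc]
    rw [div_eq_iff_eq_mul]
    rw [mul_right_comm, div_mul_cancel]
  apply hw _ h3
  rw [hz']
  have h4 := hyS (w (e : E S₁ ⧸ powE p S₁))
    (Finset.mem_union_right _ (Finset.mem_image_of_mem _ (Finset.mem_univ _)))
  exact mul_mem (div_mem h4 (pow_mem_locPow p _ b)) (pow_mem_locPow p _ _)

/-- **All components of the functional are nonzero.** -/
theorem forall_ne_zero (In : Inputs.{u} p) {ζ : K} (hζ : IsPrimitiveRoot ζ p)
    (c : HeightOneSpectrum (𝓞 K) → ZMod p)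
    (h1 : ∀ a x, (symVec LS In.prime.ne_zero a x).sum (fun v n => c v * n) = 0)
    (h2 : ∀ a : Kˣ, (∀ b : Kˣ, b ^ p ≠ a) → ∃ v, a ∉ locPow p v ∧ c v ≠ 0)
    (v₀ : HeightOneSpectrum (𝓞 K)) : c v₀ ≠ 0 := by
  classical
  intro hc₀
  have hp := In.prime
  have hFp : Fact p.Prime := ⟨hp⟩
  obtain ⟨S, hS₀, hSp, hcl, hinj⟩ := exists_inj In hζ {v₀}
  have hv₀ : v₀ ∈ S := hS₀ (Finset.mem_singleton_self _)
  set S₁ := S.filter (fun v => c v ≠ 0) with hS₁
  have hv₀' : v₀ ∉ S₁ := by simp [hS₁, hc₀]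
  set P := ⨅ v ∈ S₁, locPow p v with hP
  -- `E S ∩ P ⊆ K^p`
  have hI : ∀ y ∈ E S, y ∈ P → ∃ b : Kˣ, b ^ p = y := by
    intro a ha haP
    by_contra hcon
    push Not at hcon
    obtain ⟨v, hav, hcv⟩ := h2 a hcon
    have haP' : ∀ w ∈ S₁, a ∈ locPow p w := by
      simpa only [hP, Subgroup.mem_iInf] using haP
    have hvS : v ∉ S := fun h => hav (haP' v (Finset.mem_filter.mpr ⟨h, hcv⟩))
    obtain ⟨x, hx⟩ := hcl (Finsupp.single v 1)
    have hsum := h1 a x
    have hval : ∀ w, w ≠ v → c w * symVec LS hp.ne_zero a x w = 0 := by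
      intro w hw
      rw [symVec_apply]
      by_cases hwS : w ∈ S
      · by_cases hcw : c w = 0
        · rw [hcw, zero_mul]
        · rw [LS.sym_eq_one_of_left (haP' w (Finset.mem_filter.mpr ⟨hwS, hcw⟩)), toAdd_one,
            mul_zero]
      · have hxw : ord w x = 0 := by
          rw [hx w hwS, Finsupp.single_eq_of_ne hw]
        rw [LS.unit_mem w (fun h => hwS (hSp w h)) a x (mem_E.mp ha w hwS) hxw, toAdd_one,
          mul_zero]
    have hv1 : c v * symVec LS hp.ne_zero a x v = 0 := by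
      rw [← hsum, Finsupp.sum, Finset.sum_eq_single v (fun w _ hw => hval w hw)]
      intro h
      rw [Finsupp.notMem_support_iff.mp h, mul_zero]
    rcases mul_eq_zero.mp hv1 with h | h
    · exact hcv h
    · apply hav
      rw [LS.mem_locPow_iff]
      intro y
      have hvp : (p : 𝓞 K) ∉ v.asIdeal := fun h => hvS (hSp v h)
      have hx1 : ord v x = 1 := by rw [hx v hvS, Finsupp.single_eq_same]
      have h3 : LS.sym v a (y / x ^ (ord v y)) = 1 := by
        refine LS.unit_mem v hvp a _ (mem_E.mp ha v hvS) ?_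
        have hz : ord v (x ^ (ord v y)) = ord v y := by
          rcases (ord v y).eq_nat_or_neg with ⟨m, hm | hm⟩
          · rw [hm, zpow_natCast, ord_pow, hx1, mul_one]
          · rw [hm, zpow_neg, zpow_natCast, ord_inv, ord_pow, hx1, mul_one]
        rw [ord_div, hz, sub_self]
      have h4 : LS.sym v a x = 1 := h
      rw [_root_.map_div, map_zpow, h4, one_zpow, div_one] at h3
      exact h3
  -- counting
  set Q := Kˣ ⧸ P with hQ
  have hind : Indep S (fun v => locPow p v) := indep_locPow p hp.ne_zero S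
  have hPi : P.index ≠ 0 := by
    intro h
    have h3 := In.localCount K ζ hζ S hSp
    have h4 : (⨅ v ∈ S, locPow p v) ≤ P := by
      refine le_iInf₂ fun v hv => iInf₂_le v (Finset.mem_filter.mp hv).1
    have h5 := Subgroup.index_dvd_of_le h4
    rw [h, h3] at h5
    exact pow_ne_zero _ hp.ne_zero (Nat.eq_zero_of_zero_dvd h5)
  have hfin : Finite Q := Nat.finite_of_card_ne_zero hPi
  -- the form
  let B₀ : Kˣ →* Kˣ →* Multiplicative (ZMod p) :=
    { toFun := fun x =>
        { toFun := fun y => Multiplicative.ofAdd (∑ v ∈ S₁, c v * (LS.sym v x y).toAdd)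
          map_one' := by simp
          map_mul' := fun y z => by
            simp only [map_mul, toAdd_mul, mul_add, Finset.sum_add_distrib, ofAdd_add] }
      map_one' := by
        ext y
        simp
      map_mul' := fun x y => by
        ext z
        simp only [map_mul, MonoidHom.mul_apply, toAdd_mul, mul_add, Finset.sum_add_distrib,
          ofAdd_add, MonoidHom.coe_mk, OneHom.coe_mk] }
  have hB₀ : ∀ x y, B₀ x y = Multiplicative.ofAdd (∑ v ∈ S₁, c v * (LS.sym v x y).toAdd) :=
    fun x y => rfl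
  have hB₀r : ∀ x, P ≤ (B₀ x).ker := by
    intro x y hy
    rw [MonoidHom.mem_ker, hB₀]
    have : ∀ v ∈ S₁, c v * (LS.sym v x y).toAdd = 0 := by
      intro v hv
      simp only [hP, Subgroup.mem_iInf] at hy
      rw [LS.sym_eq_one_of_right (hy v hv), toAdd_one, mul_zero]
    rw [Finset.sum_eq_zero this]
    rfl
  have hB₀l : ∀ x ∈ P, B₀ x = 1 := by
    intro x hx
    ext y
    rw [hB₀]
    have : ∀ v ∈ S₁, c v * (LS.sym v x y).toAdd = 0 := by
      intro v hv
      simp only [hP, Subgroup.mem_iInf] at hx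
      rw [LS.sym_eq_one_of_left (hx v hv), toAdd_one, mul_zero]
    rw [Finset.sum_eq_zero this]
    rfl
  let B₁ : Kˣ →* Q →* Multiplicative (ZMod p) :=
    { toFun := fun x => QuotientGroup.lift P (B₀ x) (hB₀r x)
      map_one' := by
        ext y
        simp
      map_mul' := fun x y => by
        ext z
        simp }
  let B : Q →* Q →* Multiplicative (ZMod p) := QuotientGroup.lift P B₁ (by
    intro x hx
    change B₁ x = 1
    ext y
    change B₀ x y = 1
    rw [hB₀l x hx]
    rfl)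
  have hB : ∀ x y : Kˣ, B (x : Q) (y : Q) = B₀ x y := fun x y => rfl
  have hBnd : ∀ x : Q, (∀ y, B x y = 1) → x = 1 := by
    intro x
    obtain ⟨x, rfl⟩ := QuotientGroup.mk_surjective x
    intro hx
    rw [QuotientGroup.eq_one_iff]
    simp only [hP, Subgroup.mem_iInf]
    intro v hv
    rw [LS.mem_locPow_iff]
    intro y
    obtain ⟨z, hz⟩ := indep_locPow p hp.ne_zero S₁ (fun w => if w = v then y else 1)
    have h3 := hx (z : Q)
    rw [hB, hB₀] at h3
    have h4 : ∑ w ∈ S₁, c w * (LS.sym w x z).toAdd = c v * (LS.sym v x y).toAdd := by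
      rw [Finset.sum_eq_single_of_mem v hv]
      · have h5 := LS.sym_eq_one_of_right (a := x) (hz v hv)
        rw [if_pos rfl, _root_.map_div, div_eq_one] at h5
        rw [h5]
      · intro w hw hwv
        have h5 := LS.sym_eq_one_of_right (a := x) (hz w hw)
        rw [if_neg hwv, div_one] at h5
        rw [h5, toAdd_one, mul_zero]
    rw [h4] at h3
    have h5 : c v * (LS.sym v x y).toAdd = 0 := h3
    rcases mul_eq_zero.mp h5 with h6 | h6
    · exact absurd h6 (Finset.mem_filter.mp hv).2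
    · exact h6
  have hQp : ∀ x : Q, x ^ p = 1 := by
    intro x
    obtain ⟨x, rfl⟩ := QuotientGroup.mk_surjective x
    rw [← QuotientGroup.mk_pow, QuotientGroup.eq_one_iff]
    simp only [hP, Subgroup.mem_iInf]
    exact fun v _ => pow_mem_locPow p v x
  have hiso : ∀ x ∈ (E S).map (QuotientGroup.mk' P), ∀ y ∈ (E S).map (QuotientGroup.mk' P),
      B x y = 1 := by
    rintro _ ⟨x, hx, rfl⟩ _ ⟨y, hy, rfl⟩
    change B (x : Q) (y : Q) = 1
    rw [hB, hB₀]
    have h3 := h1 x y
    rw [Finsupp.sum_of_support_subset (s := S) _ (by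
      intro v hv
      by_contra h
      rw [Finsupp.mem_support_iff, symVec_apply, LS.sym_unit hSp hx hy h] at hv
      exact hv rfl) _ (fun v _ => mul_zero _)] at h3
    have h4 : ∑ v ∈ S₁, c v * (LS.sym v x y).toAdd =
        ∑ v ∈ S, c v * symVec LS hp.ne_zero x y v := by
      rw [hS₁, Finset.sum_filter]
      refine Finset.sum_congr rfl fun v _ => ?_
      split_ifs with h
      · rfl
      · rw [not_not.mp h, zero_mul]
    rw [h4, h3]
    rfl
  have hcard : Nat.card ((E S).map (QuotientGroup.mk' P)) ^ 2 ≤ Nat.card Q :=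
    card_sq_le (Q := Kˣ ⧸ P) p hQp B hBnd _ hiso
  have hcW : Nat.card ((E S).map (QuotientGroup.mk' P)) = p ^ (Units.rank K + 1 + S.card) := by
    rw [← Subgroup.relIndex_ker, QuotientGroup.ker_mk', Subgroup.relIndex, ← index_powE hp hζ S]
    congr 1
    ext y
    rw [Subgroup.mem_subgroupOf, mem_powE hp]
    constructor
    · exact hI y y.2
    · rintro ⟨b, hb⟩
      rw [← hb]
      simp only [hP, Subgroup.mem_iInf]
      exact fun v _ => pow_mem_locPow p v b
  have hcQ : Nat.card Q * p ≤ p ^ (2 * (Units.rank K + 1 + S.card)) := by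
    have h3 := In.localCount K ζ hζ S hSp
    have hle : (⨅ v ∈ S, locPow p v) ≤ P := by
      refine le_iInf₂ fun v hv => iInf₂_le v (Finset.mem_filter.mp hv).1
    have h4 := Subgroup.relIndex_mul_index hle
    have h5 : (⨅ v ∈ S, locPow p v).relIndex P ≠ 1 := by
      rw [Ne, Subgroup.relIndex_eq_one]
      intro h
      obtain ⟨π, hπ⟩ := exists_notMem_locPow_at (K := K) hp v₀
      obtain ⟨z, hz⟩ := hind (fun w => if w = v₀ then π else 1)
      have hzP : z ∈ P := by
        simp only [hP, Subgroup.mem_iInf]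
        intro v hv
        have h6 := hz v (Finset.mem_filter.mp hv).1
        have hne : v ≠ v₀ := by
          rintro rfl
          exact hv₀' hv
        rw [if_neg hne, div_one] at h6
        exact h6
      have h7 := h hzP
      simp only [Subgroup.mem_iInf] at h7
      have h8 := hz v₀ hv₀
      rw [if_pos rfl] at h8
      have h9 := div_mem (h7 v₀ hv₀) h8
      rw [div_div_cancel] at h9
      exact hπ h9
    rw [h3] at h4
    have hn : Module.finrank ℚ K = 2 * (Units.rank K + 1) := SUnits.finrank_eq_two_mul In.two_lt hζ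
    have h6 : (⨅ v ∈ S, locPow p v).relIndex P ∣ p ^ (2 * S.card + Module.finrank ℚ K) :=
      Dvd.intro _ h4
    obtain ⟨j, -, hj⟩ := (Nat.dvd_prime_pow hp).mp h6
    have hj0 : j ≠ 0 := by
      rintro rfl
      exact h5 (by rw [hj, pow_zero])
    have h7 : p ≤ (⨅ v ∈ S, locPow p v).relIndex P := by
      rw [hj]
      exact Nat.le_self_pow hj0 p
    have e : 2 * (Units.rank K + 1 + S.card) = 2 * S.card + Module.finrank ℚ K := by omega
    rw [e, ← h4, mul_comm]
    exact Nat.mul_le_mul_right _ h7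
  rw [hcW, ← pow_mul, mul_comm _ 2] at hcard
  have hpos : 0 < Nat.card Q := Nat.card_pos
  have h3 : Nat.card Q * p ≤ Nat.card Q * 1 := by
    rw [mul_one]
    exact hcQ.trans hcard
  have h4 := Nat.le_of_mul_le_mul_left h3 hpos
  exact absurd hp.one_lt (by omega)

/-- **Reciprocity**: the functional exists and all its components are nonzero. -/
theorem exists_functional (In : Inputs.{u} p) {ζ : K} (hζ : IsPrimitiveRoot ζ p)
    (R : AddSubgroup (HeightOneSpectrum (𝓞 K) →₀ ZMod p))
    (h1 : ∀ a x, symVec LS In.prime.ne_zero a x ∈ R)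
    (h2 : ∀ a, (∀ b : Kˣ, b ^ p ≠ a) → ∀ t ∈ R, (∀ v, a ∈ locPow p v → t v = 0) →
      ∃ x, t = symVec LS In.prime.ne_zero a x) :
    ∃ c : HeightOneSpectrum (𝓞 K) → ZMod p, (∀ v, c v ≠ 0) ∧
      ∀ t : HeightOneSpectrum (𝓞 K) →₀ ZMod p, t ∈ R ↔ t.sum (fun v n => c v * n) = 0 := by
  obtain ⟨c, hc⟩ := exists_functional_aux LS In hζ R h1 h2
  refine ⟨c, forall_ne_zero LS In hζ c (fun a x => (hc _).mp (h1 a x)) ?_, hc⟩
  intro a hna
  by_contra hcon
  push Not at hcon
  obtain ⟨u, hu, huW⟩ := exists_ne_symVec LS In hζ hna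
  have huR : u ∈ R := by
    rw [hc, Finsupp.sum]
    refine Finset.sum_eq_zero fun v _ => ?_
    by_cases h : a ∈ locPow p v
    · rw [hu v h, mul_zero]
    · rw [hcon v h, zero_mul]
  obtain ⟨x, hx⟩ := h2 a hna u huR hu
  exact huW x hx

end Main

end Fermat.Agent.CFT.Global
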