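import Fermat.Agent.CFT.Global.Reciprocity
import Fermat.Agent.CFT.SClass

/-!
# `|Cl_S / p| ≤ |{x ∈ Kˣ : x local p-th power at S, p ∣ ord_v x outside S} / (Kˣ)^p|`
-/

set_option autoImplicit false

namespace Fermat.Agent.CFT.Global

open IsDedekindDomain NumberField WithZero Polynomial
open Fermat.Agent.CFT.SUnits (ord ord_one ord_mul ord_inv ord_pow ord_div ord_eq_zero_iff
  valuation_eq_exp_neg_ord finite_ord_ne_zero)

universe u

section Isotropic

variable {k V : Type*} [Field k] [AddCommGroup V] [Module k V]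
    [FiniteDimensional k V] (B : V →ₗ[k] Module.Dual k V) (hB : Function.Injective B)

include hB in
lemma finrank_perp (X : Submodule k V) :
    Module.finrank k (X.dualAnnihilator.comap B) + Module.finrank k X = Module.finrank k V := by
  have h4 := Subspace.finrank_add_finrank_dualAnnihilator_eq X
  have hs : Function.Surjective B := by
    have h1 : Module.finrank k V = Module.finrank k (Module.Dual k V) :=
      (Subspace.dual_finrank_eq (K := k) (V := V)).symm
    exact (LinearMap.injective_iff_surjective_of_finrank_eq_finrank h1).1 hB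
  let e : V ≃ₗ[k] Module.Dual k V := LinearEquiv.ofBijective B ⟨hB, hs⟩
  have h2 : Module.finrank k (X.dualAnnihilator.comap B) =
      Module.finrank k X.dualAnnihilator := by
    have h3 : (X.dualAnnihilator.comap B).map B = X.dualAnnihilator :=
      Submodule.map_comap_eq_of_surjective hs _
    have h5 := (Submodule.equivMapOfInjective B hB (X.dualAnnihilator.comap B)).finrank_eq
    rwa [h3] at h5
  omega

include hB in
lemma perp_le_of_isotropic (W : Submodule k V) (hW : ∀ x ∈ W, ∀ y ∈ W, B x y = 0)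
    (hd : 2 * Module.finrank k W = Module.finrank k V) {x : V} (hx : ∀ y ∈ W, B x y = 0) :
    x ∈ W := by
  have h1 : W ≤ W.dualAnnihilator.comap B := by
    intro y hy
    rw [Submodule.mem_comap, Submodule.mem_dualAnnihilator]
    exact fun z hz => hW y hy z hz
  have h2 := finrank_perp B hB W
  have h3 : W = W.dualAnnihilator.comap B :=
    Submodule.eq_of_le_of_finrank_eq h1 (by omega)
  rw [h3, Submodule.mem_comap, Submodule.mem_dualAnnihilator]
  exact hx

end Isotropic

/-- multiplicative version -/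
theorem exists_perp {Q : Type*} [CommGroup Q] [Finite Q] (p : ℕ) [Fact p.Prime]
    (hQ : ∀ x : Q, x ^ p = 1) (B : Q →* Q →* Multiplicative (ZMod p))
    (hB : ∀ x, (∀ y, B x y = 1) → x = 1) (W H : Subgroup Q)
    (hW : ∀ x ∈ W, ∀ y ∈ W, B x y = 1) (hc : Nat.card W ^ 2 = Nat.card Q) :
    ∃ X : Subgroup Q, X ≤ W ∧ (∀ x ∈ X, ∀ y ∈ H, B x y = 1) ∧ Nat.card X = (W ⊔ H).index := by
  have hp : p.Prime := Fact.out
  let V := Additive Q
  let _ : Module (ZMod p) V := AddCommGroup.zmodModule (n := p) fun x => hQ x.toMul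
  have : Finite V := inferInstanceAs (Finite Q)
  let B' : V →ₗ[ZMod p] Module.Dual (ZMod p) V :=
    AddMonoidHom.toZModLinearMap p
      { toFun := fun x => AddMonoidHom.toZModLinearMap p (MonoidHom.toAdditiveLeft (B x.toMul))
        map_zero' := by
          ext y
          change (B 1 y.toMul).toAdd = 0
          rw [map_one]
          rfl
        map_add' := fun x y => by
          ext z
          change (B (x.toMul * y.toMul) z.toMul).toAdd = _
          rw [map_mul]
          rfl }
  have hB'apply : ∀ x y : V, B' x y = (B x.toMul y.toMul).toAdd := fun x y => rfl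
  have hinj : Function.Injective B' := by
    rw [injective_iff_map_eq_zero]
    intro x hx
    have : x.toMul = 1 := by
      apply hB
      intro y
      have h1 : B' x (Additive.ofMul y) = 0 := by rw [hx]; rfl
      rw [hB'apply] at h1
      exact h1
    exact this
  let W' : Submodule (ZMod p) V := AddSubgroup.toZModSubmodule p (Subgroup.toAddSubgroup W)
  let H' : Submodule (ZMod p) V := AddSubgroup.toZModSubmodule p (Subgroup.toAddSubgroup (W ⊔ H))
  have hcard : ∀ U : Submodule (ZMod p) V, Nat.card U = p ^ Module.finrank (ZMod p) U := by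
    intro U
    rw [Module.natCard_eq_pow_finrank (K := ZMod p), Nat.card_zmod]
  have h2 : Nat.card V = p ^ Module.finrank (ZMod p) V := by
    rw [Module.natCard_eq_pow_finrank (K := ZMod p), Nat.card_zmod]
  have hd : 2 * Module.finrank (ZMod p) W' = Module.finrank (ZMod p) V := by
    have h3 : Nat.card W = Nat.card W' := rfl
    have h5 : Nat.card Q = Nat.card V := rfl
    rw [h3, h5, h2, hcard, ← pow_mul, mul_comm] at hc
    exact Nat.pow_right_injective hp.two_le hc
  let X' := H'.dualAnnihilator.comap B'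
  have hX' := finrank_perp B' hinj H'
  have hmem : ∀ x : V, x ∈ X' ↔ ∀ y ∈ W ⊔ H, B x.toMul y = 1 := by
    intro x
    rw [Submodule.mem_comap, Submodule.mem_dualAnnihilator]
    exact ⟨fun h y hy => h (Additive.ofMul y) hy, fun h y hy => h y.toMul hy⟩
  refine ⟨AddSubgroup.toSubgroup' X'.toAddSubgroup, ?_, ?_, ?_⟩
  · intro x hx
    exact perp_le_of_isotropic B' hinj W' (fun x hx y hy => hW x.toMul hx y.toMul hy) hd
      (x := Additive.ofMul x) (fun y hy => (hmem _).1 hx y.toMul (Subgroup.mem_sup_left hy))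
  · intro x hx y hy
    exact (hmem (Additive.ofMul x)).1 hx y (Subgroup.mem_sup_right hy)
  · have h6 : Nat.card ↥(AddSubgroup.toSubgroup' X'.toAddSubgroup) = Nat.card X' := rfl
    have h7 : Nat.card ↥(W ⊔ H) = Nat.card H' := rfl
    have h8 := Subgroup.card_mul_index (W ⊔ H)
    have h9 : Nat.card Q = Nat.card V := rfl
    rw [h6, hcard]
    rw [h7, hcard, h9, h2, ← hX', pow_add, mul_comm] at h8
    exact (Nat.eq_of_mul_eq_mul_right (pow_pos hp.pos _) h8).symm

/-- Version for a subgroup `P` of finite index. -/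
theorem exists_perp' {G : Type*} [CommGroup G] (p : ℕ) [Fact p.Prime] (P : Subgroup G)
    (hP : P.index ≠ 0) (hGP : ∀ x : G, x ^ p ∈ P) (B : G →* G →* Multiplicative (ZMod p))
    (hB : ∀ x, (∀ y, B x y = 1) → x ∈ P) (hBl : ∀ x ∈ P, ∀ y, B x y = 1)
    (hBr : ∀ x, ∀ y ∈ P, B x y = 1) (W H : Subgroup G) (hPW : P ≤ W)
    (hW : ∀ x ∈ W, ∀ y ∈ W, B x y = 1) (hc : P.relIndex W ^ 2 = P.index) :
    ∃ X : Subgroup G, P ≤ X ∧ X ≤ W ∧ (∀ x ∈ X, ∀ y ∈ H, B x y = 1) ∧
      P.relIndex X = (W ⊔ H).index := by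
  have hfin : Finite (G ⧸ P) := Nat.finite_of_card_ne_zero hP
  let π := QuotientGroup.mk' P
  have hπs : Function.Surjective π := QuotientGroup.mk'_surjective P
  have hπk : π.ker = P := QuotientGroup.ker_mk' P
  let B₁ : G → (G ⧸ P) →* Multiplicative (ZMod p) := fun x =>
    QuotientGroup.lift P (B x) (fun y hy => hBr x y hy)
  let B₂ : G →* (G ⧸ P) →* Multiplicative (ZMod p) :=
    { toFun := B₁
      map_one' := by
        ext y
        change B 1 y = 1
        rw [map_one]; rfl
      map_mul' := fun x x' => by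
        ext y
        change B (x * x') y = B x y * B x' y
        rw [map_mul]; rfl }
  let B₃ : (G ⧸ P) →* (G ⧸ P) →* Multiplicative (ZMod p) :=
    QuotientGroup.lift P B₂ (fun x hx => by
      ext y
      exact hBl x hx y)
  have hB₃ : ∀ x y : G, B₃ (π x) (π y) = B x y := fun x y => rfl
  have hQ : ∀ x : G ⧸ P, x ^ p = 1 := by
    intro x
    obtain ⟨x, rfl⟩ := hπs x
    rw [← map_pow, ← MonoidHom.mem_ker, hπk]
    exact hGP x
  obtain ⟨X, hX1, hX2, hX3⟩ := exists_perp p hQ B₃ (by
      intro x hx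
      obtain ⟨x, rfl⟩ := hπs x
      rw [← MonoidHom.mem_ker, hπk]
      exact hB x fun y => by rw [← hB₃]; exact hx _) (W.map π) (H.map π) (by
      rintro _ ⟨x, hx, rfl⟩ _ ⟨y, hy, rfl⟩
      rw [hB₃]
      exact hW x hx y hy) (by
      rw [← Subgroup.relIndex_ker, hπk, hc]
      rfl)
  refine ⟨X.comap π, ?_, ?_, ?_, ?_⟩
  · intro x hx
    have h1 : π x = 1 := by rw [← MonoidHom.mem_ker, hπk]; exact hx
    rw [Subgroup.mem_comap, h1]
    exact X.one_mem
  · intro x hx
    obtain ⟨w, hw, hwx⟩ := hX1 hx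
    have h1 : w⁻¹ * x ∈ P := by
      rw [← hπk, MonoidHom.mem_ker, map_mul, map_inv, hwx, inv_mul_cancel]
    have h2 := W.mul_mem hw (hPW h1)
    rwa [mul_inv_cancel_left] at h2
  · intro x hx y hy
    rw [← hB₃]
    exact hX2 _ hx _ ⟨y, hy, rfl⟩
  · have h1 : P.relIndex (X.comap π) = Nat.card ((X.comap π).map π) := by
      rw [← Subgroup.relIndex_ker, hπk]
    rw [h1, Subgroup.map_comap_eq_self_of_surjective hπs, hX3, ← Subgroup.map_sup,
      Subgroup.index_map, hπk, MonoidHom.range_eq_top.2 hπs, Subgroup.index_top, mul_one,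
      sup_eq_left.2 (hPW.trans le_sup_left)]

section Count

variable {K : Type u} [Field K] [NumberField K] {p : ℕ}

/-- Elements with `p ∣ ord_v` for all `v ∈ T` outside `S`. -/
noncomputable def HS (p : ℕ) (S : Set (HeightOneSpectrum (𝓞 K)))
    (T : Finset (HeightOneSpectrum (𝓞 K))) : Subgroup Kˣ where
  carrier := {x | ∀ v ∈ T, v ∉ S → (p : ℤ) ∣ ord v x}
  one_mem' v _ _ := by rw [ord_one]; exact dvd_zero _
  mul_mem' hx hy v hv hv' := by rw [ord_mul]; exact dvd_add (hx v hv hv') (hy v hv hv')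
  inv_mem' hx v hv hv' := by rw [ord_inv, dvd_neg]; exact hx v hv hv'

lemma mem_HS {S : Set (HeightOneSpectrum (𝓞 K))} {T : Finset (HeightOneSpectrum (𝓞 K))} {x : Kˣ} :
    x ∈ HS p S T ↔ ∀ v ∈ T, v ∉ S → (p : ℤ) ∣ ord v x := Iff.rfl

lemma iInf_locPow_le_HS {S : Set (HeightOneSpectrum (𝓞 K))}
    {T : Finset (HeightOneSpectrum (𝓞 K))} : ⨅ v ∈ T, locPow p v ≤ HS p S T := by
  intro x hx v hv _
  rw [Subgroup.mem_iInf] at hx
  have := hx v
  rw [Subgroup.mem_iInf] at this
  exact dvd_ord_of_mem_locPow (this hv)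

lemma mem_iInf_locPow {T : Finset (HeightOneSpectrum (𝓞 K))} {x : Kˣ} :
    x ∈ (⨅ v ∈ T, locPow p v) ↔ ∀ v ∈ T, x ∈ locPow p v := by
  simp only [Subgroup.mem_iInf]

/-- Approximation of the orders. -/
lemma exists_ord_eq (T : Finset (HeightOneSpectrum (𝓞 K))) (E : HeightOneSpectrum (𝓞 K) → ℤ) :
    ∃ y : Kˣ, ∀ v ∈ T, ord v y = E v := by
  choose π hπ using exists_ord_eq_one (K := K)
  obtain ⟨y, hy⟩ := indep_cong T 0 (fun v => π v ^ E v)
  refine ⟨y, fun v hv => ?_⟩
  have h1 := ord_eq_zero_of_mem_cong (hy v hv)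
  rw [ord_div, sub_eq_zero] at h1
  rw [h1]
  simp only [ord, map_zpow, toAdd_zpow]
  have h2 := hπ v
  simp only [ord] at h2
  rw [smul_eq_mul, ← mul_neg, h2, mul_one]

/-- `|Cl_S/p|` is at most the index of `E_T · H_S`. -/
theorem clIndex_le (S : Set (HeightOneSpectrum (𝓞 K)))
    (T : Finset (HeightOneSpectrum (𝓞 K))) (hcl : ClTrivial T)
    (hidx : (E T ⊔ HS p S T).index ≠ 0) :
    (powMonoidHom p : (ClassGroup (𝓞 K) ⧸ SUnits.classSubgroup S) →* _).range.index ≤
      (E T ⊔ HS p S T).index := by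
  classical
  let dT : Kˣ →* Multiplicative (HeightOneSpectrum (𝓞 K) →₀ ℤ) :=
    { toFun := fun x => Multiplicative.ofAdd ((SUnits.div x).filter (· ∈ T))
      map_one' := by
        rw [SUnits.div_one, Finsupp.filter_zero]; rfl
      map_mul' := fun x y => by
        rw [SUnits.div_mul, Finsupp.filter_add]; rfl }
  let ψ₁ : Kˣ →* (ClassGroup (𝓞 K) ⧸ SUnits.classSubgroup S) :=
    (QuotientGroup.mk' (SUnits.classSubgroup S)).comp (SUnits.classOf.comp dT)
  let R := (powMonoidHom p : (ClassGroup (𝓞 K) ⧸ SUnits.classSubgroup S) →* _).range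
  let ψ := (QuotientGroup.mk' R).comp ψ₁
  have hψs : Function.Surjective ψ := by
    refine (QuotientGroup.mk'_surjective R).comp ?_
    intro C
    obtain ⟨C, rfl⟩ := QuotientGroup.mk'_surjective _ C
    obtain ⟨D, rfl⟩ := SUnits.classOf_surjective C
    obtain ⟨x, hx⟩ := hcl D.toAdd
    obtain ⟨y, hy⟩ := exists_ord_eq T (fun v => D.toAdd v - ord v x)
    refine ⟨y, ?_⟩
    change QuotientGroup.mk' _ (SUnits.classOf (dT y)) = _
    congr 1
    rw [← div_eq_one, ← _root_.map_div, SUnits.classOf_eq_one_iff]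
    refine ⟨x⁻¹, ?_⟩
    ext v
    rw [SUnits.div_apply, ord_inv, toAdd_div, Finsupp.sub_apply]
    change _ = (SUnits.div y).filter (· ∈ T) v - D.toAdd v
    by_cases hv : v ∈ T
    · rw [Finsupp.filter_apply_pos _ _ hv, SUnits.div_apply, hy v hv]
      ring
    · rw [Finsupp.filter_apply_neg _ _ hv, ← hx v hv]
      ring
  have hle : E T ⊔ HS p S T ≤ ψ.ker := by
    refine sup_le ?_ ?_
    · intro x hx
      rw [MonoidHom.mem_ker]
      have h1 : SUnits.classOf (dT x) = 1 := by
        rw [SUnits.classOf_eq_one_iff]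
        refine ⟨x, ?_⟩
        ext v
        change _ = (SUnits.div x).filter (· ∈ T) v
        by_cases hv : v ∈ T
        · rw [Finsupp.filter_apply_pos _ _ hv]
        · rw [Finsupp.filter_apply_neg _ _ hv, SUnits.div_apply, mem_E.1 hx v hv]
      change (QuotientGroup.mk' R) ((QuotientGroup.mk' _) (SUnits.classOf (dT x))) = 1
      rw [h1, map_one, map_one]
    · intro x hx
      rw [MonoidHom.mem_ker]
      change (QuotientGroup.mk' R) ((QuotientGroup.mk' _) (SUnits.classOf (dT x))) = 1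
      rw [← MonoidHom.mem_ker, QuotientGroup.ker_mk']
      let D' : HeightOneSpectrum (𝓞 K) →₀ ℤ :=
        ((SUnits.div x).filter (fun v => v ∈ T ∧ v ∉ S)).mapRange (fun n => n / (p : ℤ))
          (by simp)
      refine ⟨(QuotientGroup.mk' _) (SUnits.classOf (Multiplicative.ofAdd D')), ?_⟩
      rw [powMonoidHom_apply, ← map_pow, ← map_pow]
      refine (QuotientGroup.mk'_eq_mk' _).2 ⟨SUnits.classOf (dT x / (Multiplicative.ofAdd D') ^ p), ?_, ?_⟩
      · rw [SUnits.mem_classSubgroup_iff]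
        refine ⟨(dT x / (Multiplicative.ofAdd D') ^ p).toAdd, fun v hv => ?_, rfl⟩
        rw [toAdd_div, toAdd_pow, Finsupp.sub_apply]
        change (SUnits.div x).filter (· ∈ T) v - (p • D') v = 0
        rw [Finsupp.smul_apply, Finsupp.mapRange_apply]
        by_cases hvT : v ∈ T
        · rw [Finsupp.filter_apply_pos _ _ hvT, Finsupp.filter_apply_pos _ _ ⟨hvT, hv⟩,
            SUnits.div_apply, nsmul_eq_mul, Int.mul_ediv_cancel' (hx v hvT hv), sub_self]
        · rw [Finsupp.filter_apply_neg _ _ hvT, Finsupp.filter_apply_neg _ _ (fun h => hvT h.1)]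
          simp
      · rw [← map_mul, mul_div_cancel]
  have h1 : ψ.ker.index = R.index := by
    rw [Subgroup.index_ker, MonoidHom.range_eq_top.2 hψs, Subgroup.card_top]
    rfl
  change R.index ≤ _
  rw [← h1]
  exact Nat.le_of_dvd (Nat.pos_of_ne_zero hidx) (Subgroup.index_dvd_of_le hle)

/-- The group `{x : x local p-th power at S, p ∣ ord_v x outside S}`. -/
noncomputable def shaSel (p : ℕ) (S : Finset (HeightOneSpectrum (𝓞 K))) : Subgroup Kˣ where
  carrier := {x | (∀ v ∈ S, x ∈ locPow p v) ∧ ∀ v ∉ S, (p : ℤ) ∣ ord v x}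
  one_mem' := ⟨fun v _ => one_mem _, fun v _ => by rw [ord_one]; exact dvd_zero _⟩
  mul_mem' hx hy := ⟨fun v hv => mul_mem (hx.1 v hv) (hy.1 v hv),
    fun v hv => by rw [ord_mul]; exact dvd_add (hx.2 v hv) (hy.2 v hv)⟩
  inv_mem' hx := ⟨fun v hv => inv_mem (hx.1 v hv),
    fun v hv => by rw [ord_inv, dvd_neg]; exact hx.2 v hv⟩

lemma mem_shaSel {S : Finset (HeightOneSpectrum (𝓞 K))} {x : Kˣ} :
    x ∈ shaSel p S ↔ (∀ v ∈ S, x ∈ locPow p v) ∧ ∀ v ∉ S, (p : ℤ) ∣ ord v x := Iff.rfl

/-- `T`-units which are local `p`-th powers at `T` are global `p`-th powers. -/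
lemma exists_pow_of_mem_iInf (In : Inputs.{u} p) (LS : LocalSymbols p K) {ζ : K}
    (hζ : IsPrimitiveRoot ζ p) {T : Finset (HeightOneSpectrum (𝓞 K))} (hT : AboveP p T)
    (hcl : ClTrivial T) {a : Kˣ} (ha : a ∈ E T) (haP : ∀ v ∈ T, a ∈ locPow p v) :
    ∃ b : Kˣ, b ^ p = a := by
  by_contra hcon
  push Not at hcon
  have h1 := p_dvd_index In LS hζ hT hcl ha hcon
  have h2 : (⨅ v ∈ T, LS.N v a) = ⊤ := by
    rw [eq_top_iff]
    refine le_iInf₂ fun v hv => ?_
    rw [LS.N_eq_top (haP v hv)]
  rw [h2, top_sup_eq, Subgroup.index_top] at h1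
  have := In.prime.two_le
  have h3 := Nat.le_of_dvd one_pos h1
  omega

/-- The pairing `∏_{v ∈ T} (x, y)_v ^ c_v`. -/
noncomputable def pairT (LS : LocalSymbols p K) (c : HeightOneSpectrum (𝓞 K) → ZMod p)
    (T : Finset (HeightOneSpectrum (𝓞 K))) : Kˣ →* Kˣ →* Multiplicative (ZMod p) :=
  ∏ v ∈ T, LS.sym v ^ (c v).val

lemma pairT_apply (LS : LocalSymbols p K) (c : HeightOneSpectrum (𝓞 K) → ZMod p)
    (T : Finset (HeightOneSpectrum (𝓞 K))) (x y : Kˣ) :
    pairT LS c T x y = ∏ v ∈ T, LS.sym v x y ^ (c v).val := by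
  rw [pairT, MonoidHom.finsetProd_apply, MonoidHom.finsetProd_apply]
  rfl

lemma toAdd_pairT [Fact p.Prime] (LS : LocalSymbols p K) (c : HeightOneSpectrum (𝓞 K) → ZMod p)
    (T : Finset (HeightOneSpectrum (𝓞 K))) (x y : Kˣ) :
    (pairT LS c T x y).toAdd = ∑ v ∈ T, c v * (LS.sym v x y).toAdd := by
  rw [pairT_apply, toAdd_prod]
  refine Finset.sum_congr rfl fun v _ => ?_
  rw [toAdd_pow, nsmul_eq_mul, ZMod.natCast_zmod_val]

lemma pairT_eq_one_of_left (LS : LocalSymbols p K) (c : HeightOneSpectrum (𝓞 K) → ZMod p)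
    {T : Finset (HeightOneSpectrum (𝓞 K))} {x y : Kˣ} (hx : ∀ v ∈ T, x ∈ locPow p v) :
    pairT LS c T x y = 1 := by
  rw [pairT_apply]
  exact Finset.prod_eq_one fun v hv => by rw [LS.sym_eq_one_of_left (hx v hv), one_pow]

lemma pairT_eq_one_of_right (LS : LocalSymbols p K) (c : HeightOneSpectrum (𝓞 K) → ZMod p)
    {T : Finset (HeightOneSpectrum (𝓞 K))} {x y : Kˣ} (hy : ∀ v ∈ T, y ∈ locPow p v) :
    pairT LS c T x y = 1 := by
  rw [pairT_apply]
  exact Finset.prod_eq_one fun v hv => by rw [LS.sym_eq_one_of_right (hy v hv), one_pow]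

/-- Isolating one place. -/
lemma sym_eq_one_of_pairT [Fact p.Prime] (LS : LocalSymbols p K)
    {c : HeightOneSpectrum (𝓞 K) → ZMod p} (hc : ∀ v, c v ≠ 0)
    {T : Finset (HeightOneSpectrum (𝓞 K))} {x : Kˣ} {v : HeightOneSpectrum (𝓞 K)} (hv : v ∈ T)
    (y : Kˣ) (h : ∀ y', y' / y ∈ locPow p v → (∀ w ∈ T, w ≠ v → y' ∈ locPow p w) →
      pairT LS c T x y' = 1) : LS.sym v x y = 1 := by
  classical
  obtain ⟨y', hy'⟩ := indep_locPow p (Fact.out : p.Prime).ne_zero T
    (fun w => if w = v then y else 1)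
  have h1 : y' / y ∈ locPow p v := by
    have := hy' v hv
    rwa [if_pos rfl] at this
  have h2 : ∀ w ∈ T, w ≠ v → y' ∈ locPow p w := by
    intro w hw hwv
    have := hy' w hw
    rwa [if_neg hwv, div_one] at this
  have h3 := congrArg Multiplicative.toAdd (h y' h1 h2)
  rw [toAdd_pairT, Finset.sum_eq_single v] at h3
  · rw [toAdd_one, mul_eq_zero] at h3
    have h4 : LS.sym v x y' = 1 := Multiplicative.toAdd.injective (h3.resolve_left (hc v))
    have h5 : LS.sym v x (y' / y) = 1 := LS.sym_eq_one_of_right h1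
    rw [_root_.map_div, h4, one_div, inv_eq_one] at h5
    exact h5
  · intro w hw hwv
    rw [LS.sym_eq_one_of_right (h2 w hw hwv), toAdd_one, mul_zero]
  · exact fun h => absurd hv h

/-- `|Cl_S/p| ≤ |shaSel / (Kˣ)^p|`. -/
theorem clIndex_le_relIndex (In : Inputs.{u} p) (LS : LocalSymbols p K) {ζ : K}
    (hζ : IsPrimitiveRoot ζ p) (c : HeightOneSpectrum (𝓞 K) → ZMod p) (hc : ∀ v, c v ≠ 0)
    (hrec : ∀ a x, (symVec LS In.prime.ne_zero a x).sum (fun v n => c v * n) = 0)
    (S : Finset (HeightOneSpectrum (𝓞 K))) (hS : AboveP p S)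
    (hfin : (powMonoidHom p : Kˣ →* Kˣ).range.relIndex (shaSel p S) ≠ 0) :
    (powMonoidHom p : (ClassGroup (𝓞 K) ⧸
      SUnits.classSubgroup (S : Set (HeightOneSpectrum (𝓞 K)))) →* _).range.index ≤
      (powMonoidHom p : Kˣ →* Kˣ).range.relIndex (shaSel p S) := by
  classical
  have hp := In.prime
  have : Fact p.Prime := ⟨hp⟩
  obtain ⟨T, hST, hT, hcl, -⟩ := exists_good (K := K) p hp.ne_zero S ∅
  set P : Subgroup Kˣ := ⨅ v ∈ T, locPow p v with hPdef
  have hPidx : P.index = p ^ (2 * T.card + Module.finrank ℚ K) := In.localCount K ζ hζ T hT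
  have hP0 : P.index ≠ 0 := by rw [hPidx]; exact pow_ne_zero _ hp.ne_zero
  set H := HS p (S : Set (HeightOneSpectrum (𝓞 K))) T with hHdef
  have hPH : P ≤ H := iInf_locPow_le_HS
  have hEP : ∀ x ∈ E T, x ∈ P → ∃ b : Kˣ, b ^ p = x := fun x hx hxP =>
    exists_pow_of_mem_iInf In LS hζ hT hcl hx (mem_iInf_locPow.1 hxP)
  -- the index of `P` in `E T · P`
  have hrel : P.relIndex (E T ⊔ P) ^ 2 = P.index := by
    have h1 : P.relIndex (E T ⊔ P) = P.relIndex (E T) := Subgroup.relIndex_sup_right _ _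
    have h2 : P.relIndex (E T) = (powE p T).index := by
      rw [Subgroup.relIndex]
      congr 1
      ext x
      rw [Subgroup.mem_subgroupOf, mem_powE hp]
      constructor
      · exact fun h => hEP x x.2 h
      · rintro ⟨b, hb⟩
        rw [← hb]
        exact mem_iInf_locPow.2 fun v _ => pow_mem_locPow p v b
    have h3 := SUnits.finrank_eq_two_mul (n := p) In.two_lt hζ
    rw [h1, h2, index_powE hp hζ, hPidx, h3, ← pow_mul]
    congr 1
    ring
  -- isotropy
  have hiso : ∀ x ∈ E T ⊔ P, ∀ y ∈ E T ⊔ P, pairT LS c T x y = 1 := by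
    intro x hx y hy
    obtain ⟨e, he, a, ha, rfl⟩ := Subgroup.mem_sup.1 hx
    obtain ⟨e', he', b, hb, rfl⟩ := Subgroup.mem_sup.1 hy
    have h1 : pairT LS c T e e' = 1 := by
      apply Multiplicative.toAdd.injective
      rw [toAdd_pairT, toAdd_one, ← hrec e e']
      symm
      refine Finsupp.sum_of_support_subset _ (fun v hv => ?_) _ (fun v _ => mul_zero _)
      by_contra hvT
      refine (Finsupp.mem_support_iff.1 hv) ?_
      rw [symVec_apply, LS.sym_unit hT he he' hvT, toAdd_one]
    have h2 : ∀ z, pairT LS c T a z = 1 := fun z =>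
      pairT_eq_one_of_left LS c (mem_iInf_locPow.1 ha)
    have h3 : ∀ z, pairT LS c T z b = 1 := fun z =>
      pairT_eq_one_of_right LS c (mem_iInf_locPow.1 hb)
    rw [map_mul (pairT LS c T), MonoidHom.mul_apply, h2, mul_one, map_mul, h3, mul_one, h1]
  obtain ⟨X, hPX, hXW, hXH, hXc⟩ := exists_perp' p P hP0 (fun x => mem_iInf_locPow.2 fun v _ =>
      pow_mem_locPow p v x) (pairT LS c T) (fun x hx => by
        rw [mem_iInf_locPow]
        intro v hv
        rw [LS.mem_locPow_iff]
        exact fun y => sym_eq_one_of_pairT LS hc hv y fun y' _ _ => hx y')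
      (fun x hx y => pairT_eq_one_of_left LS c (mem_iInf_locPow.1 hx))
      (fun x y hy => pairT_eq_one_of_right LS c (mem_iInf_locPow.1 hy)) (E T ⊔ P) H le_sup_right
      hiso hrel
  -- elements of `X ∩ E T` are in `shaSel`
  have hY : X ⊓ E T ≤ shaSel p S := by
    rintro x ⟨hxX, hxE⟩
    refine ⟨fun v hv => ?_, fun v hv => ?_⟩
    · rw [LS.mem_locPow_iff]
      intro y
      refine sym_eq_one_of_pairT LS hc (hST hv) y fun y' _ hy' => hXH x hxX y' ?_
      intro w hw hwS
      exact dvd_ord_of_mem_locPow (hy' w hw (by rintro rfl; exact hwS hv))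
    · by_cases hvT : v ∈ T
      · by_contra hnd
        have hvp : (p : 𝓞 K) ∉ v.asIdeal := fun h => hv (hS v h)
        -- units are orthogonal
        have h1 : ∀ u : Kˣ, ord v u = 0 → LS.sym v x u = 1 := by
          intro u hu
          refine sym_eq_one_of_pairT LS hc hvT u fun y' hy'v hy' => hXH x hxX y' ?_
          intro w hw hwS
          by_cases hwv : w = v
          · subst hwv
            have h2 := dvd_ord_of_mem_locPow hy'v
            rwa [ord_div, hu, sub_zero] at h2
          · exact dvd_ord_of_mem_locPow (hy' w hw hwv)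
        have h2 : LS.sym v x x = 1 := by
          have h3 := LS.skew v x x
          have h4 : (LS.sym v x x).toAdd + (LS.sym v x x).toAdd = 0 := congrArg Multiplicative.toAdd h3
          have h5 : (2 : ZMod p) * (LS.sym v x x).toAdd = 0 := by rw [two_mul, h4]
          have h6 : (2 : ZMod p) ≠ 0 := by
            intro h
            have h7 : ((2 : ℕ) : ZMod p) = 0 := by exact_mod_cast h
            rw [ZMod.natCast_eq_zero_iff] at h7
            have := Nat.le_of_dvd two_pos h7
            have := In.two_lt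
            omega
          exact Multiplicative.toAdd.injective ((mul_eq_zero.1 h5).resolve_left h6)
        have h3 : x ∈ locPow p v := by
          rw [LS.mem_locPow_iff]
          intro a
          have hcop : IsCoprime (ord v x) (p : ℤ) := by
            rw [isCoprime_comm]
            exact (Prime.coprime_iff_not_dvd (Nat.prime_iff_prime_int.1 hp)).2 hnd
          obtain ⟨r, s, hrs⟩ := hcop
          obtain ⟨π, hπ⟩ := exists_ord_eq_one v
          -- `a = x^(r ord a) * (π^(s ord a))^p * u`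
          have h4 : ord v (a / (x ^ (r * ord v a) * (π ^ (s * ord v a)) ^ p)) = 0 := by
            have h5 : ∀ (z : Kˣ) (n : ℤ), ord v (z ^ n) = n * ord v z := by
              intro z n
              simp only [ord, map_zpow, toAdd_zpow]
              simp
            rw [ord_div, ord_mul, ord_pow, h5, h5, hπ]
            linear_combination (-ord v a) * hrs
          have h5 := h1 _ h4
          rw [_root_.map_div, map_mul, map_zpow, h2, one_zpow, one_mul, map_pow] at h5
          have h6 : (LS.sym v x (π ^ (s * ord v a))) ^ p = 1 := by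
            apply Multiplicative.toAdd.injective
            rw [toAdd_pow, toAdd_one, nsmul_eq_mul, ZMod.natCast_self, zero_mul]
          rwa [h6, div_one] at h5
        exact hnd (dvd_ord_of_mem_locPow h3)
      · rw [mem_E.1 hxE v hvT]
        exact dvd_zero _
  -- counting
  have h1 : P.relIndex X = P.relIndex (X ⊓ E T) := by
    have h2 : X = (X ⊓ E T) ⊔ P := by
      apply le_antisymm
      · intro x hx
        obtain ⟨e, he, a, ha, rfl⟩ := Subgroup.mem_sup.1 (hXW hx)
        refine Subgroup.mul_mem_sup ⟨?_, he⟩ ha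
        have h3 := X.mul_mem hx (X.inv_mem (hPX ha))
        rwa [mul_inv_cancel_right] at h3
      · exact sup_le inf_le_left hPX
    conv_lhs => rw [h2]
    exact Subgroup.relIndex_sup_right _ _
  have h2 : P.relIndex (X ⊓ E T) = (powMonoidHom p : Kˣ →* Kˣ).range.relIndex (X ⊓ E T) := by
    rw [Subgroup.relIndex, Subgroup.relIndex]
    congr 1
    ext x
    rw [Subgroup.mem_subgroupOf, Subgroup.mem_subgroupOf]
    constructor
    · exact fun h => hEP x x.2.2 h
    · rintro ⟨b, hb⟩
      rw [← hb]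
      exact mem_iInf_locPow.2 fun v _ => pow_mem_locPow p v b
  have h3 : (powMonoidHom p : Kˣ →* Kˣ).range.relIndex (X ⊓ E T) ≤
      (powMonoidHom p : Kˣ →* Kˣ).range.relIndex (shaSel p S) :=
    Subgroup.relIndex_le_of_le_right hY hfin
  refine le_trans ?_ h3
  rw [← h2, ← h1, hXc, sup_assoc, sup_eq_right.2 hPH]
  refine clIndex_le _ T hcl ?_
  intro h0
  have h4 := Subgroup.index_dvd_of_le (hPH.trans (le_sup_right : H ≤ E T ⊔ H))
  rw [h0, zero_dvd_iff] at h4
  exact hP0 h4

end Count

end Fermat.Agent.CFT.Global
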