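import Fermat.Agent.CFT.Global.Image
import Fermat.Agent.PT.Dual

/-!
# Restriction of twisted classes over `ℚ` to `K` and to the local groups

`χ : Γ → (ZMod p)ˣ` a character, `K` with `K.fixingSubgroup ≤ χ.ker`.

* `resK : H²(Γ, μ) → H²(G_K, ℤ/p)`, `resQ q : H²(Γ, μ) → H²(G_q, μ)`,
  `resL q g : H²(G_q, μ) → H²(G_{(q,g)}, ℤ/p)`;
* `resW_resK : resW K q g (resK x) = χ(g)⁻¹ • resL q g (resQ q x)`;
* `resT_conjW_resL`.
-/

set_option autoImplicit false

namespace Fermat.Agent.CFT.Global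

open Fermat.Agent.PT Fermat.Agent.CFT.Kum Fermat.Agent.CFT.Kum.KumSet Fermat.Agent.CFT.Bridge
open NumberField IsDedekindDomain

/-- Conjugation acts trivially in cohomology, at the level of cocycles. -/
theorem exists_conj_cob {k G M : Type*} [CommRing k] [Group G] [AddCommGroup M] [Module k M]
    {𝓛 : LevelSys G} {ρ : Representation k G M} (c : ↥(Z2 𝓛 ρ)) (t : G) :
    ∃ f : G → M, LC1 𝓛 f ∧ ∀ g h,
      ρ t (c.1 (t⁻¹ * g * t, t⁻¹ * h * t)) - c.1 (g, h) = ρ g (f h) - f (g * h) + f g := by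
  obtain ⟨W, hW, hWn, hWc⟩ := c.2.1.exists_normal
  have hc : ∀ x y z : G, c.1 (x * y, z) + c.1 (x, y) = ρ x (c.1 (y, z)) + c.1 (x, y * z) :=
    c.2.2
  refine ⟨fun g => c.1 (t, t⁻¹ * g * t) - c.1 (g, t), ⟨W, hW, fun g s hs => ?_⟩, fun g h => ?_⟩
  · beta_reduce
    have h1 := hWc t (t⁻¹ * g * t) 1 (t⁻¹ * s * t) W.one_mem
      (by simpa using hWn.conj_mem s hs t⁻¹)
    have h2 := hWc g t s 1 hs W.one_mem
    rw [mul_one] at h1 h2
    have e1 : t⁻¹ * (g * s) * t = t⁻¹ * g * t * (t⁻¹ * s * t) := by group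
    rw [e1, h1, h2]
  · beta_reduce
    have e1 : t * (t⁻¹ * g * t) = g * t := by group
    have e2 : t * (t⁻¹ * h * t) = h * t := by group
    have e3 : t⁻¹ * g * t * (t⁻¹ * h * t) = t⁻¹ * (g * h) * t := by group
    have hA := hc t (t⁻¹ * g * t) (t⁻¹ * h * t)
    have hB := hc g t (t⁻¹ * h * t)
    have hC := hc g h t
    rw [e1, e3] at hA
    rw [e2] at hB
    rw [map_sub]
    have hA' : ρ t (c.1 (t⁻¹ * g * t, t⁻¹ * h * t)) =
        c.1 (g * t, t⁻¹ * h * t) + c.1 (t, t⁻¹ * g * t) - c.1 (t, t⁻¹ * (g * h) * t) := by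
      rw [hA]; abel
    have hB' : c.1 (g * t, t⁻¹ * h * t) =
        ρ g (c.1 (t, t⁻¹ * h * t)) + c.1 (g, h * t) - c.1 (g, t) := by
      rw [← hB]; abel
    have hC' : c.1 (g, h * t) = c.1 (g * h, t) + c.1 (g, h) - ρ g (c.1 (h, t)) := by
      rw [hC]; abel
    rw [hA', hB', hC']
    abel

variable {p : ℕ} [hp : Fact p.Prime] (χ : GamQ →* (ZMod p)ˣ)

/-- The local twisted representation. -/
noncomputable abbrev chiLoc (q : ℕ) [Fact q.Prime] : Representation (ZMod p) (LocG q) (ZMod p) :=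
  (chiRep χ).comp (localGaloisToGlobal q)

lemma chiLoc_apply (q : ℕ) [Fact q.Prime] (g : LocG q) (x : ZMod p) :
    chiLoc χ q g x = (χ (localGaloisToGlobal q g) : ZMod p) * x := rfl

lemma compat_localGaloisToGlobal (q : ℕ) [Fact q.Prime] :
    levQ.Compat (localGaloisToGlobal q) (levLoc q) := by
  intro W hW
  have h1 := LevelSys.comap_mem_comap (localGaloisToGlobal q) hW
  have h2 := comap_localGaloisToGlobal_galLevels q
  rw [h2] at h1
  exact h1

/-- Restriction `H²(Γ, μ) → H²(G_q, μ)`. -/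
noncomputable def resQ (q : ℕ) [Fact q.Prime] :
    H2 levQ (chiRep χ) →ₗ[ZMod p] H2 (levLoc q) (chiLoc χ q) :=
  H2map (localGaloisToGlobal q) (compat_localGaloisToGlobal q) LinearMap.id (fun _ _ => rfl)

variable {χ} {K : IntermediateField ℚ (AlgebraicClosure ℚ)} (hK : K.fixingSubgroup = χ.ker)

/-- Restriction `H²(Γ, μ) → H²(G_K, ℤ/p)`. -/
noncomputable def resK : H2 levQ (chiRep χ) →ₗ[ZMod p]
    H2 (lev K) (Bridge.triv p K.fixingSubgroup) :=
  H2map K.fixingSubgroup.subtype (LevelSys.compat_comap _) LinearMap.id (fun h x => by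
    have h1 : χ (h : GamQ) = 1 := MonoidHom.mem_ker.1 (hK ▸ h.2)
    simp [chiRep_apply, h1])

include hK in
lemma chi_localGaloisToGlobal (q : ℕ) [Fact q.Prime] (g : GamQ)
    (h : (locField (emb K q g)).fixingSubgroup) : χ (localGaloisToGlobal q h) = 1 := by
  have h1 := (mem_fixing_locField_emb_iff K q).mp h.2
  rw [hK, MonoidHom.mem_ker, map_mul, map_mul, map_inv, mul_assoc, mul_comm, mul_assoc,
    mul_inv_cancel, mul_one] at h1
  exact h1

/-- Restriction `H²(G_q, μ) → H²(G_{(q,g)}, ℤ/p)`. -/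
noncomputable def resL (q : ℕ) [Fact q.Prime] (g : GamQ) :
    H2 (levLoc q) (chiLoc χ q) →ₗ[ZMod p]
      H2 (lev (locField (emb K q g))) (Bridge.triv p (locField (emb K q g)).fixingSubgroup) :=
  H2map (locField (emb K q g)).fixingSubgroup.subtype (LevelSys.compat_comap _) LinearMap.id
    (fun h x => by
      have h1 := chi_localGaloisToGlobal hK q g h
      change (χ (localGaloisToGlobal q h) : ZMod p) * x = x
      rw [h1, Units.val_one, one_mul])

/-- The class map for `lev l` and trivial coefficients. -/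
noncomputable abbrev mkT (p : ℕ) [Fact p.Prime] {F Ω : Type*} [Field F] [Field Ω] [Algebra F Ω]
    [IsGalois F Ω] (l : IntermediateField F Ω) :
    ↥(Z2 (lev l) (Bridge.triv p l.fixingSubgroup)) →ₗ[ZMod p]
      H2 (lev l) (Bridge.triv p l.fixingSubgroup) :=
  H2mk (lev l) (Bridge.triv p l.fixingSubgroup)

lemma H2mk_triv_eq {G : Type*} [Group G] {𝓛 : LevelSys G} {z z' : ↥(Z2 𝓛 (Bridge.triv p G))}
    {e : G → ZMod p} (he : LC1 𝓛 e)
    (h : ∀ g h, z.1 (g, h) - z'.1 (g, h) = e h - e (g * h) + e g) :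
    H2mk 𝓛 (Bridge.triv p G) z = H2mk 𝓛 (Bridge.triv p G) z' := by
  rw [← sub_eq_zero, ← map_sub, H2mk_triv_eq_zero_iff]
  exact ⟨e, he, h⟩

/-- **Restriction to `K` and to the place `(q, g)`** versus restriction to `G_q`. -/
theorem resW_resK (q : ℕ) [Fact q.Prime] (g : GamQ) (x : H2 levQ (chiRep χ)) :
    resW K q g (resK hK x) = ((χ g)⁻¹ : (ZMod p)ˣ).val • resL hK q g (resQ χ q x) := by
  obtain ⟨c, rfl⟩ := H2mk_surjective x
  obtain ⟨f, hf, hfc⟩ := exists_conj_cob c g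
  obtain ⟨z, hz, hzc⟩ : ∃ z : ↥(Z2 (lev (locField (emb K q g)))
      (Bridge.triv p (locField (emb K q g)).fixingSubgroup)),
      resW K q g (resK hK (H2mk levQ (chiRep χ) c)) = mkT p (locField (emb K q g)) z ∧
        ∀ h h', z.1 (h, h') = c.1 (g⁻¹ * localGaloisToGlobal q h * g, g⁻¹ * localGaloisToGlobal q h' * g) :=
    ⟨_, rfl, fun _ _ => rfl⟩
  obtain ⟨z', hz', hzc'⟩ : ∃ z' : ↥(Z2 (lev (locField (emb K q g)))
      (Bridge.triv p (locField (emb K q g)).fixingSubgroup)),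
      ((χ g)⁻¹ : (ZMod p)ˣ).val • resL hK q g (resQ χ q (H2mk levQ (chiRep χ) c)) =
        mkT p (locField (emb K q g)) z' ∧ ∀ h h', z'.1 (h, h') = ((χ g)⁻¹ : (ZMod p)ˣ).val *
          c.1 (localGaloisToGlobal q h, localGaloisToGlobal q h') :=
    ⟨_, rfl, fun _ _ => rfl⟩
  rw [hz, hz']
  have hcomp : levQ.Compat ((localGaloisToGlobal q).comp
      (locField (emb K q g)).fixingSubgroup.subtype) (lev (locField (emb K q g))) := by
    intro W hW
    exact LevelSys.compat_comap _ _ (compat_localGaloisToGlobal q W hW)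
  refine H2mk_triv_eq (e := fun h => ((χ g)⁻¹ : (ZMod p)ˣ).val * f (localGaloisToGlobal q h))
    ((hf.precomp hcomp).comp (fun z => ((χ g)⁻¹ : (ZMod p)ˣ).val * z)) fun h h' => ?_
  have h1 := hfc (localGaloisToGlobal q h) (localGaloisToGlobal q h')
  have h2 := chi_localGaloisToGlobal hK q g h
  rw [chiRep_apply, chiRep_apply, h2, Units.val_one, one_mul] at h1
  have h3 : ((χ g)⁻¹ : (ZMod p)ˣ).val * ((χ g : (ZMod p)ˣ) : ZMod p) = 1 := by
    rw [← Units.val_mul, inv_mul_cancel, Units.val_one]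
  beta_reduce
  rw [hzc, hzc', Subgroup.coe_mul, map_mul]
  linear_combination ((χ g)⁻¹ : (ZMod p)ˣ).val * h1 -
    (c.1 (g⁻¹ * localGaloisToGlobal q h * g, g⁻¹ * localGaloisToGlobal q h' * g)) * h3

/-- Conjugation by local elements. -/
theorem resT_conjW_resL (q : ℕ) [Fact q.Prime] (g : GamQ) (σ : LocG q) (u : GamQ)
    (hu : u ∈ K.fixingSubgroup) (y : H2 (levLoc q) (chiLoc χ q)) :
    resT (conjW K g σ u hu) (compat_conjW K g σ u hu) (resL hK q g y) =
      ((χ (localGaloisToGlobal q σ))⁻¹ : (ZMod p)ˣ).val •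
        resL hK q (localGaloisToGlobal q σ * g * u) y := by
  obtain ⟨c, rfl⟩ := H2mk_surjective y
  obtain ⟨f, hf, hfc⟩ := exists_conj_cob c σ
  set g' := localGaloisToGlobal q σ * g * u with hg'
  set a := ((χ (localGaloisToGlobal q σ))⁻¹ : (ZMod p)ˣ).val with ha
  obtain ⟨z, hz, hzc⟩ : ∃ z : ↥(Z2 (lev (locField (emb K q g')))
      (Bridge.triv p (locField (emb K q g')).fixingSubgroup)),
      resT (conjW K g σ u hu) (compat_conjW K g σ u hu)
        (resL hK q g (H2mk (levLoc q) (chiLoc χ q) c)) =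
        mkT p (locField (emb K q g')) z ∧ ∀ h h', z.1 (h, h') =
        c.1 (σ⁻¹ * h * σ, σ⁻¹ * h' * σ) :=
    ⟨_, rfl, fun _ _ => rfl⟩
  obtain ⟨z', hz', hzc'⟩ : ∃ z' : ↥(Z2 (lev (locField (emb K q g')))
      (Bridge.triv p (locField (emb K q g')).fixingSubgroup)),
      a • resL hK q g' (H2mk (levLoc q) (chiLoc χ q) c) =
        mkT p (locField (emb K q g')) z' ∧ ∀ h h', z'.1 (h, h') = a * c.1 (h, h') :=
    ⟨_, rfl, fun _ _ => rfl⟩
  rw [hz, hz']
  refine H2mk_triv_eq (e := fun h => a * f h)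
    ((hf.precomp (LevelSys.compat_comap _)).comp (fun z => a * z)) fun h h' => ?_
  have h1 := hfc h h'
  have h2 := chi_localGaloisToGlobal hK q g' h
  rw [chiLoc_apply, chiLoc_apply, h2, Units.val_one, one_mul] at h1
  have h3 : a * ((χ (localGaloisToGlobal q σ) : (ZMod p)ˣ) : ZMod p) = 1 := by
    rw [ha, ← Units.val_mul, inv_mul_cancel, Units.val_one]
  beta_reduce
  rw [hzc, hzc', Subgroup.coe_mul]
  linear_combination a * h1 - (c.1 (σ⁻¹ * h * σ, σ⁻¹ * h' * σ)) * h3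

/-! ### The action of `δ ∈ Γ` on `H²(G_K, ℤ/p)`, `K/ℚ` Galois -/

/-- conjugation `u ↦ δ⁻¹ u δ` on `G_K`. -/
noncomputable def conjK (hn : K.fixingSubgroup.Normal) (δ : GamQ) : K.fixingSubgroup →* K.fixingSubgroup where
  toFun u := ⟨δ⁻¹ * u * δ, by simpa using hn.conj_mem u.1 u.2 δ⁻¹⟩
  map_one' := by
    apply Subtype.ext
    simp
  map_mul' a b := by
    apply Subtype.ext
    simp only [Subgroup.coe_mul]
    group

lemma compat_conjK (hn : K.fixingSubgroup.Normal) (δ : GamQ) :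
    (lev K).Compat (conjK hn δ) (lev K) := by
  rintro W ⟨V, hV, hVW⟩
  obtain ⟨V', hV', hVV', hn'⟩ := LevelSys.exists_normal hV
  refine ⟨V', hV', fun h hh => ?_⟩
  rw [Subgroup.mem_comap] at hh ⊢
  apply hVW
  rw [Subgroup.mem_comap]
  apply hVV'
  have := hn'.conj_mem _ hh δ⁻¹
  rwa [inv_inv] at this

/-- The action of `δ` on `H²(G_K, ℤ/p)`. -/
noncomputable def dAct (hn : K.fixingSubgroup.Normal) (δ : GamQ) :
    H2 (lev K) (Bridge.triv p K.fixingSubgroup) →ₗ[ZMod p]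
      H2 (lev K) (Bridge.triv p K.fixingSubgroup) :=
  resT (conjK hn δ) (compat_conjK hn δ)

/-- The identification of the local groups at `(q, g)` and `(q, g δ)`. -/
noncomputable def idW (hn : K.fixingSubgroup.Normal) (q : ℕ) [Fact q.Prime] (g δ : GamQ) :
    (locField (emb K q g)).fixingSubgroup →* (locField (emb K q (g * δ))).fixingSubgroup where
  toFun h := ⟨h, by
    have h1 := (mem_fixing_locField_emb_iff K q).mp h.2
    rw [mem_fixing_locField_emb_iff]
    have h2 := hn.conj_mem _ h1 δ⁻¹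
    convert h2 using 1
    group⟩
  map_one' := rfl
  map_mul' a b := rfl

lemma compat_idW (hn : K.fixingSubgroup.Normal) (q : ℕ) [Fact q.Prime] (g δ : GamQ) :
    (lev (locField (emb K q (g * δ)))).Compat (idW hn q g δ) (lev (locField (emb K q g))) :=
  compat_comap_of_comp _ rfl

theorem resW_dAct (hn : K.fixingSubgroup.Normal) (q : ℕ) [Fact q.Prime] (g δ : GamQ)
    (x : H2 (lev K) (Bridge.triv p K.fixingSubgroup)) :
    resW K q g (dAct hn δ x) = resT (idW hn q g δ) (compat_idW hn q g δ) (resW K q (g * δ) x) := by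
  obtain ⟨c, rfl⟩ := H2mk_surjective x
  obtain ⟨z, hz, hzc⟩ : ∃ z : ↥(Z2 (lev (locField (emb K q g)))
      (Bridge.triv p (locField (emb K q g)).fixingSubgroup)),
      resW K q g (dAct hn δ (mkT p K c)) = mkT p (locField (emb K q g)) z ∧
        ∀ h h', z.1 (h, h') =
        c.1 (conjK hn δ (jw K q g h), conjK hn δ (jw K q g h')) :=
    ⟨_, rfl, fun _ _ => rfl⟩
  obtain ⟨z', hz', hzc'⟩ : ∃ z' : ↥(Z2 (lev (locField (emb K q g)))
      (Bridge.triv p (locField (emb K q g)).fixingSubgroup)),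
      resT (idW hn q g δ) (compat_idW hn q g δ) (resW K q (g * δ) (mkT p K c)) =
        mkT p (locField (emb K q g)) z' ∧ ∀ h h', z'.1 (h, h') =
          c.1 (jw K q (g * δ) (idW hn q g δ h), jw K q (g * δ) (idW hn q g δ h')) :=
    ⟨_, rfl, fun _ _ => rfl⟩
  rw [hz, hz']
  congr 1
  ext ⟨h, h'⟩
  have key : ∀ h, conjK hn δ (jw K q g h) = jw K q (g * δ) (idW hn q g δ h) := by
    intro h
    apply Subtype.ext
    change δ⁻¹ * (g⁻¹ * localGaloisToGlobal q h * g) * δ =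
      (g * δ)⁻¹ * localGaloisToGlobal q h * (g * δ)
    group
  rw [hzc, hzc', key, key]

theorem resT_idW_resL (hn : K.fixingSubgroup.Normal) (q : ℕ) [Fact q.Prime] (g δ : GamQ)
    (y : H2 (levLoc q) (chiLoc χ q)) :
    resT (idW hn q g δ) (compat_idW hn q g δ) (resL hK q (g * δ) y) = resL hK q g y := by
  obtain ⟨c, rfl⟩ := H2mk_surjective y
  rfl

end Fermat.Agent.CFT.Global
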